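import Fermat.Agent.AbelianVar.Quadratic

/-!
# The number of torsion points of an abelian variety, in the shape of the statement S26
-/

set_option autoImplicit false

open CategoryTheory CategoryTheory.Limits AlgebraicGeometry NeronModelInfra GoodReductionJacobian

universe u

namespace FLTA.AbelianVar

/-- The number of `n`-torsion points, given the universal case of the theorem of the cube. -/
theorem natCard_isTorsionPoint_of_cube (K : Type u) [Field K] [IsAlgClosed K] {A : Scheme.{u}}
    (f : A ⟶ Spec (CommRingCat.of K)) (L : RelativeGroupLaw K f) (hc : L.IsCommutative)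
    (hA : AbelianSchemePropertyBundle K f) (g : ℕ) [SmoothOfRelativeDimension g f]
    (hcube : ∀ D : Pic A, (CommLaw.mk L hc).cube D (CommLaw.mk L hc).proj₁
      (CommLaw.mk L hc).proj₂ (CommLaw.mk L hc).proj₃ = 0)
    (n : ℕ) (hn : (n : K) ≠ 0) :
    Nat.card {x : SchemeHomOver (𝟙 (Spec (CommRingCat.of K))) f //
        L.IsTorsionPoint (𝟙 (Spec (CommRingCat.of K))) n x} = n ^ (2 * g) := by
  let G : CommLaw K f := ⟨L, hc⟩
  have := isProper_of_bundle hA
  have := isIntegral_abelian hA g G
  exact G.natCard_ker_eq_pow g
    (fun D a b c => G.cube_eq_zero_of_universal D (hcube D) a b c) n hn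

end FLTA.AbelianVar
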