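import Mathlib

/-! Line bundles as unit Cech cocycles indexed by the points of a scheme. -/

set_option autoImplicit false

open CategoryTheory AlgebraicGeometry TopologicalSpace

noncomputable section

universe u

set_option linter.unusedSimpArgs false

namespace FLTA.AbelianVar

variable {X Y Z : Scheme.{u}}

/-- Restriction of functions along `V ≤ W`. -/
abbrev rs {W V : X.Opens} (h : V ≤ W) : Γ(X, W) →+* Γ(X, V) :=
  (X.presheaf.map (homOfLE h).op).hom

lemma rs_rs {W V T : X.Opens} (h : V ≤ W) (h' : T ≤ V) (a : Γ(X, W)) :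
    rs h' (rs h a) = rs (h'.trans h) a := by
  simp only [rs, ← CommRingCat.comp_apply, ← X.presheaf.map_comp, ← op_comp, homOfLE_comp]

@[simp]
lemma rs_self {W : X.Opens} (h : W ≤ W) (a : Γ(X, W)) : rs h a = a := by
  simp [rs, Subsingleton.elim (homOfLE h) (𝟙 W)]

/-- Pullback of functions along `f`. -/
abbrev pb (f : X ⟶ Y) {W : Y.Opens} {V : X.Opens} (h : V ≤ f ⁻¹ᵁ W) : Γ(Y, W) →+* Γ(X, V) :=
  (f.appLE W V h).hom

lemma rs_pb (f : X ⟶ Y) {W : Y.Opens} {V V' : X.Opens} (h : V ≤ f ⁻¹ᵁ W) (h' : V' ≤ V)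
    (a : Γ(Y, W)) : rs h' (pb f h a) = pb f (h'.trans h) a := by
  simp only [rs, pb, ← CommRingCat.comp_apply, Scheme.Hom.appLE_map]

lemma pb_rs (f : X ⟶ Y) {W W' : Y.Opens} {V : X.Opens} (h' : W' ≤ W) (h : V ≤ f ⁻¹ᵁ W')
    (a : Γ(Y, W)) : pb f h (rs h' a) = pb f (h.trans (f.preimage_mono h')) a := by
  simp only [rs, pb, ← CommRingCat.comp_apply, Scheme.Hom.map_appLE]

/-- A line bundle given by transition units `g x y`, on an open cover indexed by points. -/
structure LB (X : Scheme.{u}) where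
  U : X → X.Opens
  mem : ∀ x, x ∈ U x
  g : ∀ (x y : X) (W : X.Opens), W ≤ U x → W ≤ U y → Γ(X, W)
  g_res : ∀ (x y : X) (W W' : X.Opens) (hx : W ≤ U x) (hy : W ≤ U y) (h : W' ≤ W),
    rs h (g x y W hx hy) = g x y W' (h.trans hx) (h.trans hy)
  g_self : ∀ (x : X) (W : X.Opens) (hx : W ≤ U x), g x x W hx hx = 1
  g_comp : ∀ (x y z : X) (W : X.Opens) (hx : W ≤ U x) (hy : W ≤ U y) (hz : W ≤ U z),
    g x y W hx hy * g y z W hy hz = g x z W hx hz

namespace LB

lemma g_mul_g_symm (L : LB X) {x y : X} {W : X.Opens} (hx : W ≤ L.U x) (hy : W ≤ L.U y) :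
    L.g x y W hx hy * L.g y x W hy hx = 1 := by
  rw [L.g_comp x y x W hx hy hx, L.g_self]

lemma isUnit_g (L : LB X) {x y : X} {W : X.Opens} (hx : W ≤ L.U x) (hy : W ≤ L.U y) :
    IsUnit (L.g x y W hx hy) :=
  .of_mul_eq_one _ (L.g_mul_g_symm hx hy)

protected def one (X : Scheme.{u}) : LB X where
  U _ := ⊤
  mem _ := trivial
  g _ _ _ _ _ := 1
  g_res _ _ _ _ _ _ _ := map_one _
  g_self _ _ _ := rfl
  g_comp _ _ _ _ _ _ _ := one_mul _

protected def mul (L M : LB X) : LB X where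
  U x := L.U x ⊓ M.U x
  mem x := ⟨L.mem x, M.mem x⟩
  g x y W hx hy :=
    L.g x y W (hx.trans inf_le_left) (hy.trans inf_le_left) *
      M.g x y W (hx.trans inf_le_right) (hy.trans inf_le_right)
  g_res x y W W' hx hy h := by simp [map_mul, L.g_res, M.g_res]
  g_self x W hx := by simp [L.g_self, M.g_self]
  g_comp x y z W hx hy hz := by
    rw [mul_mul_mul_comm, L.g_comp, M.g_comp]

protected def inv (L : LB X) : LB X where
  U := L.U
  mem := L.mem
  g x y W hx hy := L.g y x W hy hx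
  g_res x y W W' hx hy h := L.g_res y x W W' hy hx h
  g_self x W hx := L.g_self x W hx
  g_comp x y z W hx hy hz := by rw [mul_comm]; exact L.g_comp z y x W hz hy hx

lemma le_preimage_inf (f : X ⟶ Y) {A B : Y.Opens} {W : X.Opens} (ha : W ≤ f ⁻¹ᵁ A)
    (hb : W ≤ f ⁻¹ᵁ B) : W ≤ f ⁻¹ᵁ (A ⊓ B) := by
  rw [f.preimage_inf]; exact le_inf ha hb

/-- The pullback of a transition function. -/
def pullG (f : X ⟶ Y) (L : LB Y) (a b : Y) (W : X.Opens) (ha : W ≤ f ⁻¹ᵁ L.U a)
    (hb : W ≤ f ⁻¹ᵁ L.U b) : Γ(X, W) :=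
  pb f (W := L.U a ⊓ L.U b) (le_preimage_inf f ha hb) (L.g a b _ inf_le_left inf_le_right)

lemma pullG_eq (f : X ⟶ Y) (L : LB Y) {a b : Y} {W : X.Opens} (ha : W ≤ f ⁻¹ᵁ L.U a)
    (hb : W ≤ f ⁻¹ᵁ L.U b) {V : Y.Opens} (hV : W ≤ f ⁻¹ᵁ V) (hVa : V ≤ L.U a)
    (hVb : V ≤ L.U b) : pullG f L a b W ha hb = pb f hV (L.g a b V hVa hVb) := by
  rw [pullG, ← L.g_res a b _ _ inf_le_left inf_le_right (le_inf hVa hVb), pb_rs]

def pull (f : X ⟶ Y) (L : LB Y) : LB X where
  U x := f ⁻¹ᵁ L.U (f.base x)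
  mem x := L.mem (f.base x)
  g x y W hx hy := pullG f L (f.base x) (f.base y) W hx hy
  g_res x y W W' hx hy h := rs_pb f _ h _
  g_self x W hx := by rw [pullG, L.g_self, map_one]
  g_comp x y z W hx hy hz := by
    have hW : W ≤ f ⁻¹ᵁ (L.U (f.base x) ⊓ L.U (f.base y) ⊓ L.U (f.base z)) :=
      le_preimage_inf f (le_preimage_inf f hx hy) hz
    rw [pullG_eq f L hx hy hW (inf_le_left.trans inf_le_left) (inf_le_left.trans inf_le_right),
      pullG_eq f L hy hz hW (inf_le_left.trans inf_le_right) inf_le_right,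
      pullG_eq f L hx hz hW (inf_le_left.trans inf_le_left) inf_le_right, ← map_mul, L.g_comp]

lemma pull_g_eq (f : X ⟶ Y) (L : LB Y) {x y : X} {W : X.Opens} (hx : W ≤ (L.pull f).U x)
    (hy : W ≤ (L.pull f).U y) {V : Y.Opens} (hV : W ≤ f ⁻¹ᵁ V) (hVa : V ≤ L.U (f.base x))
    (hVb : V ≤ L.U (f.base y)) : (L.pull f).g x y W hx hy = pb f hV (L.g _ _ V hVa hVb) :=
  pullG_eq f L hx hy hV hVa hVb

/-- An isomorphism of line bundles, given on a common refinement. -/
structure Iso (L M : LB X) where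
  V : X → X.Opens
  mem : ∀ x, x ∈ V x
  leL : ∀ x, V x ≤ L.U x
  leM : ∀ x, V x ≤ M.U x
  u : ∀ x, Γ(X, V x)
  isUnit : ∀ x, IsUnit (u x)
  comm : ∀ (x y : X) (W : X.Opens) (hx : W ≤ V x) (hy : W ≤ V y),
    L.g x y W (hx.trans (leL x)) (hy.trans (leL y)) * rs hy (u y) =
      rs hx (u x) * M.g x y W (hx.trans (leM x)) (hy.trans (leM y))

def Rel (L M : LB X) : Prop := Nonempty (Iso L M)

lemma Rel.refl (L : LB X) : Rel L L :=
  ⟨{ V := L.U, mem := L.mem, leL := fun _ => le_rfl, leM := fun _ => le_rfl, u := fun _ => 1,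
     isUnit := fun _ => isUnit_one, comm := fun x y W hx hy => by simp }⟩

lemma Rel.symm {L M : LB X} : Rel L M → Rel M L := fun ⟨e⟩ =>
  ⟨{ V := e.V, mem := e.mem, leL := e.leM, leM := e.leL, u := fun x => ↑(e.isUnit x).unit⁻¹,
     isUnit := fun x => Units.isUnit _,
     comm := fun x y W hx hy => by
       have h := e.comm x y W hx hy
       have a : rs hx (e.u x) * rs hx ↑(e.isUnit x).unit⁻¹ = 1 := by
         rw [← map_mul, IsUnit.mul_val_inv, map_one]
       have b : rs hy (e.u y) * rs hy ↑(e.isUnit y).unit⁻¹ = 1 := by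
         rw [← map_mul, IsUnit.mul_val_inv, map_one]
       linear_combination (-(rs hx ↑(e.isUnit x).unit⁻¹) * rs hy ↑(e.isUnit y).unit⁻¹) * h
         - (M.g x y W (hx.trans (e.leM x)) (hy.trans (e.leM y)) *
            rs hy ↑(e.isUnit y).unit⁻¹) * a
         + (rs hx ↑(e.isUnit x).unit⁻¹ *
            L.g x y W (hx.trans (e.leL x)) (hy.trans (e.leL y))) * b }⟩

lemma Rel.trans {L M N : LB X} : Rel L M → Rel M N → Rel L N := fun ⟨e⟩ ⟨e'⟩ =>
  ⟨{ V := fun x => e.V x ⊓ e'.V x, mem := fun x => ⟨e.mem x, e'.mem x⟩,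
     leL := fun x => inf_le_left.trans (e.leL x), leM := fun x => inf_le_right.trans (e'.leM x),
     u := fun x => rs inf_le_left (e.u x) * rs inf_le_right (e'.u x),
     isUnit := fun x => ((e.isUnit x).map _).mul ((e'.isUnit x).map _),
     comm := fun x y W hx hy => by
       have h := e.comm x y W (hx.trans inf_le_left) (hy.trans inf_le_left)
       have h' := e'.comm x y W (hx.trans inf_le_right) (hy.trans inf_le_right)
       simp only [map_mul, rs_rs]
       linear_combination (rs (hy.trans inf_le_right) (e'.u y)) * h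
         + (rs (hx.trans inf_le_left) (e.u x)) * h' }⟩

instance setoid (X : Scheme.{u}) : Setoid (LB X) where
  r := Rel
  iseqv := ⟨Rel.refl, Rel.symm, Rel.trans⟩

lemma Rel.mul {L L' M M' : LB X} : Rel L L' → Rel M M' → Rel (L.mul M) (L'.mul M') :=
  fun ⟨e⟩ ⟨e'⟩ =>
  ⟨{ V := fun x => e.V x ⊓ e'.V x, mem := fun x => ⟨e.mem x, e'.mem x⟩,
     leL := fun x => inf_le_inf (e.leL x) (e'.leL x),
     leM := fun x => inf_le_inf (e.leM x) (e'.leM x),
     u := fun x => rs inf_le_left (e.u x) * rs inf_le_right (e'.u x),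
     isUnit := fun x => ((e.isUnit x).map _).mul ((e'.isUnit x).map _),
     comm := fun x y W hx hy => by
       have h := e.comm x y W (hx.trans inf_le_left) (hy.trans inf_le_left)
       have h' := e'.comm x y W (hx.trans inf_le_right) (hy.trans inf_le_right)
       simp only [map_mul, rs_rs]
       show L.g x y W _ _ * M.g x y W _ _ * _ = _ * (L'.g x y W _ _ * M'.g x y W _ _)
       linear_combination (M.g x y W ((hx.trans inf_le_right).trans (e'.leL x))
           ((hy.trans inf_le_right).trans (e'.leL y)) * rs (hy.trans inf_le_right) (e'.u y)) * h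
         + (rs (hx.trans inf_le_left) (e.u x) * L'.g x y W ((hx.trans inf_le_left).trans (e.leM x))
           ((hy.trans inf_le_left).trans (e.leM y))) * h' }⟩

lemma Rel.inv {L L' : LB X} : Rel L L' → Rel L.inv L'.inv := fun h => by
  obtain ⟨e⟩ := h.symm
  exact ⟨{ V := e.V, mem := e.mem, leL := e.leM, leM := e.leL, u := e.u, isUnit := e.isUnit,
           comm := fun x y W hx hy => by
             have h := e.comm y x W hy hx
             simp only [LB.inv]
             linear_combination -h }⟩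

lemma Rel.of_eq (L M : LB X) (V : X → X.Opens) (mem : ∀ x, x ∈ V x)
    (hL : ∀ x, V x ≤ L.U x) (hM : ∀ x, V x ≤ M.U x)
    (h : ∀ (x y : X) (W : X.Opens) (hx : W ≤ V x) (hy : W ≤ V y),
      L.g x y W (hx.trans (hL x)) (hy.trans (hL y)) =
        M.g x y W (hx.trans (hM x)) (hy.trans (hM y))) : Rel L M :=
  ⟨{ V := V, mem := mem, leL := hL, leM := hM, u := fun _ => 1, isUnit := fun _ => isUnit_one,
     comm := fun x y W hx hy => by simp [h x y W hx hy] }⟩

lemma Rel.pull (f : X ⟶ Y) {L L' : LB Y} : Rel L L' → Rel (L.pull f) (L'.pull f) := fun ⟨e⟩ =>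
  ⟨{ V := fun x => f ⁻¹ᵁ e.V (f.base x), mem := fun x => e.mem (f.base x),
     leL := fun x => f.preimage_mono (e.leL _), leM := fun x => f.preimage_mono (e.leM _),
     u := fun x => pb f le_rfl (e.u (f.base x)),
     isUnit := fun x => (e.isUnit _).map _,
     comm := fun x y W hx hy => by
       have hW : W ≤ f ⁻¹ᵁ (e.V (f.base x) ⊓ e.V (f.base y)) := le_preimage_inf f hx hy
       have h := congrArg (pb f hW) (e.comm (f.base x) (f.base y) _ inf_le_left inf_le_right)
       simp only [map_mul, pb_rs] at h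
       rw [pull_g_eq f L _ _ hW (inf_le_left.trans (e.leL _)) (inf_le_right.trans (e.leL _)),
         pull_g_eq f L' _ _ hW (inf_le_left.trans (e.leM _)) (inf_le_right.trans (e.leM _)),
         rs_pb, rs_pb]
       exact h }⟩

/-- A section of `L` over `W`, as compatible local functions. -/
@[ext]
structure Sec (L : LB X) (W : X.Opens) where
  f : ∀ (x : X) (V : X.Opens), V ≤ W → V ≤ L.U x → Γ(X, V)
  f_res : ∀ (x : X) (V V' : X.Opens) (hW : V ≤ W) (hx : V ≤ L.U x) (h : V' ≤ V),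
    rs h (f x V hW hx) = f x V' (h.trans hW) (h.trans hx)
  comm : ∀ (x y : X) (V : X.Opens) (hW : V ≤ W) (hx : V ≤ L.U x) (hy : V ≤ L.U y),
    L.g x y V hx hy * f y V hW hy = f x V hW hx

namespace Sec

variable {L : LB X} {W : X.Opens}

instance : Zero (Sec L W) :=
  ⟨{ f := fun _ _ _ _ => 0, f_res := by intros; simp, comm := by intros; simp }⟩

instance : Add (Sec L W) :=
  ⟨fun s t =>
    { f := fun x V h h' => s.f x V h h' + t.f x V h h'
      f_res := fun x V V' h h' i => by simp [s.f_res, t.f_res]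
      comm := fun x y V h hx hy => by simp [mul_add, s.comm, t.comm] }⟩

instance : Neg (Sec L W) :=
  ⟨fun s =>
    { f := fun x V h h' => - s.f x V h h'
      f_res := fun x V V' h h' i => by simp [s.f_res]
      comm := fun x y V h hx hy => by simp [s.comm] }⟩

@[simp] lemma zero_f (x : X) (V : X.Opens) (h : V ≤ W) (h' : V ≤ L.U x) :
    (0 : Sec L W).f x V h h' = 0 := rfl
@[simp] lemma add_f (s t : Sec L W) (x : X) (V : X.Opens) (h : V ≤ W) (h' : V ≤ L.U x) :
    (s + t).f x V h h' = s.f x V h h' + t.f x V h h' := rfl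
@[simp] lemma neg_f (s : Sec L W) (x : X) (V : X.Opens) (h : V ≤ W) (h' : V ≤ L.U x) :
    (-s).f x V h h' = - s.f x V h h' := rfl

instance : AddCommGroup (Sec L W) where
  add_assoc _ _ _ := by ext; simp [add_assoc]
  zero_add _ := by ext; simp
  add_zero _ := by ext; simp
  nsmul := nsmulRec
  zsmul := zsmulRec
  neg_add_cancel _ := by ext; simp
  add_comm _ _ := by ext; simp [add_comm]

instance : SMul Γ(X, W) (Sec L W) :=
  ⟨fun a s =>
    { f := fun x V h h' => rs h a * s.f x V h h'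
      f_res := fun x V V' h h' i => by simp [s.f_res, rs_rs]
      comm := fun x y V h hx hy => by rw [mul_left_comm, s.comm] }⟩

@[simp] lemma smul_f (a : Γ(X, W)) (s : Sec L W) (x : X) (V : X.Opens) (h : V ≤ W)
    (h' : V ≤ L.U x) : (a • s).f x V h h' = rs h a * s.f x V h h' := rfl

instance : Module Γ(X, W) (Sec L W) where
  one_smul _ := by ext; simp
  mul_smul _ _ _ := by ext; simp [mul_assoc]
  smul_zero _ := by ext; simp
  smul_add _ _ _ := by ext; simp [mul_add]
  add_smul _ _ _ := by ext; simp [add_mul]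
  zero_smul _ := by ext; simp

/-- Restriction of sections. -/
def res {W' : X.Opens} (h : W' ≤ W) : Sec L W →+ Sec L W' where
  toFun s :=
    { f := fun x V hV hx => s.f x V (hV.trans h) hx
      f_res := fun x V V' _ _ i => s.f_res x V V' _ _ i
      comm := fun x y V _ hx hy => s.comm x y V _ hx hy }
  map_zero' := rfl
  map_add' _ _ := rfl

@[simp] lemma res_f {W' : X.Opens} (h : W' ≤ W) (s : Sec L W) (x : X) (V : X.Opens)
    (hV : V ≤ W') (hx : V ≤ L.U x) : (res h s).f x V hV hx = s.f x V (hV.trans h) hx := rfl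

lemma res_smul {W' : X.Opens} (h : W' ≤ W) (a : Γ(X, W)) (s : Sec L W) :
    res h (a • s) = rs h a • res h s := by
  ext x V hV hx
  simp [rs_rs]

/-- The section does not vanish at any point of `W`. -/
def Nowhere0 (s : Sec L W) : Prop :=
  ∀ (x : X) (V : X.Opens) (hW : V ≤ W) (hx : V ≤ L.U x), IsUnit (s.f x V hW hx)

end Sec

end LB

/-- The Picard group, as line bundle cocycles up to isomorphism. -/
def Pic (X : Scheme.{u}) : Type u := Quotient (LB.setoid X)

namespace Pic

def mk (L : LB X) : Pic X := Quotient.mk _ L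

lemma mk_eq_mk {L M : LB X} : mk L = mk M ↔ LB.Rel L M := Quotient.eq

lemma mk_surjective (p : Pic X) : ∃ L, mk L = p := Quotient.exists_rep p

instance : Zero (Pic X) := ⟨mk (LB.one X)⟩
instance : Add (Pic X) :=
  ⟨Quotient.map₂ LB.mul (fun _ _ h _ _ h' => LB.Rel.mul h h')⟩
instance : Neg (Pic X) := ⟨Quotient.map LB.inv (fun _ _ h => LB.Rel.inv h)⟩

lemma mk_add (L M : LB X) : mk L + mk M = mk (L.mul M) := rfl
lemma neg_mk (L : LB X) : - mk L = mk L.inv := rfl
lemma zero_def : (0 : Pic X) = mk (LB.one X) := rfl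

instance : AddCommGroup (Pic X) where
  add_assoc := by
    rintro ⟨a⟩ ⟨b⟩ ⟨c⟩
    refine Quotient.sound (LB.Rel.of_eq _ _ (fun x => a.U x ⊓ (b.U x ⊓ c.U x))
      (fun x => ⟨a.mem x, b.mem x, c.mem x⟩) (fun x => by simp [LB.mul, inf_assoc])
      (fun x => le_rfl) (fun x y W hx hy => by simp [LB.mul, mul_assoc]))
  zero_add := by
    rintro ⟨a⟩
    exact Quotient.sound (LB.Rel.of_eq _ _ a.U a.mem (fun x => le_inf le_top le_rfl)
      (fun x => le_rfl) (fun x y W hx hy => by simp [LB.mul, LB.one]))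
  add_zero := by
    rintro ⟨a⟩
    exact Quotient.sound (LB.Rel.of_eq _ _ a.U a.mem (fun x => le_inf le_rfl le_top)
      (fun x => le_rfl) (fun x y W hx hy => by simp [LB.mul, LB.one]))
  nsmul := nsmulRec
  zsmul := zsmulRec
  neg_add_cancel := by
    rintro ⟨a⟩
    exact Quotient.sound (LB.Rel.of_eq _ _ a.U a.mem (fun x => le_inf le_rfl le_rfl)
      (fun x => le_top) (fun x y W hx hy => a.g_mul_g_symm _ _))
  add_comm := by
    rintro ⟨a⟩ ⟨b⟩
    exact Quotient.sound (LB.Rel.of_eq _ _ (fun x => a.U x ⊓ b.U x)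
      (fun x => ⟨a.mem x, b.mem x⟩) (fun x => le_rfl) (fun x => le_of_eq (inf_comm _ _))
      (fun x y W hx hy => mul_comm _ _))

/-- Pullback. -/
def pull (f : X ⟶ Y) : Pic Y →+ Pic X where
  toFun := Quotient.map (LB.pull f) (fun _ _ h => LB.Rel.pull f h)
  map_zero' := Quotient.sound (LB.Rel.of_eq _ _ (fun _ => ⊤) (fun _ => trivial)
    (fun x => le_rfl) (fun x => le_rfl) (fun x y W hx hy => map_one _))
  map_add' := by
    rintro ⟨a⟩ ⟨b⟩
    refine Quotient.sound (LB.Rel.of_eq ((a.mul b).pull f) ((a.pull f).mul (b.pull f))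
      (fun x => f ⁻¹ᵁ (a.U (f.base x) ⊓ b.U (f.base x)))
      (fun x => ⟨a.mem _, b.mem _⟩) (fun x => le_rfl) (fun x => le_of_eq f.preimage_inf)
      (fun x y W hx hy => ?_))
    have hW := LB.le_preimage_inf f hx hy
    simp only [LB.mul] at hW ⊢
    rw [LB.pull_g_eq f _ _ _ hW inf_le_left inf_le_right,
      LB.pull_g_eq f a _ _ hW (inf_le_left.trans inf_le_left) (inf_le_right.trans inf_le_left),
      LB.pull_g_eq f b _ _ hW (inf_le_left.trans inf_le_right) (inf_le_right.trans inf_le_right)]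
    exact map_mul _ _ _

lemma pull_mk (f : X ⟶ Y) (L : LB Y) : pull f (mk L) = mk (L.pull f) := rfl

lemma pull_id (p : Pic X) : pull (𝟙 X) p = p := by
  induction p using Quotient.ind with
  | _ a =>
    refine Quotient.sound (LB.Rel.of_eq (a.pull (𝟙 X)) a a.U a.mem (fun x => le_rfl)
      (fun x => le_rfl) (fun x y W hx hy => ?_))
    refine (LB.pull_g_eq (𝟙 X) a _ _ (V := W) le_rfl hx hy).trans ?_
    simp only [pb, Scheme.Hom.appLE, Scheme.Hom.id_app]
    erw [Category.id_comp]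
    exact rs_self _ _

lemma pull_comp (f : X ⟶ Y) (g : Y ⟶ Z) (p : Pic Z) :
    pull (f ≫ g) p = pull f (pull g p) := by
  induction p using Quotient.ind with
  | _ a =>
    refine Quotient.sound (LB.Rel.of_eq (a.pull (f ≫ g)) ((a.pull g).pull f)
      (fun x => (f ≫ g) ⁻¹ᵁ a.U ((f ≫ g).base x))
      (fun x => a.mem _) (fun x => le_rfl) (fun x => le_rfl) (fun x y W hx hy => ?_))
    simp only [LB.pull]
    simp only [LB.pullG, pb, ← CommRingCat.comp_apply, Scheme.Hom.appLE_comp_appLE]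
    rfl

end Pic

end FLTA.AbelianVar
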