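import Fermat.Prelude.Def_JacJ1Iface
import Fermat.Prelude.Def_GoodReductionJacobian_RelativeGroupLawKernel
import Fermat.Agent.AbelianVar.Pic

/-! Points of a commutative group scheme as abelian groups, and pullbacks of a class. -/

set_option autoImplicit false

open CategoryTheory CategoryTheory.Limits AlgebraicGeometry NeronModelInfra GoodReductionJacobian

noncomputable section

universe u

namespace FLTA.AbelianVar

/-- A commutative relative group law, bundled. -/
structure CommLaw (K : Type u) [Field K] {A : Scheme.{u}}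
    (f : A ⟶ Spec (CommRingCat.of K)) where
  law : RelativeGroupLaw K f
  comm : law.IsCommutative

namespace CommLaw

variable {K : Type u} [Field K] {A : Scheme.{u}} {f : A ⟶ Spec (CommRingCat.of K)}
  (G : CommLaw K f)

/-- Points with values in `t`, an abelian group. `n • x` is `law.nsmul t n x` by definition. -/
def Pt (_G : CommLaw K f) {T : Scheme.{u}} (t : T ⟶ Spec (CommRingCat.of K)) : Type u :=
  SchemeHomOver t f

variable {T T' : Scheme.{u}} {t : T ⟶ Spec (CommRingCat.of K)}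
  {t' : T' ⟶ Spec (CommRingCat.of K)}

/-- A morphism over the base, as a point. -/
def Pt.mk (φ : T ⟶ A) (h : φ ≫ f = t) : G.Pt t := ⟨φ, h⟩

/-- The morphism underlying a point. -/
def Pt.hom {G : CommLaw K f} (x : G.Pt t) : T ⟶ A := Subtype.val x

@[simp] lemma Pt.mk_hom (φ : T ⟶ A) (h : φ ≫ f = t) : (Pt.mk G φ h).hom = φ := rfl

@[simp] lemma Pt.hom_comp {G : CommLaw K f} (x : G.Pt t) : x.hom ≫ f = t := Subtype.property x

@[ext] lemma Pt.ext {G : CommLaw K f} {x y : G.Pt t} (h : x.hom = y.hom) : x = y := Subtype.ext h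

instance : AddCommGroup (G.Pt t) where
  add x y := G.law.mul t x y
  zero := G.law.one t
  neg x := G.law.inv t x
  add_assoc := G.law.mul_assoc t
  zero_add := G.law.one_mul t
  add_zero := G.law.mul_one t
  nsmul n x := G.law.nsmul t n x
  nsmul_zero _ := rfl
  nsmul_succ _ _ := rfl
  zsmul := @zsmulRec _ ⟨G.law.one t⟩ ⟨G.law.mul t⟩ ⟨G.law.inv t⟩ fun n x => G.law.nsmul t n x
  neg_add_cancel := G.law.inv_mul_cancel t
  add_comm := G.comm t

lemma nsmul_def (n : ℕ) (x : G.Pt t) : n • x = G.law.nsmul t n x := rfl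

/-- Precomposition is a homomorphism. -/
def comp (ψ : T' ⟶ T) (hψ : ψ ≫ t = t') : G.Pt t →+ G.Pt t' where
  toFun x := schemeHomOverComp ψ hψ x
  map_zero' := G.law.one_natural t t' ψ hψ
  map_add' x y := G.law.mul_natural t t' ψ hψ x y

@[simp] lemma comp_hom (ψ : T' ⟶ T) (hψ : ψ ≫ t = t') (x : G.Pt t) :
    (G.comp ψ hψ x).hom = ψ ≫ x.hom := rfl

/-- The identity point. -/
def idPt : G.Pt f := Pt.mk G (𝟙 A) (Category.id_comp f)

/-- Multiplication by `n`. -/
def mulN (n : ℕ) : A ⟶ A := G.law.schemeNsmul n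

lemma nsmul_idPt_hom (n : ℕ) : (n • G.idPt).hom = G.mulN n := rfl

@[simp, reassoc] lemma mulN_comp (n : ℕ) : G.mulN n ≫ f = f := G.law.schemeNsmul_over n

lemma comp_idPt (x : G.Pt t) : G.comp x.hom x.hom_comp G.idPt = x := by ext; simp [idPt]

lemma hom_comp_mulN (x : G.Pt t) (n : ℕ) : x.hom ≫ G.mulN n = (n • x).hom := by
  rw [← nsmul_idPt_hom, ← G.comp_hom x.hom x.hom_comp, map_nsmul, comp_idPt]

lemma mulN_mul (m n : ℕ) : G.mulN (m * n) = G.mulN m ≫ G.mulN n := by
  rw [← nsmul_idPt_hom, ← nsmul_idPt_hom G m, hom_comp_mulN, mul_nsmul]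

/-- The pullback `a^* D`. -/
def Q (D : Pic A) (a : G.Pt t) : Pic T := Pic.pull a.hom D

lemma Q_comp (D : Pic A) (ψ : T' ⟶ T) (hψ : ψ ≫ t = t') (a : G.Pt t) :
    G.Q D (G.comp ψ hψ a) = Pic.pull ψ (G.Q D a) := Pic.pull_comp ψ a.hom D

/-- The third difference of `Q D`. -/
def cube (D : Pic A) (a b c : G.Pt t) : Pic T :=
  G.Q D (a + b + c) - G.Q D (a + b) - G.Q D (a + c) - G.Q D (b + c)
    + G.Q D a + G.Q D b + G.Q D c - G.Q D (0 : G.Pt t)

lemma cube_comp (D : Pic A) (ψ : T' ⟶ T) (hψ : ψ ≫ t = t') (a b c : G.Pt t) :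
    G.cube D (G.comp ψ hψ a) (G.comp ψ hψ b) (G.comp ψ hψ c) = Pic.pull ψ (G.cube D a b c) := by
  simp only [cube, map_sub, map_add, ← G.Q_comp D ψ hψ, map_zero]

/-- The product of two copies of `A`. -/
abbrev A2 (f : A ⟶ Spec (CommRingCat.of K)) : Scheme.{u} := pullback f f

abbrev A2.str (f : A ⟶ Spec (CommRingCat.of K)) : A2 f ⟶ Spec (CommRingCat.of K) :=
  pullback.fst f f ≫ f

/-- The product of three copies of `A`. -/
abbrev A3 (f : A ⟶ Spec (CommRingCat.of K)) : Scheme.{u} := pullback (A2.str f) f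

abbrev A3.str (f : A ⟶ Spec (CommRingCat.of K)) : A3 f ⟶ Spec (CommRingCat.of K) :=
  pullback.snd (A2.str f) f ≫ f

def proj₁ : G.Pt (A3.str f) :=
  Pt.mk G (pullback.fst (A2.str f) f ≫ pullback.fst f f) (by
    simp only [Category.assoc]; exact pullback.condition)

def proj₂ : G.Pt (A3.str f) :=
  Pt.mk G (pullback.fst (A2.str f) f ≫ pullback.snd f f) (by
    rw [Category.assoc, ← pullback.condition]; exact pullback.condition)

def proj₃ : G.Pt (A3.str f) := Pt.mk G (pullback.snd (A2.str f) f) rfl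

/-- The classifying map of a triple of points. -/
def triple (a b c : G.Pt t) : T ⟶ A3 f :=
  pullback.lift (pullback.lift a.hom b.hom (a.hom_comp.trans b.hom_comp.symm)) c.hom
    ((pullback.lift_fst_assoc _ _ _ f).trans (a.hom_comp.trans c.hom_comp.symm))

lemma triple_str (a b c : G.Pt t) : G.triple a b c ≫ A3.str f = t :=
  (pullback.lift_snd_assoc _ _ _ f).trans c.hom_comp

lemma cube_eq_zero_of_universal (D : Pic A) (h : G.cube D G.proj₁ G.proj₂ G.proj₃ = 0)
    (a b c : G.Pt t) : G.cube D a b c = 0 := by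
  have ha : G.comp _ (G.triple_str a b c) G.proj₁ = a :=
    Pt.ext ((pullback.lift_fst_assoc _ _ _ _).trans (pullback.lift_fst _ _ _))
  have hb : G.comp _ (G.triple_str a b c) G.proj₂ = b :=
    Pt.ext ((pullback.lift_fst_assoc _ _ _ _).trans (pullback.lift_snd _ _ _))
  have hc : G.comp _ (G.triple_str a b c) G.proj₃ = c :=
    Pt.ext (pullback.lift_snd _ _ _)
  calc G.cube D a b c
      = G.cube D (G.comp _ (G.triple_str a b c) G.proj₁) (G.comp _ (G.triple_str a b c) G.proj₂)
          (G.comp _ (G.triple_str a b c) G.proj₃) := by rw [ha, hb, hc]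
    _ = 0 := by rw [cube_comp, h, map_zero]

end CommLaw

end FLTA.AbelianVar
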