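import Mathlib

/-! Counting the points in a general fibre of a finite unramified extension of affine domains. -/

set_option autoImplicit false

universe u

namespace FLTA.AbelianVar.CountAlg

open Module TensorProduct

/-- An unramified algebra of finite type is quasi-finite. -/
theorem quasiFinite_of_formallyUnramified (R S : Type u) [CommRing R] [CommRing S] [Algebra R S]
    [Algebra.FiniteType R S] [Algebra.FormallyUnramified R S] : Algebra.QuasiFinite R S := by
  refine ⟨fun P _ => ?_⟩
  have : Algebra.FiniteType P.ResidueField (P.Fiber S) :=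
    inferInstanceAs (Algebra.FiniteType P.ResidueField (P.ResidueField ⊗[R] S))
  exact Algebra.FormallyUnramified.finite_of_free P.ResidueField (P.Fiber S)

/-- A finite unramified algebra over an algebraically closed field has `finrank` points. -/
theorem natCard_algHom_eq_finrank (K T : Type u) [Field K] [IsAlgClosed K] [CommRing T]
    [Algebra K T] [Module.Finite K T] [Algebra.FormallyUnramified K T] :
    Nat.card (T →ₐ[K] K) = finrank K T := by
  have : Algebra.FormallyEtale K T := Algebra.FormallyEtale.of_formallyUnramified_of_field K T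
  have e := Algebra.FormallyEtale.equivPiOfIsSepClosed K T
  have : IsArtinianRing T := IsArtinianRing.of_finite K T
  have : Finite (PrimeSpectrum T) := inferInstance
  let Φ : (T →ₐ[K] K) → PrimeSpectrum T := fun φ => ⟨RingHom.ker φ.toRingHom, RingHom.ker_isPrime _⟩
  have hΦ : Function.Bijective Φ := by
    refine ⟨fun φ φ' h => AlgHom.ext fun a => ?_, fun P => ?_⟩
    · have h1 : a - algebraMap K T (φ a) ∈ RingHom.ker φ.toRingHom := by simp
      have h2 : RingHom.ker φ.toRingHom = RingHom.ker φ'.toRingHom :=
        congrArg PrimeSpectrum.asIdeal h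
      rw [h2] at h1
      exact (sub_eq_zero.mp (by simpa using h1) : φ' a = φ a).symm
    · have : Algebra.IsIntegral K (T ⧸ P.asIdeal) := Algebra.IsIntegral.of_finite K _
      have hb := IsAlgClosed.algebraMap_bijective_of_isIntegral (k := K) (K := T ⧸ P.asIdeal)
      let ψ : (T ⧸ P.asIdeal) ≃ₐ[K] K :=
        (AlgEquiv.ofBijective (Algebra.ofId K (T ⧸ P.asIdeal)) hb).symm
      refine ⟨ψ.toAlgHom.comp (Ideal.Quotient.mkₐ K P.asIdeal), PrimeSpectrum.ext ?_⟩
      ext a
      simp [Φ, Ideal.Quotient.eq_zero_iff_mem]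
  rw [Nat.card_congr (Equiv.ofBijective Φ hΦ), e.toLinearEquiv.finrank_eq]
  have : Fintype (PrimeSpectrum T) := Fintype.ofFinite _
  rw [Module.finrank_pi, Nat.card_eq_fintype_card]

variable {K B C L M : Type u} [Field K] [CommRing B] [IsDomain B] [Algebra K B]
  [CommRing C] [IsDomain C] [Algebra K C] [Field L] [Algebra B L] [IsFractionRing B L]
  [Field M] [Algebra C M] [IsFractionRing C M]

/-- A finite extension of domains has a basis of the generic fibre, up to one denominator. -/
theorem exists_basis_denominator (φ : B →ₐ[K] C) (hfin : φ.toRingHom.Finite)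
    (hinj : Function.Injective φ) (ψ : L →+* M)
    (hψ : ∀ x, ψ (algebraMap B L x) = algebraMap C M (φ x)) :
    (letI := ψ.toAlgebra; FiniteDimensional L M) ∧
    ∃ (c : Fin (letI := ψ.toAlgebra; finrank L M) → C) (b : B), b ≠ 0 ∧
      (∀ r : Fin (letI := ψ.toAlgebra; finrank L M) → B, ∑ i, φ (r i) * c i = 0 → r = 0) ∧
      (∀ x : C, ∃ r : Fin (letI := ψ.toAlgebra; finrank L M) → B,
        φ b * x = ∑ i, φ (r i) * c i) := by
  let _ := ψ.toAlgebra
  let _ : Algebra B C := φ.toRingHom.toAlgebra
  let _ : Algebra B M := ((algebraMap C M).comp φ.toRingHom).toAlgebra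
  have _ : Module.Finite B C := hfin
  have _ : IsScalarTower B C M := IsScalarTower.of_algebraMap_eq fun _ => rfl
  have _ : IsScalarTower B L M := IsScalarTower.of_algebraMap_eq fun x => (hψ x).symm
  have _ : Algebra.IsIntegral B C := Algebra.IsIntegral.of_finite B C
  let V : Submodule L M := Submodule.span L (Set.range (algebraMap C M))
  have hVmul : ∀ x ∈ V, ∀ y ∈ V, x * y ∈ V := by
    intro x hx y hy
    have := Submodule.mul_mem_mul hx hy
    rw [Submodule.span_mul_span] at this
    refine Submodule.span_mono ?_ this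
    rintro _ ⟨_, ⟨a, rfl⟩, _, ⟨a', rfl⟩, rfl⟩
    exact ⟨a * a', map_mul _ _ _⟩
  have hV : V = ⊤ := by
    refine eq_top_iff.mpr fun x _ => ?_
    obtain ⟨a, c, hc, rfl⟩ := IsFractionRing.div_surjective (A := C) x
    have hint : IsIntegral L (algebraMap C M c) :=
      IsIntegral.tower_top (R := B) ((Algebra.IsIntegral.isIntegral (R := B) c).map
        (IsScalarTower.toAlgHom B C M))
    have hinv : (algebraMap C M c)⁻¹ ∈ Algebra.adjoin L {algebraMap C M c} :=
      hint.inv_mem (Algebra.subset_adjoin rfl)
    have hsub : (Algebra.adjoin L {algebraMap C M c} : Subalgebra L M).toSubmodule ≤ V := by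
      rw [Algebra.adjoin_eq_span, Submodule.span_le]
      intro z hz
      refine Submodule.subset_span ?_
      induction hz using Submonoid.closure_induction with
      | mem y hy => exact ⟨c, (Set.mem_singleton_iff.mp hy).symm⟩
      | one => exact ⟨1, map_one _⟩
      | mul y y' _ _ h h' =>
        obtain ⟨a₁, rfl⟩ := h
        obtain ⟨a₂, rfl⟩ := h'
        exact ⟨a₁ * a₂, map_mul _ _ _⟩
    rw [div_eq_mul_inv]
    exact hVmul _ (Submodule.subset_span ⟨a, rfl⟩) _ (hsub hinv)
  obtain ⟨s, hs⟩ := Module.Finite.fg_top (R := B) (M := C)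
  have hfd : FiniteDimensional L M := by
    classical
    refine ⟨⟨s.image (algebraMap C M), ?_⟩⟩
    rw [eq_top_iff, ← hV, Submodule.span_le]
    rintro _ ⟨x, rfl⟩
    have hx : x ∈ Submodule.span B (s : Set C) := hs ▸ trivial
    induction hx using Submodule.span_induction with
    | mem y hy => exact Submodule.subset_span (Finset.mem_coe.mpr (Finset.mem_image_of_mem _ hy))
    | zero => simp
    | add y z _ _ hy hz => rw [map_add]; exact add_mem hy hz
    | smul r y _ hy =>
      rw [show algebraMap C M (r • y) = algebraMap B L r • algebraMap C M y by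
        rw [Algebra.smul_def, Algebra.smul_def, map_mul]; exact congrArg (· * _) (hψ r).symm]
      exact Submodule.smul_mem _ _ hy
  refine ⟨hfd, ?_⟩
  classical
  obtain ⟨t, htC, htspan, htind⟩ := exists_linearIndependent L (Set.range (algebraMap C M))
  have htop : ⊤ ≤ Submodule.span L t := by rw [htspan]; exact hV.ge
  let bas : Basis t L M := Basis.mk htind (by rwa [Subtype.range_coe])
  have : Fintype t := FiniteDimensional.fintypeBasisIndex bas
  let e : t ≃ Fin (finrank L M) :=
    Fintype.equivFinOfCardEq (finrank_eq_card_basis bas).symm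
  choose c hc using fun i => htC (e.symm i).2
  let bas' : Basis (Fin (finrank L M)) L M := bas.reindex e
  have hbas : ∀ i, bas' i = algebraMap C M (c i) := fun i => by simp [bas', bas, hc]
  have key : ∀ r : Fin (finrank L M) → B,
      ∑ i, algebraMap B L (r i) • bas' i = algebraMap C M (∑ i, φ (r i) * c i) := fun r => by
    simp only [map_sum, map_mul, hbas, Algebra.smul_def]
    exact Finset.sum_congr rfl fun i _ => congrArg (· * _) (hψ (r i))
  classical
  obtain ⟨⟨b, hb⟩, hb'⟩ := IsLocalization.exist_integer_multiples (nonZeroDivisors B)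
    (s ×ˢ (Finset.univ : Finset (Fin (finrank L M))))
    (fun p => bas'.repr (algebraMap C M p.1) p.2)
  refine ⟨c, b, nonZeroDivisors.ne_zero hb, fun r hr => ?_, fun x => ?_⟩
  · have h := key r
    rw [hr, map_zero] at h
    funext i
    exact IsFractionRing.injective B L
      ((Fintype.linearIndependent_iff.mp bas'.linearIndependent _ h i).trans (map_zero _).symm)
  · have hx : x ∈ Submodule.span B (s : Set C) := hs ▸ trivial
    induction hx using Submodule.span_induction with
    | mem y hy =>
      choose r hr using fun i => hb' (y, i) (Finset.mem_product.mpr ⟨hy, Finset.mem_univ i⟩)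
      refine ⟨r, IsFractionRing.injective C M ?_⟩
      rw [← key, map_mul, ← hψ]
      conv_lhs => rw [← bas'.sum_repr (algebraMap C M y), Finset.mul_sum]
      refine Finset.sum_congr rfl fun i _ => ?_
      rw [hr i, Algebra.smul_def, Algebra.smul_def, Algebra.smul_def, ← mul_assoc, map_mul]
      rfl
    | zero => exact ⟨0, by simp⟩
    | add y z _ _ hy hz =>
      obtain ⟨r, hr⟩ := hy
      obtain ⟨r', hr'⟩ := hz
      exact ⟨r + r', by simp [mul_add, hr, hr', add_mul, Finset.sum_add_distrib]⟩
    | smul a y _ hy =>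
      obtain ⟨r, hr⟩ := hy
      refine ⟨fun i => a * r i, ?_⟩
      rw [Algebra.smul_def, mul_left_comm, hr, Finset.mul_sum]
      exact Finset.sum_congr rfl fun i _ => by
        show φ a * _ = _
        rw [map_mul, mul_assoc]

/-- Over a general rational point the fibre has as many points as the degree. -/
theorem exists_fibre_card [IsAlgClosed K] (φ : B →ₐ[K] C) (hfin : φ.toRingHom.Finite)
    (hinj : Function.Injective φ) (hunr : φ.toRingHom.FormallyUnramified) (ψ : L →+* M)
    (hψ : ∀ x, ψ (algebraMap B L x) = algebraMap C M (φ x)) :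
    ∃ b : B, b ≠ 0 ∧ ∀ v : B →ₐ[K] K, v b ≠ 0 →
      Nat.card {χ : C →ₐ[K] K // χ.comp φ = v} = (letI := ψ.toAlgebra; finrank L M) := by
  obtain ⟨-, c, b, hb, hind, hspan⟩ := exists_basis_denominator φ hfin hinj ψ hψ
  refine ⟨b, hb, fun v hv => ?_⟩
  let m : Ideal B := RingHom.ker v.toRingHom
  let I : Ideal C := m.map φ.toRingHom
  let _ : Algebra B C := φ.toRingHom.toAlgebra
  let _ : Algebra B K := v.toRingHom.toAlgebra
  have _ : Algebra.FormallyUnramified B C := hunr
  have hmod : ∀ x, φ x - algebraMap K C (v x) ∈ I := fun x => by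
    have h : x - algebraMap K B (v x) ∈ m := by simp [m]
    simpa [I] using Ideal.mem_map_of_mem φ.toRingHom h
  have hgen' : ∀ y ∈ m • (⊤ : Submodule B C), ∃ r : Fin (letI := ψ.toAlgebra; finrank L M) → B, (∀ i, v (r i) = 0) ∧ φ b * y = ∑ i, φ (r i) * c i := by
    intro y hy
    refine Submodule.smul_induction_on hy (fun x hx z _ => ?_) (fun y z hy hz => ?_)
    · obtain ⟨r, hr⟩ := hspan z
      have hx' : v x = 0 := hx
      refine ⟨fun i => x * r i, fun i => by rw [map_mul, hx', zero_mul], ?_⟩
      rw [Algebra.smul_def]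
      calc φ b * (φ x * z) = φ x * (φ b * z) := by ring
        _ = _ := by rw [hr, Finset.mul_sum]; simp [mul_assoc]
    · obtain ⟨r, hr, hr'⟩ := hy
      obtain ⟨s, hs, hs'⟩ := hz
      exact ⟨r + s, fun i => by simp [hr i, hs i],
        by simp [mul_add, hr', hs', add_mul, Finset.sum_add_distrib]⟩
  have hgen := fun (y : C) (hy : y ∈ I) => hgen' y (by rw [Ideal.smul_top_eq_map]; exact hy)
  let q : C →ₐ[K] C ⧸ I := Ideal.Quotient.mkₐ K I
  have hqφ : ∀ x, q (φ x) = algebraMap K (C ⧸ I) (v x) := fun x => by
    rw [← sub_eq_zero, ← q.commutes, ← map_sub]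
    exact Ideal.Quotient.eq_zero_iff_mem.mpr (hmod x)
  have hli : LinearIndependent K (q ∘ c) := by
    rw [Fintype.linearIndependent_iff]
    intro k hk i
    have h1 : ∑ i, φ (algebraMap K B (k i)) * c i ∈ I := by
      rw [← Ideal.Quotient.eq_zero_iff_mem, ← hk]
      simp [q, Algebra.smul_def]
    obtain ⟨r, hr, hr'⟩ := hgen _ h1
    have h2 : ∑ i, φ (b * algebraMap K B (k i) - r i) * c i = 0 := by
      simp only [map_sub, map_mul, sub_mul, Finset.sum_sub_distrib, ← hr', Finset.mul_sum,
        mul_assoc, sub_self]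
    have h3 := congrArg v (congrFun (hind _ h2) i)
    simpa [hr i, hv] using h3
  have hsp : ⊤ ≤ Submodule.span K (Set.range (q ∘ c)) := fun x _ => by
    obtain ⟨x, rfl⟩ := Ideal.Quotient.mk_surjective x
    obtain ⟨r, hr⟩ := hspan x
    have h := congrArg q hr
    simp only [map_mul, map_sum, hqφ, ← Algebra.smul_def] at h
    have : q x = ∑ i, ((v b)⁻¹ * v (r i)) • q (c i) := by
      simp only [mul_smul, ← Finset.smul_sum, ← h, inv_smul_smul₀ hv]
    show q x ∈ _
    rw [this]
    exact Submodule.sum_mem _ fun i _ => Submodule.smul_mem _ _ (Submodule.subset_span ⟨i, rfl⟩)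
  let bas := Basis.mk hli hsp
  have : Module.Finite K (C ⧸ I) := Module.Finite.of_basis bas
  have : IsScalarTower B K (C ⧸ I) := IsScalarTower.of_algebraMap_eq fun x => hqφ x
  have : Algebra.FormallyUnramified B (C ⧸ I) := Algebra.FormallyUnramified.comp B C _
  have : Algebra.FormallyUnramified K (C ⧸ I) :=
    Algebra.FormallyUnramified.of_restrictScalars B K _
  let e : {χ : C →ₐ[K] K // χ.comp φ = v} ≃ ((C ⧸ I) →ₐ[K] K) :=
  { toFun := fun χ => Ideal.Quotient.liftₐ I χ.1 (by
      intro y hy
      have : I ≤ RingHom.ker χ.1.toRingHom := Ideal.map_le_iff_le_comap.mpr fun x hx => by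
        show χ.1 (φ x) = 0
        rw [← AlgHom.comp_apply, χ.2]; exact hx
      exact this hy)
    invFun := fun θ => ⟨θ.comp q, AlgHom.ext fun x => by
      show θ (q (φ x)) = v x
      rw [hqφ, θ.commutes]; rfl⟩
    left_inv := fun χ => Subtype.ext (AlgHom.ext fun x => rfl)
    right_inv := fun θ => AlgHom.ext fun y => by
      obtain ⟨x, rfl⟩ := Ideal.Quotient.mk_surjective y
      rfl }
  rw [Nat.card_congr e, natCard_algHom_eq_finrank, finrank_eq_card_basis bas, Fintype.card_fin]

end FLTA.AbelianVar.CountAlg
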