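import Fermat.Agent.AbelianVar.DivisorSym
import Fermat.Agent.AbelianVar.Growth.Main

/-!
# The divisor model of an abelian variety and transfer from Picard classes to dimensions
-/

set_option autoImplicit false

open CategoryTheory CategoryTheory.Limits AlgebraicGeometry TopologicalSpace NeronModelInfra
  GoodReductionJacobian

noncomputable section

universe u

namespace FLTA.AbelianVar

section Generic

open RF

variable {X : Scheme.{u}} [AlgebraicGeometry.IsIntegral X] {K : Type u} [Field K]
  (f : X ⟶ Spec (CommRingCat.of K))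

lemma constHom_eq_ff {U : X.Opens} (hη : genericPoint X ∈ U) (c : K) :
    ff hη (((Scheme.ΓSpecIso (CommRingCat.of K)).inv ≫ f.appLE ⊤ U le_top).hom c) =
      constHom f c := by
  show _ = ff (W := (⊤ : X.Opens)) _ (f.appTop ((Scheme.ΓSpecIso (CommRingCat.of K)).inv c))
  rw [← ff_congr (W := (⊤ : X.Opens)) (x := genericPoint X) trivial trivial, ← ff_rs le_top hη]
  rfl

/-- The generic point as a point with values in the function field. -/
lemma fromSpecStalk_comp_eq :
    X.fromSpecStalk (genericPoint X) ≫ f = Spec.map (CommRingCat.ofHom (constHom f)) := by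
  apply ext_of_isAffine
  rw [Scheme.Hom.comp_appTop, Scheme.fromSpecStalk_appTop,
    Subsingleton.elim (homOfLE le_top) (𝟙 (⊤ : (Spec (X.presheaf.stalk (genericPoint X))).Opens)),
    op_id, CategoryTheory.Functor.map_id, Category.comp_id]
  have h := Scheme.ΓSpecIso_naturality (CommRingCat.ofHom (constHom f))
  rw [← Iso.eq_comp_inv] at h
  rw [h]
  ext c
  show (Scheme.ΓSpecIso (X.presheaf.stalk (genericPoint X))).inv
      (X.presheaf.germ ⊤ (genericPoint X) trivial (f.appTop c)) =
    (Scheme.ΓSpecIso (CommRingCat.of X.functionField)).inv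
      (ff (W := (⊤ : X.Opens)) (x := genericPoint X) trivial
        (f.appTop ((Scheme.ΓSpecIso (CommRingCat.of K)).inv
          ((Scheme.ΓSpecIso (CommRingCat.of K)).hom c))))
  rw [Iso.hom_inv_id_apply]
  rfl

variable [IsAlgClosed K]

include f in
/-- Closed points of a smooth variety have normal local rings. -/
lemma mem_O_of_forall_valuationSubring (g : ℕ) [SmoothOfRelativeDimension g f] {y : X}
    (hy : IsClosed {y}) {a : X.functionField}
    (ha : ∀ w : ValuationSubring X.functionField, (∀ z ∈ O y, z ∈ w) → a ∈ w) : a ∈ O y := by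
  have := uniqueFactorizationMonoid_stalk f g hy
  have h := Growth.isIntegralElem_of_forall_mem
    (algebraMap (X.presheaf.stalk y) X.functionField) (x := a)
    fun w hw => ha w fun z ⟨r, hr⟩ => hr ▸ hw r
  exact IsIntegrallyClosed.isIntegral_iff.1 h

end Generic

variable {K : Type u} [Field K] [IsAlgClosed K] {A : Scheme.{u}}
  {f : A ⟶ Spec (CommRingCat.of K)} [AlgebraicGeometry.IsIntegral A]

/-- Pullback of rational functions as an algebra map. -/
def SymDivisor.ffAlgHom (φ : A ⟶ A) (hφ : φ.base (genericPoint A) = genericPoint A)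
    (hφf : φ ≫ f = f) :
    letI := ffAlgebra f
    A.functionField →ₐ[K] A.functionField :=
  letI := ffAlgebra f
  { RF.ffMap φ hφ with commutes' := fun c => RF.ffMap_constHom φ hφ hφf c }

namespace AffineDivisor

open RF SymDivisor

variable (S : AffineDivisor f)

/-- Finitely many charts covering `A`, the first one being the affine complement. -/
theorem exists_cover [IsProper f] :
    ∃ (n : ℕ) (x : Fin (n + 1) → A), x 0 = genericPoint A ∧ ∀ y, ∃ i, y ∈ S.D.U (x i) := by
  have : CompactSpace A := QuasiCompact.compactSpace_of_compactSpace f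
  obtain ⟨s, hs⟩ := isCompact_univ.elim_finite_subcover (fun x : A => (S.D.U x : Set A))
    (fun x => (S.D.U x).isOpen) fun y _ => Set.mem_iUnion.2 ⟨y, S.D.mem y⟩
  obtain ⟨k, ⟨e⟩⟩ : ∃ k, Nonempty (Fin k ≃ s) := ⟨_, ⟨(Fintype.equivFin s).symm⟩⟩
  refine ⟨k, Fin.cons (genericPoint A) fun i => (e i : A), rfl, fun y => ?_⟩
  obtain ⟨x, hx, hy⟩ := Set.mem_iUnion₂.1 (hs (Set.mem_univ y))
  exact ⟨(e.symm ⟨x, hx⟩).succ, by simpa using hy⟩

lemma center_exists [IsProper f] {Y : Scheme.{u}} [AlgebraicGeometry.IsIntegral Y]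
    {h : Y ⟶ Spec (CommRingCat.of K)} [IsSeparated h] (φ : A ⟶ Y)
    (hφ : φ.base (genericPoint A) = genericPoint Y) (hφS : φ ≫ h = f)
    (w : ValuationSubring A.functionField) (hw : ∀ c, constHom f c ∈ w) :
    ∃ x : A, (O x : Set A.functionField) ⊆ w ∧
      ∀ (V : Y.Opens), IsAffineOpen V → genericPoint Y ∈ V →
        (∀ a ∈ Reg V, ffMap φ hφ a ∈ w) → φ.base x ∈ V := by
  refine exists_centre f h φ hφ hφS w
    (Spec.map (CommRingCat.ofHom ((constHom f).codRestrict w.toSubring hw))) ?_
  rw [fromSpecStalk_comp_eq, ← Spec.map_comp]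
  rfl

/-- The functions regular on an open, as a `K`-subalgebra. -/
def chartAlg (f : A ⟶ Spec (CommRingCat.of K)) (W : A.Opens) :
    letI := ffAlgebra f
    Subalgebra K A.functionField :=
  letI := ffAlgebra f
  { Reg W with algebraMap_mem' := fun c => mem_Reg.2 fun y _ => constHom_mem_O f c y }

lemma eqn_mem_Reg (x : A) : S.D.t x ∈ Reg (S.D.U x) :=
  mem_Reg.2 fun y hy => (S.isEqn _ y hy).2.1.1

lemma exists_pow_mul_mem {a : A.functionField} (ha : a ∈ Reg S.U) (x : A) :
    ∃ c : ℕ, S.D.t x ^ c * a ∈ Reg (S.D.U x) := by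
  let := ffAlgebra f
  have hmem := S.adjoin a ha
  clear ha
  induction hmem using Algebra.adjoin_induction with
  | mem t ht => exact ⟨1, mem_Reg.2 fun y hy => by rw [pow_one]; exact (S.isEqn _ y hy).2.1.2 t ht⟩
  | algebraMap c =>
    exact ⟨0, mem_Reg.2 fun y _ => by rw [pow_zero, one_mul]; exact constHom_mem_O f c y⟩
  | add p q _ _ hp hq =>
    obtain ⟨c, hc⟩ := hp
    obtain ⟨d, hd⟩ := hq
    refine ⟨c + d, ?_⟩
    rw [show S.D.t x ^ (c + d) * (p + q) =
      S.D.t x ^ d * (S.D.t x ^ c * p) + S.D.t x ^ c * (S.D.t x ^ d * q) by ring]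
    exact add_mem (mul_mem (pow_mem (S.eqn_mem_Reg x) d) hc)
      (mul_mem (pow_mem (S.eqn_mem_Reg x) c) hd)
  | mul p q _ _ hp hq =>
    obtain ⟨c, hc⟩ := hp
    obtain ⟨d, hd⟩ := hq
    refine ⟨c + d, ?_⟩
    rw [show S.D.t x ^ (c + d) * (p * q) = (S.D.t x ^ c * p) * (S.D.t x ^ d * q) by ring]
    exact mul_mem hc hd

lemma exists_den (a : A.functionField) : ∃ b ∈ Reg S.U, b ≠ 0 ∧ b * a ∈ Reg S.U := by
  have : Nonempty S.U := ⟨⟨_, S.genericPoint_mem⟩⟩
  have := functionField_isFractionRing_of_isAffineOpen A S.U S.isAffine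
  obtain ⟨p, q, hq, rfl⟩ := IsFractionRing.div_surjective (A := Γ(A, S.U)) a
  have hq0 : algebraMap Γ(A, S.U) A.functionField q ≠ 0 :=
    IsFractionRing.to_map_ne_zero_of_mem_nonZeroDivisors hq
  refine ⟨_, ff_mem_Reg S.genericPoint_mem q, hq0, ?_⟩
  rw [show ff S.genericPoint_mem q = algebraMap Γ(A, S.U) A.functionField q from rfl,
    mul_div_cancel₀ _ hq0]
  exact ff_mem_Reg S.genericPoint_mem p

variable [IsProper f] (g : ℕ) [SmoothOfRelativeDimension g f]

/-- The chosen chart points. -/
def chartPt : Fin (S.exists_cover.choose + 1) → A := S.exists_cover.choose_spec.choose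

lemma chartPt_zero : S.D.U (S.chartPt 0) = S.U ∧ S.D.t (S.chartPt 0) = 1 := by
  rw [show S.chartPt 0 = genericPoint A from S.exists_cover.choose_spec.choose_spec.1]
  exact S.eq_one _ S.genericPoint_mem

lemma exists_chartPt (y : A) : ∃ i, y ∈ S.D.U (S.chartPt i) :=
  S.exists_cover.choose_spec.choose_spec.2 y

/-- The divisor model of the function field. -/
def model : letI := ffAlgebra f; Growth.DivisorModel K A.functionField :=
  letI := ffAlgebra f
  { n := S.exists_cover.choose + 1
    R := fun i => chartAlg f (S.D.U (S.chartPt i))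
    eqn := fun i => S.D.t (S.chartPt i)
    aff := 0
    eqn_mem := fun i => S.eqn_mem_Reg _
    eqn_ne := fun i => S.D.t_ne _
    eqn_aff := S.chartPt_zero.2
    normal := fun i z hz => by
      have : JacobsonSpace A := LocallyOfFiniteType.jacobsonSpace f
      show z ∈ Reg (S.D.U (S.chartPt i))
      refine mem_Reg_iff_isClosed.2 fun y hy hyc => ?_
      refine mem_O_of_forall_valuationSubring f g hyc fun w hw => ?_
      exact Growth.mem_of_isIntegralElem _ w (fun r => hw _ (mem_Reg.1 r.2 y hy)) hz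
    exhaust := fun a ha i => by
      have ha' : a ∈ Reg S.U := S.chartPt_zero.1 ▸ ha
      exact S.exists_pow_mul_mem ha' _
    frac_aff := fun a => by
      have h : ∀ z, z ∈ chartAlg f (S.D.U (S.chartPt 0)) ↔ z ∈ Reg S.U := fun z => by
        rw [S.chartPt_zero.1]; rfl
      obtain ⟨b, hb, hb0, hba⟩ := S.exists_den a
      exact ⟨b, (h b).2 hb, hb0, (h _).2 hba⟩
    cover := fun w hw => by
      obtain ⟨y, hy, -⟩ := center_exists (f := f) (h := f) (𝟙 A) rfl (Category.id_comp f) w hw
      obtain ⟨i, hi⟩ := S.exists_chartPt y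
      exact ⟨i, fun a ha => hy (mem_Reg.1 ha y hi)⟩ }

/-- The spaces of the model are the spaces of sections of the multiples of the divisor. -/
lemma model_space_eq (m : ℕ) :
    letI := ffAlgebra f
    (S.model g).space m = S.D.space (fun c x => constHom_mem_O f c x) m := by
  let := ffAlgebra f
  ext a
  rw [Growth.DivisorModel.mem_space]
  show (∀ i, S.D.t (S.chartPt i) ^ m * a ∈ Reg (S.D.U (S.chartPt i))) ↔
    ∀ x, S.D.t x ^ m * a ∈ O x
  constructor
  · intro h x
    obtain ⟨i, hi⟩ := S.exists_chartPt x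
    have h1 := mem_Reg.1 (h i) x hi
    have h2 := pow_mem (S.D.ratio_mem_O (S.D.mem x) hi) m
    have h3 := mul_mem h2 h1
    rwa [mul_pow, inv_pow, mul_assoc, inv_mul_cancel_left₀ (pow_ne_zero m (S.D.t_ne _))] at h3
  · intro h i
    refine mem_Reg.2 fun y hy => ?_
    have h2 := pow_mem (S.D.ratio_mem_O hy (S.D.mem y)) m
    have h3 := mul_mem h2 (h y)
    rwa [mul_pow, inv_pow, mul_assoc, inv_mul_cancel_left₀ (pow_ne_zero m (S.D.t_ne _))] at h3

/-- The pulled back spaces of the model are the spaces of sections of the pulled back divisor. -/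
lemma model_pullSpace_eq (φ : A ⟶ A) (hφ : φ.base (genericPoint A) = genericPoint A)
    (hφf : φ ≫ f = f) (m : ℕ) :
    letI := ffAlgebra f
    (S.model g).pullSpace (ffAlgHom φ hφ hφf) m =
      (Data.pull φ hφ S.D).space (fun c x => constHom_mem_O f c x) m := by
  let := ffAlgebra f
  have hJ : JacobsonSpace A := LocallyOfFiniteType.jacobsonSpace f
  ext a
  rw [Growth.DivisorModel.mem_pullSpace]
  show (∀ i, ∀ w : ValuationSubring A.functionField,
      (∀ z ∈ chartAlg f (S.D.U (S.chartPt i)), ffMap φ hφ z ∈ w) →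
        ffMap φ hφ (S.D.t (S.chartPt i)) ^ m * a ∈ w) ↔
    ∀ x, ffMap φ hφ (S.D.t (φ.base x)) ^ m * a ∈ O x
  constructor
  · intro h
    have hclosed : ∀ c : A, IsClosed {c} → ffMap φ hφ (S.D.t (φ.base c)) ^ m * a ∈ O c := by
      intro c hc
      obtain ⟨i, hi⟩ := S.exists_chartPt (φ.base c)
      have h1 : ffMap φ hφ (S.D.t (S.chartPt i)) ^ m * a ∈ O c :=
        mem_O_of_forall_valuationSubring f g hc fun w hw =>
          h i w fun z hz => hw _ (ffMap_mem_O (mem_Reg.1 hz _ hi))
      have h2 := pow_mem (ffMap_mem_O (hφ := hφ) (S.D.ratio_mem_O (S.D.mem (φ.base c)) hi)) m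
      have h3 := mul_mem h2 h1
      rwa [map_mul, map_inv₀, mul_pow, inv_pow, mul_assoc,
        inv_mul_cancel_left₀ (pow_ne_zero m (by simpa using S.D.t_ne (S.chartPt i)))] at h3
    intro x
    obtain ⟨c, hc, hcc⟩ := nonempty_inter_closedPoints (Z := closure {x})
      ⟨x, subset_closure rfl⟩ isClosed_closure.isLocallyClosed
    have hxc : x ⤳ c := specializes_iff_mem_closure.2 hc
    have hU : φ.base x ∈ S.D.U (φ.base c) :=
      (hxc.map φ.continuous).mem_open (S.D.U _).isOpen (S.D.mem _)
    have h2 := pow_mem (ffMap_mem_O (hφ := hφ) (S.D.ratio_mem_O (S.D.mem (φ.base x)) hU)) m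
    have h3 := mul_mem h2 (O_mono hxc (hclosed c hcc))
    rwa [map_mul, map_inv₀, mul_pow, inv_pow, mul_assoc,
      inv_mul_cancel_left₀ (pow_ne_zero m (by simpa using S.D.t_ne (φ.base c)))] at h3
  · intro h i w hw
    have hwK : ∀ c, constHom f c ∈ w := fun c => by
      have := hw _ ((chartAlg f _).algebraMap_mem c)
      rwa [show algebraMap K A.functionField c = constHom f c from rfl,
        ffMap_constHom φ hφ hφf] at this
    obtain ⟨y, hy, hyV⟩ := center_exists (h := f) φ hφ hφf w hwK
    have hyi : φ.base y ∈ S.D.U (S.chartPt i) :=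
      hyV _ (S.isAffine_U _) (RF.genericPoint_mem (S.D.mem (S.chartPt i))) hw
    have h2 := pow_mem (ffMap_mem_O (hφ := hφ) (S.D.ratio_mem_O hyi (S.D.mem (φ.base y)))) m
    have h3 := mul_mem h2 (h y)
    rw [map_mul, map_inv₀, mul_pow, inv_pow, mul_assoc,
      inv_mul_cancel_left₀ (pow_ne_zero m (by simpa using S.D.t_ne (φ.base y)))] at h3
    exact hy h3

/-- If `φ^* D = q • D` in the Picard group, then `L(m φ^* D)` and `L(q m D)` have the same
dimension. -/
theorem finrank_pullSpace_eq (φ : A ⟶ A) (hφ : φ.base (genericPoint A) = genericPoint A)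
    (hφf : φ ≫ f = f) (q : ℕ) (h : Pic.pull φ S.D.cls = q • S.D.cls) (m : ℕ) :
    letI := ffAlgebra f
    Module.finrank K ((S.model g).pullSpace (ffAlgHom φ hφ hφf) m) =
      Module.finrank K ((S.model g).space (q * m)) := by
  let := ffAlgebra f
  rw [S.model_pullSpace_eq g φ hφ hφf m, S.model_space_eq g (q * m), ← Data.space_pow]
  exact Data.finrank_space_eq _ _ _ (by rw [Data.cls_pull, h, Data.cls_pow]) m

end AffineDivisor

end FLTA.AbelianVar
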