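import Fermat.Agent.AbelianVar.Tangent
import Fermat.Agent.AbelianVar.CountAlgebra
import Fermat.Agent.AbelianVar.DivisorModel

/-!
# Multiplication by `n` is finite surjective, of degree the number of points in its kernel
-/

set_option autoImplicit false

open CategoryTheory CategoryTheory.Limits AlgebraicGeometry NeronModelInfra GoodReductionJacobian

noncomputable section

universe u

namespace FLTA.AbelianVar

open Tangent Growth

variable {K : Type u} [Field K] {A : Scheme.{u}} {f : A ⟶ Spec (CommRingCat.of K)}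
  (G : CommLaw K f)

namespace CommLaw

instance isProper_mulN [IsProper f] (n : ℕ) : IsProper (G.mulN n) := by
  have : IsProper (G.mulN n ≫ f) := by rw [G.mulN_comp]; infer_instance
  exact IsProper.of_comp (G.mulN n) f

theorem isFinite_mulN [IsProper f] (n : ℕ) (hn : (n : K) ≠ 0) : IsFinite (G.mulN n) := by
  have := formallyUnramified_mulN G n hn
  have : LocallyQuasiFinite (G.mulN n) := by
    refine ⟨fun {U} hU {V} hV e => ?_⟩
    have h1 := (G.mulN n).finiteType_appLE hU hV e
    have h2 := (G.mulN n).formallyUnramified_appLE hU hV e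
    algebraize [((G.mulN n).appLE U V e).hom]
    exact CountAlg.quasiFinite_of_formallyUnramified Γ(A, U) Γ(A, V)
  exact IsFinite.of_isProper_of_locallyQuasiFinite _

section Integral

variable [AlgebraicGeometry.IsIntegral A]

/-- The structure map to the sections, as an algebra; `fromSpec` is a morphism over the base. -/
lemma fromSpec_comp_eq {W : A.Opens} (hW : IsAffineOpen W) :
    letI := sectionsAlgebra f W
    hW.fromSpec ≫ f = Tangent.strMap K Γ(A, W) := by
  rw [← IsAffineOpen.SpecMap_appLE_fromSpec f (isAffineOpen_top (Spec (CommRingCat.of K))) hW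
    (V := W) le_top, IsAffineOpen.fromSpec_top]
  show _ = Spec.map ((Scheme.ΓSpecIso (CommRingCat.of K)).inv ≫ f.appLE ⊤ W le_top)
  rw [Spec.map_comp]
  congr 1
  simp [Scheme.isoSpec_Spec_inv]

/-- Transcendence degrees of affine opens agree with the function field. -/
lemma trdeg_sections {W : A.Opens} (hW : IsAffineOpen W) (hη : genericPoint A ∈ W) :
    (letI := sectionsAlgebra f W; Algebra.trdeg K Γ(A, W)) =
      (letI := ffAlgebra f; Algebra.trdeg K A.functionField) := by
  let _ := sectionsAlgebra f W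
  let _ := ffAlgebra f
  have : Nonempty W := ⟨⟨_, hη⟩⟩
  have := functionField_isFractionRing_of_isAffineOpen A W hW
  have : IsScalarTower K Γ(A, W) A.functionField :=
    IsScalarTower.of_algebraMap_eq fun c => (constHom_eq_ff f hη c).symm
  have : FaithfulSMul Γ(A, W) A.functionField :=
    (faithfulSMul_iff_algebraMap_injective _ _).mpr (IsFractionRing.injective _ _)
  have : Algebra.IsAlgebraic Γ(A, W) A.functionField :=
    IsLocalization.isAlgebraic A.functionField (nonZeroDivisors Γ(A, W))
  rw [← trdeg_add_eq K Γ(A, W) (A := A.functionField),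
    (trdeg_eq_zero_iff (R := Γ(A, W)) (A := A.functionField)).mpr inferInstance, add_zero]

/-- The map of sections over affine opens induced by `mulN`. -/
def sectionsHom (n : ℕ) {U V : A.Opens} (e : V ≤ G.mulN n ⁻¹ᵁ U) :
    letI := sectionsAlgebra f U
    letI := sectionsAlgebra f V
    Γ(A, U) →ₐ[K] Γ(A, V) :=
  letI := sectionsAlgebra f U
  letI := sectionsAlgebra f V
  { toRingHom := ((G.mulN n).appLE U V e).hom
    commutes' := fun c => by
      show ((G.mulN n).appLE U V e).hom
        ((f.appLE ⊤ U le_top).hom ((Scheme.ΓSpecIso (CommRingCat.of K)).inv.hom c)) =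
          (f.appLE ⊤ V le_top).hom ((Scheme.ΓSpecIso (CommRingCat.of K)).inv.hom c)
      rw [← CommRingCat.comp_apply]
      erw [Scheme.Hom.appLE_comp_appLE]
      congr 3
      exact G.mulN_comp n }

variable [IsAlgClosed K] [IsProper f] (g : ℕ) [SmoothOfRelativeDimension g f]

include g in
theorem mulN_genericPoint (n : ℕ) (hn : (n : K) ≠ 0) :
    (G.mulN n).base (genericPoint A) = genericPoint A := by
  have := G.isFinite_mulN n hn
  by_contra hne
  obtain ⟨V, hV, hpV, hsm⟩ := exists_smooth_chart (f := f) g ((G.mulN n).base (genericPoint A))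
  let V' : A.Opens := G.mulN n ⁻¹ᵁ V
  have hV' : IsAffineOpen V' := hV.preimage _
  have hη : genericPoint A ∈ V' := hpV
  have hηV : genericPoint A ∈ V := RF.genericPoint_mem hpV
  let _ := sectionsAlgebra f V
  let _ := sectionsAlgebra f V'
  have : Algebra.IsStandardSmoothOfRelativeDimension g K Γ(A, V) := hsm
  have : Nonempty V := ⟨⟨_, hpV⟩⟩
  have : Nonempty V' := ⟨⟨_, hη⟩⟩
  let φ : Γ(A, V) →ₐ[K] Γ(A, V') := G.sectionsHom n (le_refl V')
  let P : Ideal Γ(A, V) := RingHom.ker φ.toRingHom
  have : P.IsPrime := RingHom.ker_isPrime _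
  have hfin : φ.toRingHom.Finite := by
    have h := (G.mulN n).finite_app V hV
    rwa [Scheme.Hom.app_eq_appLE] at h
  have htB : Algebra.trdeg K Γ(A, V) = (g : ℕ) := trdeg_eq_of_isStandardSmooth g
  have htC : Algebra.trdeg K Γ(A, V') = (g : ℕ) := by
    rw [trdeg_sections hV' hη, ← trdeg_sections hV hηV, htB]
  by_cases hP : P = ⊥
  · -- an injective map on a chart preserves the generic point
    apply hne
    have hinj : Function.Injective φ := (RingHom.injective_iff_ker_eq_bot _).mpr hP
    have h1 : (hV.primeIdealOf ⟨_, hpV⟩).asIdeal = ⊥ := by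
      have h2 : (hV.primeIdealOf ⟨_, hpV⟩) =
          (Spec.map ((G.mulN n).appLE V V' le_rfl)).base (hV'.primeIdealOf ⟨_, hη⟩) := by
        apply hV.fromSpec.injective
        erw [hV.fromSpec_primeIdealOf, ← Scheme.Hom.comp_apply,
          IsAffineOpen.SpecMap_appLE_fromSpec (G.mulN n) hV hV', Scheme.Hom.comp_apply,
          hV'.fromSpec_primeIdealOf]
      rw [h2, hV'.primeIdealOf_genericPoint, genericPoint_eq_bot_of_affine]
      exact Ideal.comap_bot_of_injective _ hinj
    have h3 : hV.primeIdealOf ⟨_, hpV⟩ = hV.primeIdealOf ⟨genericPoint A, hηV⟩ := by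
      rw [hV.primeIdealOf_genericPoint, genericPoint_eq_bot_of_affine]
      exact PrimeSpectrum.ext h1
    have h4 := congrArg hV.fromSpec.base h3
    rwa [hV.fromSpec_primeIdealOf, hV.fromSpec_primeIdealOf] at h4
  · have h1 := trdeg_quotient_add_one_le (K := K) P hP
    have h2 : Algebra.trdeg K (Γ(A, V) ⧸ P) = Algebra.trdeg K Γ(A, V') :=
      trdeg_eq_of_injective_integral (Ideal.kerLiftAlg φ) (Ideal.kerLiftAlg_injective φ)
        (RingHom.IsIntegral.tower_top (Ideal.Quotient.mk P) _ (by exact hfin.to_isIntegral))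
    rw [h2, htB, htC] at h1
    exact absurd h1 (by exact_mod_cast Nat.not_succ_le_self g)

/-- Points in an affine open, as algebra maps. -/
lemma pointOf_comp_mulN (n : ℕ) {U V : A.Opens} (hU : IsAffineOpen U) (hV : IsAffineOpen V)
    (e : V ≤ G.mulN n ⁻¹ᵁ U) (χ : letI := sectionsAlgebra f V; Γ(A, V) →ₐ[K] K) :
    letI := sectionsAlgebra f U
    letI := sectionsAlgebra f V
    n • Tangent.pointOf G hV.fromSpec (fromSpec_comp_eq hV) χ =
      Tangent.pointOf G hU.fromSpec (fromSpec_comp_eq hU) (χ.comp (G.sectionsHom n e)) := by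
  apply Pt.ext
  rw [← G.hom_comp_mulN]
  show (Spec.map _ ≫ hV.fromSpec) ≫ _ = Spec.map _ ≫ hU.fromSpec
  rw [Category.assoc, ← IsAffineOpen.SpecMap_appLE_fromSpec (G.mulN n) hU hV e,
    ← Spec.map_comp_assoc]
  rfl

include g in
/-- The kernel of `mulN n` on rational points has as many elements as the degree. -/
theorem natCard_ker_mulN (n : ℕ) (hn : (n : K) ≠ 0)
    (hgen : (G.mulN n).base (genericPoint A) = genericPoint A) :
    IsFiniteSeparableHom (RF.ffMap (G.mulN n) hgen) ∧
    Nat.card {x : G.Pt (𝟙 (Spec (CommRingCat.of K))) // n • x = 0} =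
      homDegree (RF.ffMap (G.mulN n) hgen) := by
  have := G.isFinite_mulN n hn
  have := formallyUnramified_mulN G n hn
  obtain ⟨V, hV, hηV, hsm⟩ := exists_smooth_chart (f := f) g (genericPoint A)
  let V' : A.Opens := G.mulN n ⁻¹ᵁ V
  have hV' : IsAffineOpen V' := hV.preimage _
  have hη : genericPoint A ∈ V' := by show (G.mulN n).base _ ∈ V; rw [hgen]; exact hηV
  let _ := sectionsAlgebra f V
  let _ := sectionsAlgebra f V'
  have : Algebra.IsStandardSmoothOfRelativeDimension g K Γ(A, V) := hsm
  have : Algebra.IsStandardSmooth K Γ(A, V) :=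
    Algebra.IsStandardSmoothOfRelativeDimension.isStandardSmooth g
  have : Nonempty V := ⟨⟨_, hηV⟩⟩
  have : Nonempty V' := ⟨⟨_, hη⟩⟩
  have := functionField_isFractionRing_of_isAffineOpen A V hV
  have := functionField_isFractionRing_of_isAffineOpen A V' hV'
  let φ : Γ(A, V) →ₐ[K] Γ(A, V') := G.sectionsHom n (le_refl V')
  have hfin : φ.toRingHom.Finite := by
    have h := (G.mulN n).finite_app V hV
    rwa [Scheme.Hom.app_eq_appLE] at h
  have hunr : φ.toRingHom.FormallyUnramified :=
    (G.mulN n).formallyUnramified_appLE hV hV' (le_refl V')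
  let ψ := RF.ffMap (G.mulN n) hgen
  have hψ : ∀ s, ψ (algebraMap Γ(A, V) A.functionField s) =
      algebraMap Γ(A, V') A.functionField (φ s) := fun s =>
    RF.ffMap_ff (hφ := hgen) (V := V') le_rfl hη s
  have hinj : Function.Injective φ := fun a b h =>
    IsFractionRing.injective Γ(A, V) A.functionField
      (ψ.injective (by rw [hψ, hψ, h]))
  have hsepfin : IsFiniteSeparableHom ψ := by
    have h1 := (CountAlg.exists_basis_denominator φ hfin hinj ψ hψ).1
    refine ⟨h1, ?_⟩
    exact separable_of_formallyUnramified φ.toRingHom hunr ψ hψ h1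
  refine ⟨hsepfin, ?_⟩
  obtain ⟨b, hb, hcard⟩ := CountAlg.exists_fibre_card φ hfin hinj hunr ψ hψ
  -- a rational point where `b` does not vanish
  obtain ⟨v, hv⟩ : ∃ v : Γ(A, V) →ₐ[K] K, v b ≠ 0 := by
    obtain ⟨m, hm, hbm⟩ : ∃ m : Ideal Γ(A, V), m.IsMaximal ∧ b ∉ m := by
      by_contra! h
      have : b ∈ (⊥ : Ideal Γ(A, V)).jacobson :=
        Ideal.mem_sInf.mpr fun m ⟨_, hm⟩ => h m hm
      have hjr : IsJacobsonRing Γ(A, V) := isJacobsonRing_of_finiteType (A := K)
      have hj : (⊥ : Ideal Γ(A, V)).jacobson = ⊥ :=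
        IsJacobsonRing.out hjr (Ideal.isPrime_bot (α := Γ(A, V))).isRadical
      rw [hj] at this
      exact hb (Ideal.mem_bot.mp this)
    choose r hr using fun x => exists_sub_algebraMap_mem (K := K) m x
    let e := AlgEquiv.ofBijective (Algebra.ofId K (Γ(A, V) ⧸ m))
      ⟨(Algebra.ofId K (Γ(A, V) ⧸ m)).toRingHom.injective, fun y => by
        obtain ⟨x, rfl⟩ := Ideal.Quotient.mk_surjective y
        exact ⟨r x, (Ideal.Quotient.eq.mpr (hr x)).symm⟩⟩
    refine ⟨e.symm.toAlgHom.comp (Ideal.Quotient.mkₐ K m), fun h => hbm ?_⟩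
    exact Ideal.Quotient.eq_zero_iff_mem.mp (e.symm.map_eq_zero_iff.mp h)
  have hid : Tangent.strMap K K = 𝟙 (Spec (CommRingCat.of K)) := by
    show Spec.map (𝟙 (CommRingCat.of K)) = _
    exact Spec.map_id _
  rw [← hid]
  let ιV := Tangent.pointOf G hV.fromSpec (fromSpec_comp_eq hV) (C := K)
  let ιV' := Tangent.pointOf G hV'.fromSpec (fromSpec_comp_eq hV') (C := K)
  let F : {χ : Γ(A, V') →ₐ[K] K // χ.comp φ = v} →
      {x : G.Pt (Tangent.strMap K K) // n • x = ιV v} := fun χ =>
    ⟨ιV' χ.1, by rw [G.pointOf_comp_mulN n hV hV' le_rfl]; exact congrArg ιV χ.2⟩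
  have hF : Function.Bijective F := by
    refine ⟨fun χ χ' h => Subtype.ext (pointOf_injective G hV'.fromSpec (fromSpec_comp_eq hV') (congrArg Subtype.val h)),
      fun x => ?_⟩
    obtain ⟨χ, hχ⟩ := exists_pointOf G hV'.fromSpec (fromSpec_comp_eq hV') x.1 fun p => by
      rw [hV'.range_fromSpec]
      show (G.mulN n).base (x.1.hom.base p) ∈ V
      rw [← Scheme.Hom.comp_apply, G.hom_comp_mulN, x.2, ← SetLike.mem_coe, ← hV.range_fromSpec]
      exact ⟨_, (Scheme.Hom.comp_apply _ _ _).symm⟩
    refine ⟨⟨χ, pointOf_injective G hV.fromSpec (fromSpec_comp_eq hV) ?_⟩, Subtype.ext hχ⟩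
    rw [← G.pointOf_comp_mulN n hV hV' le_rfl, hχ]
    exact x.2
  have hd : 0 < homDegree ψ := homDegree_pos hsepfin
  have hcard' : Nat.card {x : G.Pt (Tangent.strMap K K) // n • x = ιV v} = homDegree ψ :=
    (Nat.card_congr (Equiv.ofBijective F hF)).symm.trans (hcard v hv)
  obtain ⟨⟨x₀, hx₀⟩⟩ : Nonempty {x : G.Pt (Tangent.strMap K K) // n • x = ιV v} :=
    (Nat.card_pos_iff.mp (hcard'.symm ▸ hd)).1
  refine Eq.trans (Nat.card_congr ?_) hcard'
  exact Equiv.subtypeEquiv (Equiv.addRight x₀) fun x => by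
    simp [smul_add, hx₀]
where
  separable_of_formallyUnramified {B C L M : Type u} [CommRing B] [CommRing C] [Field L]
      [Field M] [Algebra B L] [IsFractionRing B L] [Algebra C M] [IsFractionRing C M]
      (φ : B →+* C) (hφ : φ.FormallyUnramified) (ψ : L →+* M)
      (hψ : ∀ x, ψ (algebraMap B L x) = algebraMap C M (φ x))
      (hfin : letI := ψ.toAlgebra; FiniteDimensional L M) :
      (letI := ψ.toAlgebra; Algebra.IsSeparable L M) := by
    let _ := ψ.toAlgebra
    let _ := φ.toAlgebra
    let _ : Algebra B M := ((algebraMap C M).comp φ).toAlgebra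
    have : IsScalarTower B C M := IsScalarTower.of_algebraMap_eq fun _ => rfl
    have : IsScalarTower B L M := IsScalarTower.of_algebraMap_eq fun x => (hψ x).symm
    have : Algebra.FormallyUnramified B C := hφ
    have : Algebra.FormallyUnramified C M :=
      Algebra.FormallyUnramified.of_isLocalization (Rₘ := M) (nonZeroDivisors C)
    have : Algebra.FormallyUnramified B M := Algebra.FormallyUnramified.comp B C M
    have : Algebra.FormallyUnramified L M :=
      Algebra.FormallyUnramified.of_restrictScalars B L M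
    exact Algebra.FormallyUnramified.isSeparable L M

end Integral

end CommLaw

end FLTA.AbelianVar
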