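import Fermat.Agent.AbelianVar.DivisorSym

/-!
# The function field of a smooth variety: transcendence degree and finite generation
-/

set_option autoImplicit false

open CategoryTheory CategoryTheory.Limits AlgebraicGeometry TopologicalSpace

noncomputable section

universe u

namespace FLTA.AbelianVar

variable {K : Type u} [Field K] {X : Scheme.{u}} [AlgebraicGeometry.IsIntegral X]
  (f : X ⟶ Spec (CommRingCat.of K)) (g : ℕ) [SmoothOfRelativeDimension g f]

/-- The function field has transcendence degree the relative dimension. -/
theorem trdeg_functionField :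
    letI := ffAlgebra f
    Algebra.trdeg K X.functionField = (g : ℕ) := by
  obtain ⟨V, hV, hηV, hsm⟩ := exists_affine_standardSmooth f g (genericPoint X)
  have : Nonempty V := ⟨⟨_, hηV⟩⟩
  let := ffAlgebra f
  let := (secAlgMap f V).toAlgebra
  have : Algebra.IsStandardSmoothOfRelativeDimension g K Γ(X, V) := hsm
  have : IsScalarTower K Γ(X, V) X.functionField := IsScalarTower.of_algebraMap_eq fun c => by
    show RF.constHom f c = RF.ff hηV _
    simp only [RF.constHom, RingHom.comp_apply]
    rw [RF.ff_congr (W := (⊤ : X.Opens)) trivial (y := genericPoint X) trivial,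
      ← RF.ff_rs le_top hηV]
    rfl
  have := functionField_isFractionRing_of_isAffineOpen X V hV
  have := IsLocalization.isAlgebraic X.functionField (nonZeroDivisors Γ(X, V))
  have : FaithfulSMul Γ(X, V) X.functionField :=
    (faithfulSMul_iff_algebraMap_injective _ _).2 (IsFractionRing.injective _ _)
  rw [← trdeg_add_eq K Γ(X, V) (A := X.functionField), trdeg_eq_zero_iff.2 (inferInstance : Algebra.IsAlgebraic Γ(X, V) X.functionField), add_zero,
    trdeg_eq_of_isStandardSmooth (K := K) (B := Γ(X, V)) g]

theorem trdeg_functionField_toNat :
    letI := ffAlgebra f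
    Cardinal.toNat (Algebra.trdeg K X.functionField) = g := by
  rw [trdeg_functionField f g, Cardinal.toNat_natCast]

include g in
/-- The function field is finitely generated over the base field. -/
theorem essFiniteType_functionField :
    letI := ffAlgebra f
    Algebra.EssFiniteType K X.functionField := by
  obtain ⟨V, hV, hηV, hsm⟩ := exists_affine_standardSmooth f g (genericPoint X)
  have : Nonempty V := ⟨⟨_, hηV⟩⟩
  let := ffAlgebra f
  let := (secAlgMap f V).toAlgebra
  have : Algebra.IsStandardSmoothOfRelativeDimension g K Γ(X, V) := hsm
  have : IsScalarTower K Γ(X, V) X.functionField := IsScalarTower.of_algebraMap_eq fun c => by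
    show RF.constHom f c = RF.ff hηV _
    simp only [RF.constHom, RingHom.comp_apply]
    rw [RF.ff_congr (W := (⊤ : X.Opens)) trivial (y := genericPoint X) trivial,
      ← RF.ff_rs le_top hηV]
    rfl
  have := functionField_isFractionRing_of_isAffineOpen X V hV
  have : Algebra.IsStandardSmooth K Γ(X, V) :=
    Algebra.IsStandardSmoothOfRelativeDimension.isStandardSmooth g
  have : Algebra.EssFiniteType Γ(X, V) X.functionField :=
    Algebra.EssFiniteType.of_isLocalization X.functionField (nonZeroDivisors Γ(X, V))
  exact Algebra.EssFiniteType.comp K Γ(X, V) X.functionField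

end FLTA.AbelianVar
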