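import Fermat.Agent.AbelianVar.SmoothAffine
import Fermat.Agent.Jacobian.CurveRegular

/-!
# The Cartier divisor complementary to an affine open

On an integral smooth separated scheme over an algebraically closed field, the complement of a
nonempty affine open `U` is the zero locus of local equations `b`: at a point `y`, `b` generates
the ideal of denominators of a finite set of generators of `Γ(U, O)`.
-/

set_option autoImplicit false

universe u

open CategoryTheory AlgebraicGeometry TopologicalSpace Opposite FLTA.Jacobian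

noncomputable section

namespace FLTA.AbelianVar

variable {X : Scheme.{u}} [IsIntegral X]

/-- The local ring at `y`, inside the function field. -/
def stalkRange (y : X) : Subring X.functionField :=
  (algebraMap (X.presheaf.stalk y) X.functionField).range

lemma mem_stalkRange {y : X} {z : X.functionField} :
    z ∈ stalkRange y ↔ y ∈ regularLocus z :=
  mem_regularLocus_iff_range.symm

/-- Sections over an open, inside the function field. -/
def secFF {V : X.Opens} (h : genericPoint X ∈ V) : Γ(X, V) →+* X.functionField :=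
  (X.presheaf.germ V (genericPoint X) h).hom

lemma secFF_apply {V : X.Opens} (h : genericPoint X ∈ V) (s : Γ(X, V)) :
    secFF h s = toFF V h s := rfl

lemma secFF_mem_stalkRange {V : X.Opens} (h : genericPoint X ∈ V) (s : Γ(X, V)) {y : X}
    (hy : y ∈ V) : secFF h s ∈ stalkRange y :=
  mem_stalkRange.mpr (mem_regularLocus.mpr ⟨V, hy, s, rfl⟩)

/-- A rational function regular at all points of an open is a section over it. -/
lemma mem_range_secFF_of_forall {V : X.Opens} (h : genericPoint X ∈ V) {z : X.functionField}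
    (hz : ∀ y ∈ V, z ∈ stalkRange y) : z ∈ (secFF h).range := by
  have hle : V ≤ regularLocus z := fun y hy => mem_stalkRange.mp (hz y hy)
  refine ⟨X.presheaf.map (homOfLE hle).op (regularSection z), ?_⟩
  rw [secFF_apply, toFF_res, toFF_regularSection]

/-- The fraction property at a point of an affine open. -/
lemma exists_mul_mem_range {V : X.Opens} (hV : IsAffineOpen V) (h : genericPoint X ∈ V) {y : X}
    (hy : y ∈ V) {z : X.functionField} (hz : z ∈ stalkRange y) :
    ∃ σ : Γ(X, V), secFF h σ ≠ 0 ∧ (secFF h σ)⁻¹ ∈ stalkRange y ∧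
      secFF h σ * z ∈ (secFF h).range := by
  obtain ⟨w, rfl⟩ := hz
  have : Nonempty V := ⟨⟨y, hy⟩⟩
  let _ := TopCat.Presheaf.algebra_section_stalk X.presheaf (⟨y, hy⟩ : V)
  have := hV.isLocalization_stalk ⟨y, hy⟩
  obtain ⟨c, s, rfl⟩ :=
    IsLocalization.exists_mk'_eq (hV.primeIdealOf ⟨y, hy⟩).asIdeal.primeCompl w
  have hcomp : ∀ a : Γ(X, V), algebraMap (X.presheaf.stalk y) X.functionField
      (algebraMap Γ(X, V) (X.presheaf.stalk y) a) = secFF h a :=
    fun a => Scheme.algebraMap_germ_eq_germToFunctionField (X := X) (U := V) hy a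
  have hu : IsUnit (algebraMap Γ(X, V) (X.presheaf.stalk y) (s : Γ(X, V))) :=
    IsLocalization.map_units _ s
  refine ⟨s, ?_, ?_, c, ?_⟩
  · rw [← hcomp]
    exact (hu.map _).ne_zero
  · obtain ⟨v, hv⟩ := hu
    refine ⟨((v⁻¹ : (X.presheaf.stalk y)ˣ) : X.presheaf.stalk y), ?_⟩
    rw [← hcomp, ← hv, map_units_inv]
  · rw [← hcomp, ← hcomp, ← map_mul, IsLocalization.mk'_spec']

/-- `a` is a denominator for the elements of `T` at `y`. -/
def IsDenom (y : X) (T : Finset X.functionField) (a : X.functionField) : Prop :=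
  a ∈ stalkRange y ∧ ∀ t ∈ T, a * t ∈ stalkRange y

/-- `b` is a local equation at `y` for the polar divisor of `T`. -/
def IsEqn (y : X) (T : Finset X.functionField) (b : X.functionField) : Prop :=
  b ≠ 0 ∧ IsDenom y T b ∧ ∀ a, IsDenom y T a → a * b⁻¹ ∈ stalkRange y

lemma IsEqn.mul_inv_mem {y : X} {T : Finset X.functionField} {b b' : X.functionField}
    (hb : IsEqn y T b) (hb' : IsEqn y T b') : b * b'⁻¹ ∈ stalkRange y :=
  hb'.2.2 b hb.2.1

lemma IsEqn.inv_mem_of_forall {y : X} {T : Finset X.functionField} {b : X.functionField}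
    (hb : IsEqn y T b) (hT : ∀ t ∈ T, t ∈ stalkRange y) : b⁻¹ ∈ stalkRange y := by
  simpa using hb.2.2 1 ⟨one_mem _, fun t ht => by simpa using hT t ht⟩

lemma IsEqn.mem_of_inv_mem {y : X} {T : Finset X.functionField} {b : X.functionField}
    (hb : IsEqn y T b) (hinv : b⁻¹ ∈ stalkRange y) {t : X.functionField} (ht : t ∈ T) :
    t ∈ stalkRange y := by
  have := mul_mem hinv (hb.2.1.2 t ht)
  rwa [inv_mul_cancel_left₀ hb.1] at this

/-- In a factorial local ring, local equations exist. -/
theorem exists_isEqn (y : X) [UniqueFactorizationMonoid (X.presheaf.stalk y)]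
    (T : Finset X.functionField) : ∃ b, IsEqn y T b := by
  classical
  let _ : GCDMonoid (X.presheaf.stalk y) := UniqueFactorizationMonoid.toGCDMonoid _
  have hinj := IsFractionRing.injective (X.presheaf.stalk y) X.functionField
  induction T using Finset.induction_on with
  | empty =>
    exact ⟨1, one_ne_zero, ⟨one_mem _, by simp⟩, fun a ha => by simpa using ha.1⟩
  | insert t T _ ih =>
    obtain ⟨_, hb0, ⟨⟨b₁, rfl⟩, hbT⟩, hbmin⟩ := ih
    let p := IsFractionRing.num (X.presheaf.stalk y) t
    let q : X.presheaf.stalk y := IsFractionRing.den (X.presheaf.stalk y) t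
    let α := algebraMap (X.presheaf.stalk y) X.functionField
    have hq0 : q ≠ 0 := nonZeroDivisors.ne_zero (IsFractionRing.den (X.presheaf.stalk y) t).2
    have hb1 : b₁ ≠ 0 := fun h => hb0 (by rw [h, map_zero])
    have hpq : t * α q = α p := by
      have h1 := IsFractionRing.mk'_num_den' (X.presheaf.stalk y) t
      rwa [div_eq_iff ((map_ne_zero_iff α hinj).mpr hq0), eq_comm] at h1
    refine ⟨α (GCDMonoid.lcm b₁ q),
      (map_ne_zero_iff α hinj).mpr (lcm_ne_zero_iff.mpr ⟨hb1, hq0⟩),
      ⟨⟨_, rfl⟩, fun s hs => ?_⟩, fun a ha => ?_⟩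
    · rcases Finset.mem_insert.mp hs with rfl | hs
      · obtain ⟨c, hc⟩ := dvd_lcm_right b₁ q
        rw [hc, map_mul, mul_comm (α q), mul_assoc, mul_comm (α q), hpq, ← map_mul]
        exact ⟨_, rfl⟩
      · obtain ⟨c, hc⟩ := dvd_lcm_left b₁ q
        rw [hc, map_mul, mul_comm (α b₁), mul_assoc]
        exact mul_mem ⟨_, rfl⟩ (hbT s hs)
    · obtain ⟨⟨a', rfl⟩, haT⟩ := ha
      have h1 : b₁ ∣ a' := by
        obtain ⟨c, hc⟩ := hbmin (α a')
          ⟨⟨_, rfl⟩, fun s hs => haT s (Finset.mem_insert_of_mem hs)⟩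
        refine ⟨c, hinj ?_⟩
        rw [map_mul, hc, mul_left_comm, mul_inv_cancel₀ hb0, mul_one]
      have h2 : q ∣ a' := by
        obtain ⟨c, hc⟩ := haT t (Finset.mem_insert_self _ _)
        refine (IsFractionRing.num_den_reduced (X.presheaf.stalk y) t).symm.dvd_of_dvd_mul_right
          ⟨c, hinj ?_⟩
        rw [map_mul, map_mul]
        show α a' * α p = α q * α c
        rw [← hpq, show α c = α a' * t from hc]
        ring
      obtain ⟨d, hd⟩ := lcm_dvd h1 h2
      refine ⟨d, ?_⟩
      rw [hd, map_mul]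
      rw [mul_comm (algebraMap _ X.functionField (GCDMonoid.lcm b₁ q))]
      exact (mul_inv_cancel_right₀
        ((map_ne_zero_iff α hinj).mpr (lcm_ne_zero_iff.mpr ⟨hb1, hq0⟩)) _).symm

/-- A local equation at a point is a local equation in a neighbourhood. -/
theorem exists_isEqn_nhds {V : X.Opens} (hV : IsAffineOpen V) [IsNoetherianRing Γ(X, V)] {x : X}
    (hx : x ∈ V) (T : Finset X.functionField) {b : X.functionField} (hb : IsEqn x T b) :
    ∃ W : X.Opens, x ∈ W ∧ W ≤ V ∧ ∀ y ∈ W, IsEqn y T b := by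
  classical
  have hg := genericPoint_mem hx
  let J : Ideal Γ(X, V) :=
    { carrier := {a | ∀ t ∈ T, secFF hg a * t ∈ (secFF hg).range}
      add_mem' := fun {a a'} ha ha' t ht => by
        rw [map_add, add_mul]; exact add_mem (ha t ht) (ha' t ht)
      zero_mem' := fun t _ => by rw [map_zero, zero_mul]; exact zero_mem _
      smul_mem' := fun c a ha t ht => by
        rw [smul_eq_mul, map_mul, mul_assoc]; exact mul_mem ⟨c, rfl⟩ (ha t ht) }
  obtain ⟨S, hS⟩ := (IsNoetherian.noetherian J : J.FG)
  let W : X.Opens := V ⊓ regularLocus b ⊓ T.inf (fun t => regularLocus (b * t)) ⊓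
    S.inf (fun j => regularLocus (secFF hg j * b⁻¹))
  have hinf : ∀ {ι : Type u} (s : Finset ι) (F : ι → X.Opens) (y : X),
      y ∈ s.inf F ↔ ∀ i ∈ s, y ∈ F i := by
    intro ι s F y
    induction s using Finset.induction_on with
    | empty => simp
    | insert a s _ ih =>
      rw [Finset.inf_insert, ← SetLike.mem_coe, Opens.coe_inf, Set.mem_inter_iff, SetLike.mem_coe,
        SetLike.mem_coe, ih]
      simp
  refine ⟨W, ?_, fun y hy => hy.1.1.1, fun y hy => ?_⟩
  · refine ⟨⟨⟨hx, mem_stalkRange.mp hb.2.1.1⟩, (hinf _ _ _).mpr fun t ht =>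
      mem_stalkRange.mp (hb.2.1.2 t ht)⟩, (hinf _ _ _).mpr fun j hj => mem_stalkRange.mp ?_⟩
    refine hb.2.2 _ ⟨secFF_mem_stalkRange hg j hx, fun t ht => ?_⟩
    obtain ⟨c, hc⟩ := (hS ▸ Submodule.subset_span hj : j ∈ J) t ht
    exact hc ▸ secFF_mem_stalkRange hg c hx
  · obtain ⟨⟨⟨hyV, hyb⟩, hyT⟩, hyS⟩ := hy
    refine ⟨hb.1, ⟨mem_stalkRange.mpr hyb, fun t ht =>
      mem_stalkRange.mpr ((hinf _ _ _).mp hyT t ht)⟩, fun a ha => ?_⟩
    -- clear denominators of `a` and of the `a * t`
    have key : ∀ U' : Finset X.functionField, (∀ z ∈ U', z ∈ stalkRange y) →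
        ∃ σ : Γ(X, V), secFF hg σ ≠ 0 ∧ (secFF hg σ)⁻¹ ∈ stalkRange y ∧
          ∀ z ∈ U', secFF hg σ * z ∈ (secFF hg).range := by
      intro U'
      induction U' using Finset.induction_on with
      | empty => exact fun _ => ⟨1, by simp, by simp [one_mem], by simp⟩
      | insert z U' _ ih =>
        intro hU'
        obtain ⟨σ, hσ0, hσu, hσ⟩ := ih fun w hw => hU' w (Finset.mem_insert_of_mem hw)
        obtain ⟨τ, hτ0, hτu, hτ⟩ :=
          exists_mul_mem_range hV hg hyV (hU' z (Finset.mem_insert_self _ _))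
        refine ⟨σ * τ, by rw [map_mul]; exact mul_ne_zero hσ0 hτ0,
          by rw [map_mul, mul_inv]; exact mul_mem hσu hτu, fun w hw => ?_⟩
        rcases Finset.mem_insert.mp hw with rfl | hw
        · rw [map_mul, mul_assoc]; exact mul_mem ⟨σ, rfl⟩ hτ
        · rw [map_mul, mul_comm (secFF hg σ), mul_assoc]; exact mul_mem ⟨τ, rfl⟩ (hσ w hw)
    obtain ⟨σ, hσ0, hσu, hσ⟩ := key (insert a (T.image (a * ·))) (by
      intro z hz
      rcases Finset.mem_insert.mp hz with rfl | hz
      · exact ha.1
      · obtain ⟨t, ht, rfl⟩ := Finset.mem_image.mp hz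
        exact ha.2 t ht)
    obtain ⟨c, hc⟩ := hσ a (Finset.mem_insert_self _ _)
    have hcJ : c ∈ J := fun t ht => by
      rw [hc, mul_assoc]
      exact hσ _ (Finset.mem_insert_of_mem (Finset.mem_image_of_mem _ ht))
    have hcb : secFF hg c * b⁻¹ ∈ stalkRange y := by
      rw [← hS] at hcJ
      clear hc
      induction hcJ using Submodule.span_induction with
      | mem j hj => exact mem_stalkRange.mpr ((hinf _ _ _).mp hyS j hj)
      | zero => simp
      | add p q _ _ hp hq => rw [map_add, add_mul]; exact add_mem hp hq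
      | smul r p _ hp =>
        rw [smul_eq_mul, map_mul, mul_assoc]
        exact mul_mem (secFF_mem_stalkRange hg r hyV) hp
    rw [hc, mul_assoc] at hcb
    have := mul_mem hσu hcb
    rwa [inv_mul_cancel_left₀ hσ0] at this

/-! ### Smooth schemes over an algebraically closed field -/

variable {K : Type u} [Field K] (f : X ⟶ Spec (CommRingCat.of K))

/-- The `K`-algebra structure map of the sections over an open. -/
def secAlgMap (V : X.Opens) : K →+* Γ(X, V) :=
  ((Scheme.ΓSpecIso (CommRingCat.of K)).inv ≫ f.appLE ⊤ V le_top).hom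

omit [IsIntegral X] in
lemma exists_affine_standardSmooth (g : ℕ) [SmoothOfRelativeDimension g f] (x : X) :
    ∃ V : X.Opens, IsAffineOpen V ∧ x ∈ V ∧
      (secAlgMap f V).IsStandardSmoothOfRelativeDimension g := by
  obtain ⟨U, hU, V, hV, hx, e, hf⟩ :=
    SmoothOfRelativeDimension.exists_isStandardSmoothOfRelativeDimension (f := f) (n := g) x
  obtain rfl : U = ⊤ := eq_top_iff.mpr fun y _ => by
    rw [Subsingleton.elim y (f x)]; exact e hx
  refine ⟨V, hV, hx, ?_⟩
  exact (RingHom.isStandardSmoothOfRelativeDimension_respectsIso (n := g)).2 _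
    (Scheme.ΓSpecIso (CommRingCat.of K)).symm.commRingCatIsoToRingEquiv hf

include f in
/-- Local rings at closed points of a smooth variety are factorial. -/
theorem uniqueFactorizationMonoid_stalk [IsAlgClosed K] (g : ℕ) [SmoothOfRelativeDimension g f]
    {x : X} (hx : IsClosed {x}) : UniqueFactorizationMonoid (X.presheaf.stalk x) := by
  obtain ⟨V, hV, hxV, hf⟩ := exists_affine_standardSmooth f g x
  have : Nonempty V := ⟨⟨x, hxV⟩⟩
  let _ := (secAlgMap f V).toAlgebra
  have : Algebra.IsStandardSmoothOfRelativeDimension g K Γ(X, V) := hf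
  let _ := TopCat.Presheaf.algebra_section_stalk X.presheaf (⟨x, hxV⟩ : V)
  have := hV.isLocalization_stalk ⟨x, hxV⟩
  have := hV.primeIdealOf_isMaximal_of_isClosed ⟨x, hxV⟩ hx
  have := uniqueFactorizationMonoid_of_isStandardSmooth (K := K) g
    (hV.primeIdealOf ⟨x, hxV⟩).asIdeal
  exact MulEquiv.uniqueFactorizationMonoid
    (IsLocalization.algEquiv (hV.primeIdealOf ⟨x, hxV⟩).asIdeal.primeCompl
      (Localization.AtPrime (hV.primeIdealOf ⟨x, hxV⟩).asIdeal) (X.presheaf.stalk x)).toMulEquiv this

include f in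
omit [IsIntegral X] in
lemma isNoetherianRing_sections [LocallyOfFiniteType f] {V : X.Opens} (hV : IsAffineOpen V) :
    IsNoetherianRing Γ(X, V) := by
  have := LocallyOfFiniteType.isLocallyNoetherian f
  exact IsLocallyNoetherian.component_noetherian ⟨V, hV⟩

include f in
/-- Local equations exist near every point. -/
theorem exists_affine_isEqn [IsAlgClosed K] (g : ℕ) [SmoothOfRelativeDimension g f]
    (T : Finset X.functionField) (x : X) :
    ∃ (W : X.Opens) (b : X.functionField), IsAffineOpen W ∧ x ∈ W ∧ ∀ y ∈ W, IsEqn y T b := by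
  have := SmoothOfRelativeDimension.smooth g f
  have : LocallyOfFiniteType f := inferInstance
  have := LocallyOfFiniteType.jacobsonSpace f
  obtain ⟨c, hcx, hc⟩ : ∃ c, x ⤳ c ∧ IsClosed {c} := by
    obtain ⟨c, hc, hcl⟩ := nonempty_inter_closedPoints (Z := closure {x})
      ⟨x, subset_closure rfl⟩ isClosed_closure.isLocallyClosed
    exact ⟨c, specializes_iff_mem_closure.mpr hc, hcl⟩
  have := uniqueFactorizationMonoid_stalk f g hc
  obtain ⟨b, hb⟩ := exists_isEqn c T
  obtain ⟨_, ⟨V, hV, rfl⟩, hcV, -⟩ :=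
    X.isBasis_affineOpens.exists_subset_of_mem_open (Set.mem_univ c) isOpen_univ
  have := isNoetherianRing_sections f hV
  obtain ⟨W, hcW, -, hW⟩ := exists_isEqn_nhds hV hcV T hb
  obtain ⟨_, ⟨W', hW', rfl⟩, hxW', hW'W⟩ :=
    X.isBasis_affineOpens.exists_subset_of_mem_open (hcx.mem_open W.isOpen hcW) W.isOpen
  exact ⟨W', b, hW', hxW', fun y hy => hW y (hW'W hy)⟩

include f in
/-- A point at which all sections over a nonempty affine open are regular lies in that open. -/
theorem mem_of_forall_secFF_mem [IsSeparated f] {U : X.Opens} (hU : IsAffineOpen U)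
    (hg : genericPoint X ∈ U) {y : X} (hy : ∀ s : Γ(X, U), secFF hg s ∈ stalkRange y) : y ∈ U := by
  let α := algebraMap (X.presheaf.stalk y) X.functionField
  have hinj : Function.Injective α := IsFractionRing.injective _ _
  choose w hw using hy
  let φ : Γ(X, U) →+* X.presheaf.stalk y :=
    { toFun := w
      map_one' := hinj (by rw [hw, map_one, map_one])
      map_mul' := fun a b => hinj (by rw [map_mul, hw, hw, hw, map_mul])
      map_zero' := hinj (by rw [hw, map_zero, map_zero])
      map_add' := fun a b => hinj (by rw [map_add, hw, hw, hw, map_add]) }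
  let p : Spec (X.presheaf.stalk y) ⟶ X := Spec.map (CommRingCat.ofHom φ) ≫ hU.fromSpec
  have hspec : genericPoint X ⤳ y := (genericPoint_spec X).specializes trivial
  let ι : Spec X.functionField ⟶ Spec (X.presheaf.stalk y) :=
    Spec.map (X.presheaf.stalkSpecializes hspec)
  have : IsDominant ι := by
    refine ⟨(PrimeSpectrum.denseRange_comap_iff_ker_le_nilRadical _).mpr ?_⟩
    intro z hz
    have : z = 0 := hinj (by rw [map_zero]; exact hz)
    rw [this]; exact zero_mem _
  have hι : ι ≫ p = ι ≫ X.fromSpecStalk y := by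
    rw [Scheme.SpecMap_stalkSpecializes_fromSpecStalk, ← hU.fromSpecStalk_eq_fromSpecStalk hg]
    have hring : CommRingCat.ofHom φ ≫ X.presheaf.stalkSpecializes hspec =
        X.presheaf.germ U (genericPoint X) hg := by
      ext s
      exact hw s
    simp only [ι, p, IsAffineOpen.fromSpecStalk]
    refine (Category.assoc _ _ _).symm.trans (congrArg (· ≫ hU.fromSpec) ?_)
    exact (Spec.map_comp _ _).symm.trans (congrArg Spec.map hring)
  have hp : p = X.fromSpecStalk y := ext_of_isDominant_of_isSeparated f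
    (ext_of_isDominant ι (by rw [← Category.assoc, hι, Category.assoc])) ι hι
  have hy' : p (IsLocalRing.closedPoint (X.presheaf.stalk y)) = y := by
    rw [hp]; exact Scheme.fromSpecStalk_closedPoint
  have hmem : p (IsLocalRing.closedPoint (X.presheaf.stalk y)) ∈ (U : Set X) := by
    rw [← hU.range_fromSpec]
    exact ⟨_, rfl⟩
  rwa [hy'] at hmem

end FLTA.AbelianVar
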