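import Fermat.Agent.AbelianVar.Geometry
import Mathlib.AlgebraicGeometry.AlgClosed.Basic

/-!
# Geometry of products of varieties over an algebraically closed field
-/

set_option autoImplicit false

open CategoryTheory CategoryTheory.Limits AlgebraicGeometry TopologicalSpace

noncomputable section

universe u

namespace FLTA.AbelianVar

variable {K : Type u} [Field K]

/-- A product of irreducible schemes over an algebraically closed field is irreducible. -/
theorem irreducibleSpace_pullback [IsAlgClosed K] {X Y : Scheme.{u}}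
    (p : X ⟶ Spec (CommRingCat.of K)) (q : Y ⟶ Spec (CommRingCat.of K))
    [LocallyOfFiniteType p] [UniversallyOpen q] [IrreducibleSpace X] [IrreducibleSpace Y] :
    IrreducibleSpace ↥(pullback p q) := by
  have : JacobsonSpace X := LocallyOfFiniteType.jacobsonSpace p
  have hopen : IsOpenMap (pullback.fst p q) := (pullback.fst p q).isOpenMap
  have hsurj : Function.Surjective (pullback.fst p q) := by
    intro x
    obtain ⟨y⟩ := (inferInstance : Nonempty Y)
    obtain ⟨z, hz, -⟩ := Scheme.Pullback.exists_preimage_pullback (f := p) (g := q) x y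
      (Subsingleton.elim (α := PrimeSpectrum K) _ _)
    exact ⟨z, hz⟩
  have : Nonempty ↥(pullback p q) := (hsurj (Classical.arbitrary X)).nonempty
  refine { toPreirreducibleSpace := ⟨?_⟩, toNonempty := inferInstance }
  rintro U V hU hV ⟨u, -, hu⟩ ⟨v, -, hv⟩
  obtain ⟨w, -, hwU, hwV⟩ := PreirreducibleSpace.isPreirreducible_univ (X := X)
    (pullback.fst p q '' U) (pullback.fst p q '' V) (hopen U hU) (hopen V hV)
    ⟨_, trivial, u, hu, rfl⟩ ⟨_, trivial, v, hv, rfl⟩
  obtain ⟨x, ⟨⟨a, haU, rfl⟩, b, hbV, hab⟩, hx⟩ := nonempty_inter_closedPoints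
    (Z := pullback.fst p q '' U ∩ pullback.fst p q '' V) ⟨w, hwU, hwV⟩
    ((hopen U hU).inter (hopen V hV)).isLocallyClosed
  let x₀ := pullback.fst p q a
  let s : Spec (CommRingCat.of K) ⟶ X := pointOfClosedPoint p x₀ hx
  have hs : s ≫ p = 𝟙 _ := pointOfClosedPoint_comp p x₀ hx
  -- the fibre over `x₀`
  let i := pullback.map (𝟙 (Spec (CommRingCat.of K))) q p q s (𝟙 Y) (𝟙 _)
    (by rw [Category.comp_id, hs]) (by simp)
  have hrange : ∀ z, pullback.fst p q z = x₀ → z ∈ Set.range i := by
    intro z hz
    rw [Scheme.Pullback.range_map]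
    refine ⟨⟨IsLocalRing.closedPoint K, ?_⟩, ⟨pullback.snd p q z, rfl⟩⟩
    exact (pointOfClosedPoint_apply p x₀ hx _).trans hz.symm
  have : IrreducibleSpace ↥(pullback (𝟙 (Spec (CommRingCat.of K))) q) :=
    (asIso (pullback.snd (𝟙 (Spec (CommRingCat.of K))) q)).hom.homeomorph.irreducibleSpace_iff.mpr
      inferInstance
  obtain ⟨a', ha'⟩ := hrange a rfl
  obtain ⟨b', hb'⟩ := hrange b hab
  obtain ⟨c, -, hcU, hcV⟩ := PreirreducibleSpace.isPreirreducible_univ
    (X := ↥(pullback (𝟙 (Spec (CommRingCat.of K))) q))
    (i ⁻¹' U) (i ⁻¹' V) (hU.preimage i.continuous) (hV.preimage i.continuous)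
    ⟨a', trivial, Set.mem_preimage.mpr (ha'.symm ▸ haU)⟩
    ⟨b', trivial, Set.mem_preimage.mpr (hb'.symm ▸ hbV)⟩
  exact ⟨i c, trivial, hcU, hcV⟩

lemma smooth_of_relativeDimension {X Y : Scheme.{u}} (p : X ⟶ Y) (g : ℕ)
    [SmoothOfRelativeDimension g p] : Smooth p := SmoothOfRelativeDimension.smooth g p

/-- A product of integral smooth schemes over an algebraically closed field is integral. -/
theorem isIntegral_pullback [IsAlgClosed K] {X Y : Scheme.{u}}
    (p : X ⟶ Spec (CommRingCat.of K)) (q : Y ⟶ Spec (CommRingCat.of K)) (m n : ℕ)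
    [SmoothOfRelativeDimension m p] [SmoothOfRelativeDimension n q]
    [IsIntegral X] [IsIntegral Y] : IsIntegral (pullback p q) := by
  have := smooth_of_relativeDimension p m
  have := smooth_of_relativeDimension q n
  have := irreducibleSpace_pullback p q
  have : SmoothOfRelativeDimension n (pullback.fst p q) :=
    (smoothOfRelativeDimension_isStableUnderBaseChange _).of_isPullback
      (IsPullback.of_hasPullback p q).flip inferInstance
  have : SmoothOfRelativeDimension (n + m) (pullback.fst p q ≫ p) := inferInstance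
  have : IsReduced (pullback p q) :=
    isReduced_of_smoothOfRelativeDimension (pullback.fst p q ≫ p) (n + m)
  exact isIntegral_of_irreducibleSpace_of_isReduced _

namespace CommLaw

variable {A : Scheme.{u}} {f : A ⟶ Spec (CommRingCat.of K)}

instance isProper_A2 [IsProper f] : IsProper (A2.str f) :=
  inferInstanceAs (IsProper (pullback.fst f f ≫ f))

instance isProper_A3 [IsProper f] : IsProper (A3.str f) :=
  inferInstanceAs (IsProper (pullback.snd (A2.str f) f ≫ f))

/-- `A × A` is smooth of relative dimension `g + g`. -/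
theorem smoothOfRelativeDimension_A2 (g : ℕ) [SmoothOfRelativeDimension g f] :
    SmoothOfRelativeDimension (g + g) (A2.str f) := by
  have : SmoothOfRelativeDimension g (pullback.fst f f) :=
    (smoothOfRelativeDimension_isStableUnderBaseChange _).of_isPullback
      (IsPullback.of_hasPullback f f).flip inferInstance
  exact inferInstanceAs (SmoothOfRelativeDimension (g + g) (pullback.fst f f ≫ f))

/-- `A × A × A` is smooth of relative dimension `g + g + g`. -/
theorem smoothOfRelativeDimension_A3 (g : ℕ) [SmoothOfRelativeDimension g f] :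
    SmoothOfRelativeDimension (g + g + g) (A3.str f) := by
  have := smoothOfRelativeDimension_A2 (f := f) g
  have : SmoothOfRelativeDimension (g + g) (pullback.snd (A2.str f) f) :=
    (smoothOfRelativeDimension_isStableUnderBaseChange _).of_isPullback
      (IsPullback.of_hasPullback (A2.str f) f) inferInstance
  exact smoothOfRelativeDimension_comp (n := g + g) (m := g) _ f

/-- `A × A` is integral. -/
theorem isIntegral_A2 [IsAlgClosed K] [IsIntegral A] (g : ℕ) [SmoothOfRelativeDimension g f] :
    IsIntegral (A2 f) :=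
  isIntegral_pullback f f g g

/-- `A × A × A` is integral. -/
theorem isIntegral_A3 [IsAlgClosed K] [IsIntegral A] (g : ℕ) [SmoothOfRelativeDimension g f] :
    IsIntegral (A3 f) :=
  have := smoothOfRelativeDimension_A2 (f := f) g
  have := isIntegral_A2 (f := f) g
  isIntegral_pullback (A2.str f) f (g + g) g

end CommLaw

end FLTA.AbelianVar
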