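import Fermat.Agent.AbelianVar.DivisorField
import Fermat.Prelude.Def_JacJ1Iface

/-!
# Line bundles given by rational local equations, and their spaces of sections
-/

set_option autoImplicit false

open CategoryTheory CategoryTheory.Limits AlgebraicGeometry TopologicalSpace

noncomputable section

universe u

namespace FLTA.AbelianVar.RF

variable {X Y : Scheme.{u}} [AlgebraicGeometry.IsIntegral X] [AlgebraicGeometry.IsIntegral Y]

/-- Rational local equations, indexed by the points, with unit ratios on overlaps. -/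
structure Data (X : Scheme.{u}) [AlgebraicGeometry.IsIntegral X] where
  U : X → X.Opens
  mem : ∀ x, x ∈ U x
  t : X → X.functionField
  t_ne : ∀ x, t x ≠ 0
  ratio : ∀ x y, t x * (t y)⁻¹ ∈ Reg (U x ⊓ U y)

namespace Data

variable (D D' : Data X)

lemma ratio_mem_O {x y z : X} (hx : z ∈ D.U x) (hy : z ∈ D.U y) :
    D.t x * (D.t y)⁻¹ ∈ O z :=
  mem_Reg.1 (D.ratio x y) z ⟨hx, hy⟩

/-- The line bundle. -/
def toLB : LB X where
  U := D.U
  mem := D.mem
  g x y W hx hy := rs (le_inf hx hy) (sec (D.U x ⊓ D.U y) _ (D.ratio x y))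
  g_res x y W W' hx hy h := rs_rs _ _ _
  g_self x W hx := sec_ext fun z hz => by
    rw [ff_rs, ff_sec, map_one, mul_inv_cancel₀ (D.t_ne x)]
  g_comp x y z W hx hy hz := sec_ext fun p hp => by
    rw [map_mul, ff_rs, ff_rs, ff_rs, ff_sec, ff_sec, ff_sec, mul_assoc,
      inv_mul_cancel_left₀ (D.t_ne y)]

lemma ff_g {x y : X} {W : X.Opens} (hx : W ≤ D.U x) (hy : W ≤ D.U y) {z : X} (hz : z ∈ W) :
    ff hz (D.toLB.g x y W hx hy) = D.t x * (D.t y)⁻¹ :=
  (ff_rs _ hz _).trans (ff_sec _ _)

/-- The class of the line bundle. -/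
def cls : Pic X := Pic.mk D.toLB

/-- The trivial equations. -/
protected def one (X : Scheme.{u}) [AlgebraicGeometry.IsIntegral X] : Data X where
  U _ := ⊤
  mem _ := trivial
  t _ := 1
  t_ne _ := one_ne_zero
  ratio _ _ := by rw [inv_one, mul_one]; exact one_mem _

/-- The sum of divisors. -/
protected def mul : Data X where
  U x := D.U x ⊓ D'.U x
  mem x := ⟨D.mem x, D'.mem x⟩
  t x := D.t x * D'.t x
  t_ne x := mul_ne_zero (D.t_ne x) (D'.t_ne x)
  ratio x y := by
    rw [mul_inv, mul_mul_mul_comm]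
    exact mul_mem (Reg_anti (inf_le_inf inf_le_left inf_le_left) (D.ratio x y))
      (Reg_anti (inf_le_inf inf_le_right inf_le_right) (D'.ratio x y))

/-- Multiples of a divisor. -/
protected def pow (k : ℕ) : Data X where
  U := D.U
  mem := D.mem
  t x := D.t x ^ k
  t_ne x := pow_ne_zero _ (D.t_ne x)
  ratio x y := by rw [← inv_pow, ← mul_pow]; exact pow_mem (D.ratio x y) k

/-- Pullback along a dominant morphism. -/
protected def pull (φ : X ⟶ Y) (hφ : φ.base (genericPoint X) = genericPoint Y) (E : Data Y) :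
    Data X where
  U x := φ ⁻¹ᵁ E.U (φ.base x)
  mem x := E.mem _
  t x := ffMap φ hφ (E.t (φ.base x))
  t_ne x := by simpa using E.t_ne (φ.base x)
  ratio x y := by
    rw [← map_inv₀, ← map_mul, ← φ.preimage_inf]
    exact ffMap_mem_Reg (E.ratio _ _)

lemma cls_congr (h : ∀ x, D.t x = D'.t x) : D.cls = D'.cls :=
  Quotient.sound (LB.Rel.of_eq _ _ (fun x => D.U x ⊓ D'.U x) (fun x => ⟨D.mem x, D'.mem x⟩)
    (fun _ => inf_le_left) (fun _ => inf_le_right) fun x y W hx hy =>
      sec_ext fun z hz => by erw [ff_g, ff_g, h, h])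

lemma cls_one : (Data.one X).cls = 0 :=
  Quotient.sound (LB.Rel.of_eq _ _ (fun _ => ⊤) (fun _ => trivial) (fun _ => le_rfl)
    (fun _ => le_rfl) fun x y W hx hy => sec_ext fun z hz => by
      refine (ff_g (Data.one X) hx hy hz).trans ?_
      show (1 : X.functionField) * 1⁻¹ = ff hz 1
      rw [map_one, inv_one, mul_one])

lemma cls_mul : (D.mul D').cls = D.cls + D'.cls :=
  Quotient.sound (LB.Rel.of_eq _ _ (fun x => D.U x ⊓ D'.U x) (fun x => ⟨D.mem x, D'.mem x⟩)
    (fun _ => le_rfl) (fun _ => le_rfl) fun x y W hx hy => sec_ext fun z hz => by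
      refine (ff_g (D.mul D') hx hy hz).trans ?_
      show _ = ff hz (D.toLB.g x y W _ _ * D'.toLB.g x y W _ _)
      erw [map_mul, ff_g, ff_g]
      show D.t x * D'.t x * (D.t y * D'.t y)⁻¹ = _
      rw [mul_inv, mul_mul_mul_comm])

lemma cls_pow (k : ℕ) : (D.pow k).cls = k • D.cls := by
  induction k with
  | zero =>
    rw [zero_smul, ← cls_one]
    exact cls_congr _ _ fun x => pow_zero _
  | succ k ih =>
    rw [succ_nsmul, ← ih, ← cls_mul]
    exact cls_congr _ _ fun x => pow_succ _ _

lemma cls_pull (φ : X ⟶ Y) (hφ : φ.base (genericPoint X) = genericPoint Y) (E : Data Y) :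
    (Data.pull φ hφ E).cls = Pic.pull φ E.cls :=
  Quotient.sound (LB.Rel.of_eq (Data.pull φ hφ E).toLB (E.toLB.pull φ)
    (fun x => φ ⁻¹ᵁ E.U (φ.base x)) (fun x => E.mem _)
    (fun _ => le_rfl) (fun _ => le_rfl) fun x y W hx hy => sec_ext fun z hz => by
      refine (ff_g (Data.pull φ hφ E) hx hy hz).trans ?_
      have hV : W ≤ φ ⁻¹ᵁ (E.U (φ.base x) ⊓ E.U (φ.base y)) := LB.le_preimage_inf φ hx hy
      rw [LB.pull_g_eq φ E.toLB hx hy hV inf_le_left inf_le_right,
        ← ffMap_ff (hφ := hφ) hV hz, ff_g]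
      simp [Data.pull, map_mul, map_inv₀])

/-- Isomorphic equations differ by a global rational function and local units. -/
lemma exists_of_cls_eq (h : D.cls = D'.cls) :
    ∃ c : X.functionField, c ≠ 0 ∧ ∀ x, ∃ v v' : X.functionField, v ∈ O x ∧ v' ∈ O x ∧
      v * v' = 1 ∧ D'.t x = c * v * D.t x := by
  obtain ⟨e⟩ : LB.Rel D.toLB D'.toLB := Quotient.exact h
  let v : X → X.functionField := fun x => ff (e.mem x) (e.u x)
  have hv : ∀ x, v x ≠ 0 := fun x => ((e.isUnit x).map (ff (e.mem x))).ne_zero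
  have key : ∀ x y, D'.t x * v x * (D.t x)⁻¹ = D'.t y * v y * (D.t y)⁻¹ := by
    intro x y
    have hη : genericPoint X ∈ e.V x ⊓ e.V y :=
      ⟨genericPoint_mem (e.mem x), genericPoint_mem (e.mem y)⟩
    have hc := congrArg (ff hη) (e.comm x y (e.V x ⊓ e.V y) inf_le_left inf_le_right)
    rw [map_mul, map_mul, ff_rs, ff_rs] at hc
    erw [ff_g, ff_g] at hc
    change D.t x * (D.t y)⁻¹ * v y = v x * (D'.t x * (D'.t y)⁻¹) at hc
    have hx := D.t_ne x
    have hy := D.t_ne y
    have hy' := D'.t_ne y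
    field_simp at hc ⊢
    linear_combination (-1 : X.functionField) * hc
  let x₀ := genericPoint X
  refine ⟨D'.t x₀ * v x₀ * (D.t x₀)⁻¹,
    mul_ne_zero (mul_ne_zero (D'.t_ne x₀) (hv x₀)) (inv_ne_zero (D.t_ne x₀)), fun x => ?_⟩
  refine ⟨(v x)⁻¹, v x, ?_, ff_mem_O (e.mem x) _, inv_mul_cancel₀ (hv x), ?_⟩
  · obtain ⟨u, hu⟩ := e.isUnit x
    have h1 : (v x)⁻¹ = ff (e.mem x) (↑u⁻¹ : Γ(X, e.V x)) := by
      show (ff (e.mem x) (e.u x))⁻¹ = _
      rw [← hu, map_units_inv]
    exact h1 ▸ ff_mem_O _ _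
  · rw [← key x x₀]
    have hx := D.t_ne x
    have hvx := hv x
    field_simp

end Data

section Space

variable {K : Type u} [Field K]

/-- Constants as rational functions. -/
def constHom (f : X ⟶ Spec (CommRingCat.of K)) : K →+* X.functionField :=
  (ff (W := (⊤ : X.Opens)) (x := genericPoint X) trivial).comp
    ((Scheme.ΓSpecIso (CommRingCat.of K)).inv ≫ f.appTop).hom

lemma constHom_mem_O (f : X ⟶ Spec (CommRingCat.of K)) (c : K) (x : X) :
    constHom f c ∈ O x := by
  rw [constHom, RingHom.comp_apply, ff_congr (W := (⊤ : X.Opens)) trivial (y := x) trivial]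
  exact ff_mem_O _ _

lemma ffMap_constHom {f : X ⟶ Spec (CommRingCat.of K)} {h : Y ⟶ Spec (CommRingCat.of K)}
    (φ : X ⟶ Y) (hφ : φ.base (genericPoint X) = genericPoint Y) (hφS : φ ≫ h = f) (c : K) :
    ffMap φ hφ (constHom h c) = constHom f c := by
  subst hφS
  simp only [constHom, RingHom.comp_apply]
  rw [ff_congr (W := (⊤ : Y.Opens)) trivial (y := φ.base (genericPoint X)) trivial,
    ffMap_ff (hφ := hφ) (V := ⊤) (e := le_top) trivial]
  simp [pb, Scheme.Hom.appLE, Scheme.Hom.comp_app] <;> rfl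

variable [Algebra K X.functionField]

/-- The sections of `m • D` as rational functions. -/
def Data.space (D : Data X) (hK : ∀ (c : K) (x : X), algebraMap K X.functionField c ∈ O x)
    (m : ℕ) : Submodule K X.functionField where
  carrier := {a | ∀ x, D.t x ^ m * a ∈ O x}
  zero_mem' := fun x => by rw [mul_zero]; exact zero_mem _
  add_mem' := fun ha hb x => by rw [mul_add]; exact add_mem (ha x) (hb x)
  smul_mem' := fun c a ha x => by
    rw [Algebra.smul_def, mul_left_comm]; exact mul_mem (hK c x) (ha x)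

lemma Data.space_pow (D : Data X) (hK : ∀ (c : K) (x : X), algebraMap K X.functionField c ∈ O x)
    (k m : ℕ) : (D.pow k).space hK m = D.space hK (k * m) := by
  ext a
  exact forall_congr' fun x => by rw [pow_mul]; rfl

/-- Isomorphic line bundles have isomorphic spaces of sections. -/
lemma Data.finrank_space_eq (D D' : Data X)
    (hK : ∀ (c : K) (x : X), algebraMap K X.functionField c ∈ O x) (h : D.cls = D'.cls) (m : ℕ) :
    Module.finrank K (D.space hK m) = Module.finrank K (D'.space hK m) := by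
  obtain ⟨c, hc, hv⟩ := D.exists_of_cls_eq D' h
  let e : X.functionField ≃ₗ[K] X.functionField :=
    { toFun := fun a => (c ^ m)⁻¹ * a
      invFun := fun a => c ^ m * a
      map_add' := fun a b => mul_add _ _ _
      map_smul' := fun r a => mul_smul_comm r _ a
      left_inv := fun a => mul_inv_cancel_left₀ (pow_ne_zero m hc) a
      right_inv := fun a => inv_mul_cancel_left₀ (pow_ne_zero m hc) a }
  have hmap : (D.space hK m).map (e : X.functionField →ₗ[K] X.functionField) = D'.space hK m := by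
    have hcm := pow_ne_zero m hc
    ext a
    rw [Submodule.mem_map_equiv]
    show (∀ x, D.t x ^ m * (c ^ m * a) ∈ O x) ↔ ∀ x, D'.t x ^ m * a ∈ O x
    refine forall_congr' fun x => ?_
    obtain ⟨v, v', hvO, hv'O, hvv, ht⟩ := hv x
    constructor
    · intro ha
      rw [ht, show (c * v * D.t x) ^ m * a = v ^ m * (D.t x ^ m * (c ^ m * a)) by ring]
      exact mul_mem (pow_mem hvO m) ha
    · intro ha
      rw [ht] at ha
      have h2 := mul_mem (pow_mem hv'O m) ha
      rwa [show v' ^ m * ((c * v * D.t x) ^ m * a) =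
        (v * v') ^ m * (D.t x ^ m * (c ^ m * a)) by ring, hvv, one_pow, one_mul] at h2
  rw [← hmap, LinearEquiv.finrank_map_eq]

end Space

end FLTA.AbelianVar.RF
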