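import Fermat.Agent.AbelianVar.Divisor
import Fermat.Agent.AbelianVar.DivisorBundle

/-!
# Local equations of a divisor with given affine complement
-/

set_option autoImplicit false

open CategoryTheory CategoryTheory.Limits AlgebraicGeometry TopologicalSpace

noncomputable section

universe u

namespace FLTA.AbelianVar

variable {K : Type u} [Field K] {X : Scheme.{u}} [AlgebraicGeometry.IsIntegral X]

/-- The constants act on the function field. -/
@[reducible] def ffAlgebra (f : X ⟶ Spec (CommRingCat.of K)) : Algebra K X.functionField :=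
  (RF.constHom f).toAlgebra

/-- Local equations of an effective divisor with affine complement `U`. -/
structure AffineDivisor (f : X ⟶ Spec (CommRingCat.of K)) where
  U : X.Opens
  isAffine : IsAffineOpen U
  genericPoint_mem : genericPoint X ∈ U
  T : Finset X.functionField
  D : RF.Data X
  isAffine_U : ∀ x, IsAffineOpen (D.U x)
  isEqn : ∀ x, ∀ y ∈ D.U x, IsEqn y T (D.t x)
  eq_one : ∀ x ∈ U, D.U x = U ∧ D.t x = 1
  adjoin : letI := ffAlgebra f
    ∀ a ∈ RF.Reg U, a ∈ Algebra.adjoin K (T : Set X.functionField)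

open RF in
/-- The functions on an affine open of a variety are finitely generated. -/
theorem exists_generators (f : X ⟶ Spec (CommRingCat.of K)) [LocallyOfFiniteType f] {U : X.Opens}
    (hU : IsAffineOpen U) (hη : genericPoint X ∈ U) :
    ∃ S : Finset Γ(X, U), letI := ffAlgebra f
      ∀ a ∈ Reg U, a ∈ Algebra.adjoin K (ff hη '' (S : Set Γ(X, U))) := by
  let := ffAlgebra f
  let ψ : K →+* Γ(X, U) := secAlgMap f U
  have hψ : ∀ c, ff hη (ψ c) = algebraMap K X.functionField c := fun c => by
    show _ = ff (W := (⊤ : X.Opens)) _ (f.appTop ((Scheme.ΓSpecIso (CommRingCat.of K)).inv c))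
    rw [← ff_congr (W := (⊤ : X.Opens)) (x := genericPoint X) trivial trivial, ← ff_rs le_top hη]
    rfl
  have hfin : ψ.FiniteType := by
    have h1 : (f.appLE ⊤ U le_top).hom.FiniteType :=
      f.finiteType_appLE (isAffineOpen_top _) hU le_top
    exact RingHom.finiteType_respectsIso.2 _
      (Scheme.ΓSpecIso (CommRingCat.of K)).symm.commRingCatIsoToRingEquiv h1
  let := ψ.toAlgebra
  obtain ⟨S, hS⟩ := (hfin : Algebra.FiniteType K Γ(X, U)).out
  refine ⟨S, fun a ha => ?_⟩
  obtain ⟨s, hs⟩ := exists_sec ha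
  rw [← hs _ hη]
  clear hs ha
  have hs' : s ∈ Algebra.adjoin K (S : Set Γ(X, U)) := hS ▸ trivial
  induction hs' using Algebra.adjoin_induction with
  | mem x hx => exact Algebra.subset_adjoin ⟨x, hx, rfl⟩
  | algebraMap c =>
    rw [show ff hη (algebraMap K Γ(X, U) c) = _ from hψ c]
    exact Subalgebra.algebraMap_mem _ c
  | add x y _ _ hx hy => rw [map_add]; exact add_mem hx hy
  | mul x y _ _ hx hy => rw [map_mul]; exact mul_mem hx hy

/-- Local equations for the complement of an affine open exist. -/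
theorem exists_affineDivisor [IsAlgClosed K] (f : X ⟶ Spec (CommRingCat.of K)) (g : ℕ)
    [SmoothOfRelativeDimension g f] {U : X.Opens} (hU : IsAffineOpen U)
    (hη : genericPoint X ∈ U) (T : Finset X.functionField)
    (hTU : ∀ y ∈ U, ∀ t ∈ T, t ∈ stalkRange y)
    (hadj : letI := ffAlgebra f
      ∀ a ∈ RF.Reg U, a ∈ Algebra.adjoin K (T : Set X.functionField)) :
    ∃ E : AffineDivisor f, E.U = U ∧ E.T = T := by
  classical
  have hone : ∀ y ∈ U, IsEqn y T 1 := fun y hy =>
    ⟨one_ne_zero, ⟨one_mem _, fun t ht => by rw [one_mul]; exact hTU y hy t ht⟩,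
      fun a ha => by rw [inv_one, mul_one]; exact ha.1⟩
  have hex : ∀ x : X, ∃ (W : X.Opens) (b : X.functionField), IsAffineOpen W ∧ x ∈ W ∧
      (∀ y ∈ W, IsEqn y T b) ∧ (x ∈ U → W = U ∧ b = 1) := by
    intro x
    by_cases hx : x ∈ U
    · exact ⟨U, 1, hU, hx, hone, fun _ => ⟨rfl, rfl⟩⟩
    · obtain ⟨W, b, hW, hxW, hb⟩ := exists_affine_isEqn f g T x
      exact ⟨W, b, hW, hxW, hb, fun h => absurd h hx⟩
  choose W b hW hxW hb hbU using hex
  exact ⟨{
    U := U
    isAffine := hU
    genericPoint_mem := hη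
    T := T
    D :=
      { U := W
        mem := hxW
        t := b
        t_ne := fun x => (hb x x (hxW x)).1
        ratio := fun x y => RF.mem_Reg.2 fun z hz => (hb x z hz.1).mul_inv_mem (hb y z hz.2) }
    isAffine_U := hW
    isEqn := hb
    eq_one := hbU
    adjoin := hadj }, rfl, rfl⟩

/-- Every affine open is the complement of a divisor. -/
theorem exists_affineDivisor_eq [IsAlgClosed K] (f : X ⟶ Spec (CommRingCat.of K))
    [LocallyOfFiniteType f] (g : ℕ)
    [SmoothOfRelativeDimension g f] {U : X.Opens} (hU : IsAffineOpen U)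
    (hη : genericPoint X ∈ U) : ∃ E : AffineDivisor f, E.U = U := by
  classical
  obtain ⟨S, hS⟩ := exists_generators f hU hη
  obtain ⟨E, hE, -⟩ := exists_affineDivisor f g hU hη (S.image (RF.ff hη)) (fun y hy t ht => by
    obtain ⟨s, -, rfl⟩ := Finset.mem_image.1 ht
    exact RF.mem_Reg.1 (RF.ff_mem_Reg hη s) y hy) fun a ha => by
      letI := ffAlgebra f
      simpa using hS a ha
  exact ⟨E, hE⟩

end FLTA.AbelianVar
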