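import Fermat.Agent.AbelianVar.Pic
import Fermat.Agent.AbelianVar.Growth.VInt

/-!
# Regular rational functions on an integral scheme

Stalks as subrings of the function field, sections as rational functions, pullback of rational
functions along dominant maps, centres of valuations.
-/

set_option autoImplicit false

open CategoryTheory CategoryTheory.Limits AlgebraicGeometry TopologicalSpace Opposite

noncomputable section

universe u

namespace FLTA.AbelianVar.RF

variable {X Y : Scheme.{u}} [AlgebraicGeometry.IsIntegral X] [AlgebraicGeometry.IsIntegral Y]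

lemma genericPoint_mem {W : X.Opens} {x : X} (hx : x ∈ W) : genericPoint X ∈ W :=
  ((genericPoint_spec X).specializes trivial).mem_open W.isOpen hx

/-- A section as a rational function. -/
def ff {W : X.Opens} {x : X} (hx : x ∈ W) : Γ(X, W) →+* X.functionField :=
  (X.presheaf.germ W (genericPoint X) (genericPoint_mem hx)).hom

lemma algebraMap_germ {W : X.Opens} {x : X} (hx : x ∈ W) (s : Γ(X, W)) :
    algebraMap (X.presheaf.stalk x) X.functionField (X.presheaf.germ W x hx s) = ff hx s := by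
  rw [RingHom.algebraMap_toAlgebra, ← CommRingCat.comp_apply]
  exact congrArg (fun φ => φ.hom s)
    (X.presheaf.germ_stalkSpecializes hx ((genericPoint_spec X).specializes trivial))

lemma ff_eq_germToFunctionField {W : X.Opens} [Nonempty W] {x : X} (hx : x ∈ W) (s : Γ(X, W)) :
    ff hx s = X.germToFunctionField W s := rfl

lemma ff_rs {W W' : X.Opens} (h : W' ≤ W) {x : X} (hx : x ∈ W') (s : Γ(X, W)) :
    ff hx (rs h s) = ff (h hx) s :=
  TopCat.Presheaf.germ_res_apply X.presheaf (homOfLE h) _ (genericPoint_mem hx) s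

lemma ff_congr {W : X.Opens} {x y : X} (hx : x ∈ W) (hy : y ∈ W) (s : Γ(X, W)) :
    ff hx s = ff hy s := rfl

/-- The rational functions regular at `x`. -/
def O (x : X) : Subring X.functionField := (algebraMap (X.presheaf.stalk x) X.functionField).range

lemma ff_mem_O {W : X.Opens} {x : X} (hx : x ∈ W) (s : Γ(X, W)) : ff hx s ∈ O x :=
  ⟨_, algebraMap_germ hx s⟩

lemma mem_O_iff {x : X} {a : X.functionField} :
    a ∈ O x ↔ ∃ (W : X.Opens) (hx : x ∈ W) (s : Γ(X, W)), ff hx s = a := by
  constructor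
  · rintro ⟨c, rfl⟩
    obtain ⟨W, hx, s, rfl⟩ := X.presheaf.exists_germ_eq c
    exact ⟨W, hx, s, (algebraMap_germ hx s).symm⟩
  · rintro ⟨W, hx, s, rfl⟩
    exact ff_mem_O hx s

/-- Sections are equal if their rational functions are. -/
lemma sec_ext {W : X.Opens} {s t : Γ(X, W)} (h : ∀ (x : X) (hx : x ∈ W), ff hx s = ff hx t) :
    s = t := by
  refine TopCat.Presheaf.section_ext X.sheaf W s t fun x hx => ?_
  have h' := h x hx
  rw [← algebraMap_germ hx s, ← algebraMap_germ hx t] at h'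
  exact IsFractionRing.injective (X.presheaf.stalk x) X.functionField h'

/-- `a` is regular on `W`. -/
def Reg (W : X.Opens) : Subring X.functionField := ⨅ x : W, O (x : X)

lemma mem_Reg {W : X.Opens} {a : X.functionField} : a ∈ Reg W ↔ ∀ x ∈ W, a ∈ O x := by
  simp [Reg, Subring.mem_iInf]

lemma Reg_anti {W W' : X.Opens} (h : W' ≤ W) : Reg W ≤ Reg W' := fun _ ha =>
  mem_Reg.2 fun x hx => mem_Reg.1 ha x (h hx)

lemma exists_nhd {x : X} {a : X.functionField} (ha : a ∈ O x) :
    ∃ W : X.Opens, x ∈ W ∧ a ∈ Reg W := by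
  obtain ⟨W, hx, s, rfl⟩ := mem_O_iff.1 ha
  exact ⟨W, hx, mem_Reg.2 fun y hy => ff_congr hy hx s ▸ ff_mem_O hy s⟩

lemma ff_mem_Reg {W : X.Opens} {x : X} (hx : x ∈ W) (s : Γ(X, W)) : ff hx s ∈ Reg W :=
  mem_Reg.2 fun y hy => ff_congr hy hx s ▸ ff_mem_O hy s

/-- A rational function regular on `W` is a section over `W`. -/
lemma exists_sec {W : X.Opens} {a : X.functionField} (ha : a ∈ Reg W) :
    ∃ s : Γ(X, W), ∀ (x : X) (hx : x ∈ W), ff hx s = a := by
  choose V hV s hs using fun x : W => mem_O_iff.1 (mem_Reg.1 ha x x.2)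
  let U : W → X.Opens := fun x => V x ⊓ W
  let sf : ∀ x : W, Γ(X, U x) := fun x => rs inf_le_left (s x)
  have hsf : ∀ (x : W) (y : X) (hy : y ∈ U x), ff hy (sf x) = a := fun x y hy =>
    (ff_rs inf_le_left hy (s x)).trans ((ff_congr _ (hV x) (s x)).trans (hs x))
  obtain ⟨t, ht, -⟩ := X.sheaf.existsUnique_gluing' U W (fun x => homOfLE inf_le_right)
    (fun y hy => Opens.mem_iSup.2 ⟨⟨y, hy⟩, hV ⟨y, hy⟩, hy⟩) sf fun i j =>
      sec_ext fun y hy => by
        exact ((ff_rs inf_le_left hy (sf i)).trans (hsf i y _)).trans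
          ((ff_rs inf_le_right hy (sf j)).trans (hsf j y _)).symm
  refine ⟨t, fun x hx => ?_⟩
  have h1 : x ∈ U ⟨x, hx⟩ := ⟨hV ⟨x, hx⟩, hx⟩
  rw [← hsf ⟨x, hx⟩ x h1]
  exact ((ff_rs inf_le_right h1 t).symm.trans (congrArg (ff h1) (ht ⟨x, hx⟩)))

/-- The section given by a regular rational function. -/
def sec (W : X.Opens) (a : X.functionField) (ha : a ∈ Reg W) : Γ(X, W) :=
  (exists_sec ha).choose

@[simp]
lemma ff_sec {W : X.Opens} {a : X.functionField} (ha : a ∈ Reg W) {x : X} (hx : x ∈ W) :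
    ff hx (sec W a ha) = a :=
  (exists_sec ha).choose_spec x hx

lemma O_mono {x y : X} (h : x ⤳ y) : O y ≤ O x := by
  intro a ha
  obtain ⟨W, hy, s, rfl⟩ := mem_O_iff.1 ha
  exact ff_congr (h.mem_open W.isOpen hy) hy s ▸ ff_mem_O _ s

lemma mem_Reg_iff_isClosed [JacobsonSpace X] {W : X.Opens}
    {a : X.functionField} :
    a ∈ Reg W ↔ ∀ x ∈ W, IsClosed {x} → a ∈ O x := by
  refine ⟨fun h x hx _ => mem_Reg.1 h x hx, fun h => mem_Reg.2 fun y hy => ?_⟩
  obtain ⟨q, hq, hqc⟩ := nonempty_inter_closedPoints (Z := closure {y} ∩ W)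
    ⟨y, subset_closure rfl, hy⟩ (isClosed_closure.isLocallyClosed.inter W.isOpen.isLocallyClosed)
  exact O_mono (specializes_iff_mem_closure.2 hq.1) (h q hq.2 hqc)

/-- `O x` is the localisation of an affine chart at `x`. -/
lemma mem_O_iff_of_isAffineOpen {W : X.Opens} (hW : IsAffineOpen W) {x : X} (hx : x ∈ W)
    {a : X.functionField} :
    a ∈ O x ↔ ∃ b ∈ Reg W, ∃ s : Γ(X, W), IsUnit (X.presheaf.germ W x hx s) ∧
      ff hx s * a = b := by
  constructor
  · rintro ⟨c, rfl⟩
    let : Algebra Γ(X, W) (X.presheaf.stalk x) := (X.presheaf.germ W x hx).hom.toAlgebra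
    have : IsLocalization.AtPrime (X.presheaf.stalk x) (hW.primeIdealOf ⟨x, hx⟩).asIdeal :=
      hW.isLocalization_stalk ⟨x, hx⟩
    obtain ⟨⟨b, s⟩, hbs⟩ := IsLocalization.surj (hW.primeIdealOf ⟨x, hx⟩).asIdeal.primeCompl c
    refine ⟨ff hx b, ff_mem_Reg hx b, s, IsLocalization.map_units (X.presheaf.stalk x) s, ?_⟩
    rw [← algebraMap_germ hx, ← algebraMap_germ hx, ← map_mul, mul_comm]
    exact congrArg _ hbs
  · rintro ⟨b, hb, s, hs, hab⟩
    have h1 : IsUnit (algebraMap (X.presheaf.stalk x) X.functionField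
        (X.presheaf.germ W x hx s)) := hs.map _
    rw [algebraMap_germ] at h1
    obtain ⟨c, hc⟩ := mem_Reg.1 hb x hx
    obtain ⟨v, hv⟩ := hs
    refine ⟨↑v⁻¹ * c, ?_⟩
    rw [map_mul, hc, ← hab, ← algebraMap_germ hx, ← hv, ← mul_assoc, ← map_mul, Units.inv_mul,
      map_one, one_mul]

section Dominant

variable (φ : X ⟶ Y) (hφ : φ.base (genericPoint X) = genericPoint Y)

/-- Pullback of rational functions along a dominant morphism. -/
def ffMap : Y.functionField →+* X.functionField :=
  (Y.presheaf.stalkSpecializes (Inseparable.of_eq hφ).specializes ≫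
    φ.stalkMap (genericPoint X)).hom

variable {φ} {hφ}

lemma ffMap_ff {W : Y.Opens} {V : X.Opens} (e : V ≤ φ ⁻¹ᵁ W) {x : X} (hx : x ∈ V)
    (s : Γ(Y, W)) :
    ffMap φ hφ (ff (show φ.base x ∈ W from e hx) s) = ff hx (pb φ e s) := by
  have h1 : genericPoint X ∈ V := genericPoint_mem hx
  show φ.stalkMap (genericPoint X) (Y.presheaf.stalkSpecializes _ (Y.presheaf.germ W _ _ s)) = _
  rw [TopCat.Presheaf.germ_stalkSpecializes_apply, Scheme.Hom.germ_stalkMap_apply]
  exact (TopCat.Presheaf.germ_res_apply X.presheaf (homOfLE e) _ h1 _).symm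

lemma ffMap_mem_O {x : X} {a : Y.functionField} (ha : a ∈ O (φ.base x)) :
    ffMap φ hφ a ∈ O x := by
  obtain ⟨W, hx, s, rfl⟩ := mem_O_iff.1 ha
  have h := ffMap_ff (hφ := hφ) (V := φ ⁻¹ᵁ W) le_rfl hx s
  rw [h]
  exact ff_mem_O _ _

lemma ffMap_mem_Reg {W : Y.Opens} {a : Y.functionField} (ha : a ∈ Reg W) :
    ffMap φ hφ a ∈ Reg (φ ⁻¹ᵁ W) :=
  mem_Reg.2 fun x hx => ffMap_mem_O (mem_Reg.1 ha (φ.base x) hx)

lemma SpecMap_ffMap :
    Spec.map (CommRingCat.ofHom (ffMap φ hφ)) ≫ Y.fromSpecStalk (genericPoint Y) =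
      X.fromSpecStalk (genericPoint X) ≫ φ := by
  rw [ffMap, CommRingCat.ofHom_hom, Spec.map_comp, Category.assoc,
    Scheme.SpecMap_stalkSpecializes_fromSpecStalk, Scheme.SpecMap_stalkMap_fromSpecStalk]

end Dominant

section Valuation

variable {S : Scheme.{u}} (g : X ⟶ S) (h : Y ⟶ S)

/-- Centre of a valuation: a point dominated by it, with the uniqueness property. -/
theorem exists_centre [S.IsSeparated] [IsProper g] [IsSeparated h] (φ : X ⟶ Y)
    (hφ : φ.base (genericPoint X) = genericPoint Y) (hφS : φ ≫ h = g)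
    (w : ValuationSubring X.functionField)
    (i : Spec (CommRingCat.of w) ⟶ S)
    (hi : X.fromSpecStalk (genericPoint X) ≫ g =
      Spec.map (CommRingCat.ofHom w.subtype) ≫ i) :
    ∃ x : X, (O x : Set X.functionField) ⊆ w ∧
      ∀ (V : Y.Opens), IsAffineOpen V → genericPoint Y ∈ V →
        (∀ a ∈ Reg V, ffMap φ hφ a ∈ w) → φ.base x ∈ V := by
  have hval : ValuativeCriterion g := by
    have h1 : IsProper g := inferInstance
    rw [IsProper.eq_valuativeCriterion] at h1
    exact h1.1.1.1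
  have huniq : ValuativeCriterion.Uniqueness h := IsSeparated.valuativeCriterion h
  let top : Spec (CommRingCat.of X.functionField) ⟶ X := X.fromSpecStalk (genericPoint X)
  have hsq : CommSq top (Spec.map (CommRingCat.ofHom (algebraMap w X.functionField))) g i := ⟨hi⟩
  obtain ⟨l, hl1, hl2⟩ :=
    (hval.existence { R := w, K := X.functionField, commSq := hsq, .. }).exists_lift
  dsimp only at hl1 hl2
  let c : Spec (CommRingCat.of w) := IsLocalRing.closedPoint w
  have hctop : ∀ (T : Scheme.{u}) (m : Spec (CommRingCat.of w) ⟶ T) (W : T.Opens),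
      m.base c ∈ W → m ⁻¹ᵁ W = ⊤ := fun T m W hm => eq_top_iff.2 fun z _ =>
    (IsLocalRing.specializes_closedPoint z).mem_open (m ⁻¹ᵁ W).isOpen hm
  refine ⟨l.base c, fun a ha => ?_, fun V hV hVη hVw => ?_⟩
  · obtain ⟨r, rfl⟩ := ha
    let x : X := l.base c
    let sp := X.presheaf.stalkSpecializes ((genericPoint_spec X).specializes (y := x) trivial)
    let τ : X.presheaf.stalk x ⟶ CommRingCat.of w := Scheme.stalkClosedPointTo l
    have h1 : Spec.map (τ ≫ CommRingCat.ofHom (algebraMap w X.functionField)) ≫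
        X.fromSpecStalk x = Spec.map sp ≫ X.fromSpecStalk x := by
      rw [Spec.map_comp, Category.assoc, Scheme.Spec_stalkClosedPointTo_fromSpecStalk,
        Scheme.SpecMap_stalkSpecializes_fromSpecStalk]
      exact hl1
    have h2 : τ ≫ CommRingCat.ofHom (algebraMap w X.functionField) = sp :=
      Spec.map_injective ((cancel_mono (X.fromSpecStalk x)).1 h1)
    have h3 : algebraMap (X.presheaf.stalk x) X.functionField r = (τ.hom r : X.functionField) :=
      (congrArg (fun φ => φ.hom r) h2).symm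
    exact h3 ▸ (τ.hom r).2
  · have hne : Nonempty V := ⟨⟨_, hVη⟩⟩
    let ρ : Γ(Y, V) →+* w :=
      ((ffMap φ hφ).comp (ff hVη)).codRestrict w.toSubring fun s => hVw _ (ff_mem_Reg hVη s)
    let l' : Spec (CommRingCat.of w) ⟶ Y := Spec.map (CommRingCat.ofHom ρ) ≫ hV.fromSpec
    have hgen : Spec.map (CommRingCat.ofHom (algebraMap w X.functionField)) ≫ l' = top ≫ φ := by
      show _ = X.fromSpecStalk (genericPoint X) ≫ φ
      rw [← SpecMap_ffMap (hφ := hφ), ← hV.fromSpecStalk_eq_fromSpecStalk hVη,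
        IsAffineOpen.fromSpecStalk, ← Spec.map_comp_assoc, ← Spec.map_comp_assoc]
      congr 2
    have hdom : Function.Injective (algebraMap w X.functionField) := Subtype.val_injective
    have hl'S : l' ≫ h = i := by
      have : IsDominant (Spec.map (CommRingCat.ofHom (algebraMap w X.functionField))) :=
        ⟨(PrimeSpectrum.denseRange_comap_iff_ker_le_nilRadical _).2
          (by rw [CommRingCat.hom_ofHom, (RingHom.injective_iff_ker_eq_bot _).1 hdom]; exact bot_le)⟩
      refine ext_of_isDominant (Spec.map (CommRingCat.ofHom (algebraMap w X.functionField))) ?_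
      rw [← Category.assoc, hgen, Category.assoc, hφS]
      exact hi
    have hsq' : CommSq (top ≫ φ) (Spec.map (CommRingCat.ofHom (algebraMap w X.functionField))) h i :=
      ⟨by rw [Category.assoc, hφS]; exact hi⟩
    have hs := (huniq { R := w, K := X.functionField, commSq := hsq', .. }).allEq
      ⟨l', hgen, hl'S⟩ ⟨l ≫ φ, by rw [← Category.assoc, hl1], by rw [Category.assoc, hφS, hl2]⟩
    have h4 : l' = l ≫ φ := congrArg CommSq.LiftStruct.l hs
    have h5 : l'.base c ∈ V := by
      rw [show l'.base c = hV.fromSpec.base ((Spec.map (CommRingCat.ofHom ρ)).base c) from rfl]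
      exact hV.range_fromSpec.le ⟨_, rfl⟩
    rw [h4] at h5
    exact h5

end Valuation

end FLTA.AbelianVar.RF
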