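import Mathlib

/-!
# Affine standard smooth algebras over a field

Reducedness of a standard smooth algebra (the transcendence degree is in `SmoothAffine`).
-/

set_option autoImplicit false

universe u

open TensorProduct

namespace FLTA.AbelianVar

variable (K : Type u) [Field K] (S : Type u) [CommRing S] [Algebra K S]

/-- A standard smooth algebra over a field is reduced. -/
theorem isReduced_of_isStandardSmoothOfRelativeDimension (g : ℕ)
    [Algebra.IsStandardSmoothOfRelativeDimension g K S] : IsReduced S := by
  obtain ⟨φ, hφ⟩ :=
    Algebra.IsStandardSmoothOfRelativeDimension.exists_etale_mvPolynomial (n := g) K S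
  let P := MvPolynomial (Fin g) K
  let F := FractionRing P
  algebraize [φ.toRingHom]
  have : Algebra.Etale P S := hφ
  have : Algebra.EssFiniteType F (F ⊗[P] S) := inferInstance
  have : IsReduced (F ⊗[P] S) := Algebra.FormallyUnramified.isReduced_of_field F (F ⊗[P] S)
  refine isReduced_of_injective
    (Algebra.TensorProduct.includeRight : S →ₐ[P] F ⊗[P] S) ?_
  exact Algebra.TensorProduct.includeRight_injective (IsFractionRing.injective P F)

end FLTA.AbelianVar
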