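import Fermat.Agent.AbelianVar.KernelTranslate
import Fermat.Agent.AbelianVar.KernelAffine
import Fermat.Prelude.Def_JacJ1Iface

/-!
# Smooth connected group varieties over an algebraically closed field are integral
-/

set_option autoImplicit false

universe u

open CategoryTheory CategoryTheory.Limits AlgebraicGeometry NeronModelInfra GoodReductionJacobian
  TopologicalSpace

noncomputable section

namespace FLTA.AbelianVar

variable {K : Type u} [Field K] {A : Scheme.{u}} (f : A ⟶ Spec (CommRingCat.of K))

/-- Every point has a standard smooth affine neighbourhood. -/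
theorem exists_isStandardSmooth_nhd (g : ℕ) [SmoothOfRelativeDimension g f] (x : A) :
    ∃ V : A.Opens, IsAffineOpen V ∧ x ∈ V ∧
      RingHom.IsStandardSmoothOfRelativeDimension g (f.appLE ⊤ V le_top).hom := by
  obtain ⟨U, hU, V, hV, hx, e, h⟩ :=
    SmoothOfRelativeDimension.exists_isStandardSmoothOfRelativeDimension (n := g) (f := f) x
  have hUtop : U = ⊤ := by
    rw [eq_top_iff]
    intro y _
    rw [Subsingleton.elim y (f.base x)]
    exact e hx
  subst hUtop
  exact ⟨V, hV, hx, h⟩

/-- A smooth scheme over a field is reduced. -/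
theorem isReduced_of_smoothOfRelativeDimension (g : ℕ) [SmoothOfRelativeDimension g f] :
    AlgebraicGeometry.IsReduced A := by
  choose V hV hx h using exists_isStandardSmooth_nhd f g
  have hred : ∀ x, _root_.IsReduced Γ(A, V x) := fun x => by
    let φ : K →+* Γ(A, V x) :=
      (f.appLE ⊤ (V x) le_top).hom.comp (Scheme.ΓSpecIso (CommRingCat.of K)).inv.hom
    have hφ : φ.IsStandardSmoothOfRelativeDimension g :=
      (RingHom.isStandardSmoothOfRelativeDimension_respectsIso).2 _
        ((Scheme.ΓSpecIso (CommRingCat.of K)).symm.commRingCatIsoToRingEquiv) (h x)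
    algebraize [φ]
    exact isReduced_of_isStandardSmoothOfRelativeDimension K Γ(A, V x) g
  let 𝒰 := A.openCoverOfIsOpenCover (fun x => V x)
    (IsOpenCover.mk (eq_top_iff.2 fun x _ => Opens.mem_iSup.2 ⟨x, hx x⟩))
  have : ∀ x, AlgebraicGeometry.IsReduced (𝒰.X x) := fun (x : A) => by
    have : IsAffine (V x : Scheme) := hV x
    have := hred x
    have : _root_.IsReduced Γ((V x : Scheme), ⊤) :=
      isReduced_of_injective (V x).topIso.hom.hom
        (V x).topIso.commRingCatIsoToRingEquiv.injective
    exact isReduced_of_isAffine_isReduced (V x : Scheme)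
  exact IsReduced.of_openCover A 𝒰

variable {f}

/-- A connected group variety over an algebraically closed field is irreducible. -/
theorem irreducibleSpace_of_relativeGroupLaw [IsAlgClosed K] (L : RelativeGroupLaw K f)
    [LocallyOfFiniteType f] [QuasiCompact f] (hconn : ConnectedSpace A) :
    IrreducibleSpace A := by
  have : JacobsonSpace A := LocallyOfFiniteType.jacobsonSpace f
  have : IsNoetherian A :=
    { toIsLocallyNoetherian := LocallyOfFiniteType.isLocallyNoetherian f
      toCompactSpace := QuasiCompact.compactSpace_of_compactSpace f }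
  have hfin : (irreducibleComponents A).Finite :=
    NoetherianSpace.finite_irreducibleComponents
  -- some closed point lies on a single component
  have hone : ∃ Z ∈ irreducibleComponents A, ∃ p : A, IsClosed {p} ∧
      ∀ Z' ∈ irreducibleComponents A, p ∈ Z' → Z' = Z := by
    obtain ⟨x⟩ := hconn.toNonempty
    let Z := irreducibleComponent x
    let W : Set A := (⋃₀ (irreducibleComponents A \ {Z}))ᶜ
    have hW : IsOpen W := by
      show IsOpen (⋃₀ (irreducibleComponents A \ {Z}))ᶜ
      rw [Set.sUnion_eq_biUnion, isOpen_compl_iff]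
      exact hfin.sdiff.isClosed_biUnion fun _ h => isClosed_of_mem_irreducibleComponents _ h.1
    have hne : W.Nonempty := by
      by_contra hW0
      have h := closure_sUnion_irreducibleComponents_sdiff_singleton hfin Z
        (irreducibleComponent_mem_irreducibleComponents x)
      rw [show (⋃₀ (irreducibleComponents A \ {Z}))ᶜ = W from rfl,
        Set.not_nonempty_iff_eq_empty.1 hW0, closure_empty] at h
      exact Set.notMem_empty x (h ▸ mem_irreducibleComponent)
    obtain ⟨p, hpW, hp⟩ := nonempty_inter_closedPoints hne hW.isLocallyClosed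
    refine ⟨Z, irreducibleComponent_mem_irreducibleComponents x, p, hp, fun Z' hZ' hpZ' => ?_⟩
    by_contra hne'
    exact hpW ⟨Z', ⟨hZ', hne'⟩, hpZ'⟩
  obtain ⟨Z₀, -, p, hp, huniq⟩ := hone
  -- hence every closed point does
  have hall : ∀ q : A, IsClosed {q} → ∀ Z ∈ irreducibleComponents A,
      ∀ Z' ∈ irreducibleComponents A, q ∈ Z → q ∈ Z' → Z = Z' := by
    intro q hq Z hZ Z' hZ' hqZ hqZ'
    let a : RatPt f := ⟨pointOfClosedPoint f q hq, pointOfClosedPoint_comp f q hq⟩
    let b : RatPt f := ⟨pointOfClosedPoint f p hp, pointOfClosedPoint_comp f p hp⟩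
    let c : RatPt f := L.mul (𝟙 _) (L.inv (𝟙 _) a) b
    have hac : translate L c q = p := by
      have h := comp_translate L a c
      have h2 : L.mul (𝟙 _) a (constPt (𝟙 _) c) = b := by
        have h3 : constPt (𝟙 (Spec (CommRingCat.of K))) c = c :=
          Subtype.ext (Category.id_comp c.1)
        rw [h3, ← L.mul_assoc, L.mul_inv_cancel, L.one_mul]
      rw [h2] at h
      have h4 := congrArg (fun φ : Spec (CommRingCat.of K) ⟶ A => φ (IsLocalRing.closedPoint K)) h
      simp only [a, b] at h4
      erw [Scheme.Hom.comp_apply, pointOfClosedPoint_apply, pointOfClosedPoint_apply] at h4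
      exact h4
    let φ : A ≃ₜ A := (translate L c).homeomorph
    have himg : ∀ Y ∈ irreducibleComponents A, q ∈ Y → φ '' Y = Z₀ := fun Y hY hqY => by
      refine huniq _ ?_ ⟨q, hqY, hac⟩
      refine ⟨hY.1.image _ φ.continuous.continuousOn, fun s hs hle => ?_⟩
      have h5 := hY.2 (hs.image φ.symm φ.symm.continuous.continuousOn) fun y hy =>
        ⟨φ y, hle ⟨y, hy, rfl⟩, φ.symm_apply_apply y⟩
      exact fun y hy => ⟨φ.symm y, h5 ⟨y, hy, rfl⟩, φ.apply_symm_apply y⟩
    have := (himg Z hZ hqZ).trans (himg Z' hZ' hqZ').symm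
    exact φ.injective.image_injective this
  -- components are pairwise disjoint
  have hdisj : ∀ Z ∈ irreducibleComponents A, ∀ Z' ∈ irreducibleComponents A,
      ∀ y, y ∈ Z → y ∈ Z' → Z = Z' := by
    intro Z hZ Z' hZ' y hy hy'
    obtain ⟨q, hq, hqc⟩ := nonempty_inter_closedPoints (Z := Z ∩ Z') ⟨y, hy, hy'⟩
      ((isClosed_of_mem_irreducibleComponents Z hZ).inter
        (isClosed_of_mem_irreducibleComponents Z' hZ')).isLocallyClosed
    exact hall q hqc Z hZ Z' hZ' hq.1 hq.2
  obtain ⟨x⟩ := hconn.toNonempty
  let Z := irreducibleComponent x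
  have hZ : Z ∈ irreducibleComponents A := irreducibleComponent_mem_irreducibleComponents x
  have hopen : IsOpen Z := by
    have : Z = (⋃₀ (irreducibleComponents A \ {Z}))ᶜ := by
      ext y
      refine ⟨fun hy ⟨Z', hZ', hy'⟩ => hZ'.2 (hdisj Z' hZ'.1 Z hZ y hy' hy), fun hy => ?_⟩
      obtain ⟨Z', hZ', hy'⟩ := (Set.sUnion_eq_univ_iff.1 sUnion_irreducibleComponents) y
      by_contra hyZ
      exact hy ⟨Z', ⟨hZ', fun h => hyZ ((Set.mem_singleton_iff.1 h) ▸ hy')⟩, hy'⟩
    rw [this, Set.sUnion_eq_biUnion, isOpen_compl_iff]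
    exact hfin.sdiff.isClosed_biUnion fun _ h => isClosed_of_mem_irreducibleComponents _ h.1
  have huniv : Z = Set.univ :=
    IsClopen.eq_univ ⟨isClosed_irreducibleComponent, hopen⟩ ⟨x, mem_irreducibleComponent⟩
  have hirr : IsIrreducible (Set.univ : Set A) := huniv ▸ isIrreducible_irreducibleComponent
  exact { toPreirreducibleSpace := ⟨hirr.2⟩, toNonempty := ⟨x⟩ }

/-- An abelian variety over an algebraically closed field is integral. -/
theorem isIntegral_of_bundle [IsAlgClosed K] (hA : AbelianSchemePropertyBundle K f)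
    (L : RelativeGroupLaw K f) (g : ℕ) [SmoothOfRelativeDimension g f] :
    AlgebraicGeometry.IsIntegral A := by
  have : IsProper f := hA.proper
  have : AlgebraicGeometry.IsReduced A := isReduced_of_smoothOfRelativeDimension f g
  have hconn : ConnectedSpace A := by
    rw [connectedSpace_iff_univ]
    convert hA.connectedFibres (IsLocalRing.closedPoint K)
    exact (Set.eq_univ_of_forall fun y => Subsingleton.elim (f.base y) _).symm
  have : IrreducibleSpace A := irreducibleSpace_of_relativeGroupLaw L hconn
  exact isIntegral_of_irreducibleSpace_of_isReduced A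

end FLTA.AbelianVar
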