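import Fermat.Agent.AbelianVar.Factorial
import Mathlib.RingTheory.RingHom.StandardSmooth
import Mathlib.RingTheory.Unramified.Field
import Mathlib.RingTheory.Unramified.Finite
import Mathlib.RingTheory.Etale.Basic
import Mathlib.RingTheory.Localization.Integral
import Mathlib.RingTheory.Flat.TorsionFree
import Mathlib.RingTheory.Nullstellensatz
import Mathlib.FieldTheory.IsAlgClosed.Basic

/-!
# Smooth affine varieties over an algebraically closed field

For a standard smooth domain `B` of relative dimension `g` over an algebraically closed field: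
the transcendence degree is `g`, cotangent spaces at maximal ideals are spanned by `g` elements,
the local rings at maximal ideals are factorial and `B` is integrally closed.
-/

set_option autoImplicit false

universe u

namespace FLTA.AbelianVar

variable {K : Type u} [Field K] {B : Type u} [CommRing B] [IsDomain B] [Algebra K B]

/-- A domain, standard smooth of relative dimension `g`, has transcendence degree `g`. -/
theorem trdeg_eq_of_isStandardSmooth (g : ℕ)
    [Algebra.IsStandardSmoothOfRelativeDimension g K B] :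
    Algebra.trdeg K B = (g : ℕ) := by
  obtain ⟨φ, hφ⟩ :=
    Algebra.IsStandardSmoothOfRelativeDimension.exists_etale_mvPolynomial g K B
  let _ := φ.toRingHom.toAlgebra
  have _ : IsScalarTower K (MvPolynomial (Fin g) K) B :=
    IsScalarTower.of_algebraMap_eq fun x => (φ.commutes x).symm
  have _ : Algebra.Etale (MvPolynomial (Fin g) K) B := hφ
  have hinj : Function.Injective (algebraMap (MvPolynomial (Fin g) K) B) := by
    rw [injective_iff_map_eq_zero]
    intro p hp
    by_contra hp0
    have h1 := Module.IsTorsionFree.isSMulRegular (M := B) (isRegular_of_ne_zero hp0)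
    have h2 : p • (1 : B) = p • 0 := by rw [smul_zero, Algebra.smul_def, mul_one, hp]
    exact one_ne_zero (h1 h2)
  have _ : FaithfulSMul (MvPolynomial (Fin g) K) B :=
    (faithfulSMul_iff_algebraMap_injective _ B).mpr hinj
  let F := FractionRing (MvPolynomial (Fin g) K)
  let L := FractionRing B
  let _ : Algebra F L := FractionRing.liftAlgebra (MvPolynomial (Fin g) K) L
  have _ : Algebra.FormallyUnramified (MvPolynomial (Fin g) K) L :=
    Algebra.FormallyUnramified.comp _ B L
  have _ : Algebra.FormallyUnramified F L :=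
    Algebra.FormallyUnramified.of_restrictScalars (MvPolynomial (Fin g) K) F L
  have _ : Algebra.EssFiniteType (MvPolynomial (Fin g) K) L :=
    Algebra.EssFiniteType.comp _ B L
  have _ : Algebra.EssFiniteType F L :=
    Algebra.EssFiniteType.of_comp (MvPolynomial (Fin g) K) F L
  have _ : Module.Finite F L := Algebra.FormallyUnramified.finite_of_free F L
  have _ : Algebra.IsAlgebraic (MvPolynomial (Fin g) K) L :=
    (IsFractionRing.comap_isAlgebraic_iff (A := MvPolynomial (Fin g) K) (K := F) (C := L)).mpr
      inferInstance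
  have _ : Algebra.IsAlgebraic (MvPolynomial (Fin g) K) B :=
    ⟨fun b => (isAlgebraic_algebraMap_iff (IsFractionRing.injective B L)).mp
      (Algebra.IsAlgebraic.isAlgebraic (algebraMap B L b))⟩
  rw [← trdeg_add_eq K (MvPolynomial (Fin g) K) (A := B),
    trdeg_eq_zero_iff.mpr ‹Algebra.IsAlgebraic (MvPolynomial (Fin g) K) B›, add_zero,
    MvPolynomial.trdeg_of_isDomain, Cardinal.mk_fin, Cardinal.lift_natCast]

omit [IsDomain B] in
/-- Over an algebraically closed field every maximal ideal of an affine algebra is rational. -/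
theorem exists_sub_algebraMap_mem [IsAlgClosed K] [Algebra.FiniteType K B] (m : Ideal B)
    [m.IsMaximal] (b : B) : ∃ r : K, b - algebraMap K B r ∈ m := by
  let _ := Ideal.Quotient.field m
  have _ : Module.Finite K (B ⧸ m) := finite_of_finite_type_of_isJacobsonRing K (B ⧸ m)
  have _ : Algebra.IsIntegral K (B ⧸ m) := Algebra.IsIntegral.of_finite K _
  obtain ⟨r, hr⟩ := (IsAlgClosed.algebraMap_bijective_of_isIntegral (k := K) (K := B ⧸ m)).2
    (Ideal.Quotient.mk m b)
  exact ⟨r, Ideal.Quotient.eq.mp hr.symm⟩

omit [IsDomain B] in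
/-- The cotangent space at a rational point is spanned by `g` elements. -/
theorem exists_span_cotangent_of_isStandardSmooth (g : ℕ)
    [Algebra.IsStandardSmoothOfRelativeDimension g K B] (m : Ideal B) [m.IsMaximal]
    (hres : ∀ b, ∃ r : K, b - algebraMap K B r ∈ m) :
    ∃ e : Fin g → B, (∀ i, e i ∈ m) ∧ m ≤ Ideal.span (Set.range e) ⊔ m ^ 2 := by
  obtain ⟨φ, hφ⟩ :=
    Algebra.IsStandardSmoothOfRelativeDimension.exists_etale_mvPolynomial g K B
  let _ := φ.toRingHom.toAlgebra
  have _ : IsScalarTower K (MvPolynomial (Fin g) K) B :=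
    IsScalarTower.of_algebraMap_eq fun x => (φ.commutes x).symm
  have _ : Algebra.Etale (MvPolynomial (Fin g) K) B := hφ
  choose r hr using fun i : Fin g => hres (φ (MvPolynomial.X i))
  refine ⟨fun i => φ (MvPolynomial.X i) - algebraMap K B (r i), hr, ?_⟩
  let I : Ideal B := Ideal.span (Set.range fun i => φ (MvPolynomial.X i) - algebraMap K B (r i))
  let mk : B →ₐ[K] B ⧸ I := Ideal.Quotient.mkₐ K I
  -- `B ⧸ I` is unramified of finite type over `K`
  have hX : mk.comp φ = (Algebra.ofId K (B ⧸ I)).comp (MvPolynomial.aeval r) := by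
    refine MvPolynomial.algHom_ext fun i => ?_
    simp only [AlgHom.comp_apply, MvPolynomial.aeval_X, Algebra.ofId_apply]
    exact Ideal.Quotient.eq.mpr (Ideal.subset_span ⟨i, rfl⟩)
  let ev : MvPolynomial (Fin g) K →ₐ[K] K := MvPolynomial.aeval r
  let _ := ev.toRingHom.toAlgebra
  have _ : IsScalarTower (MvPolynomial (Fin g) K) K (B ⧸ I) :=
    IsScalarTower.of_algebraMap_eq fun p => (AlgHom.congr_fun hX p : _)
  have _ : Algebra.FormallyUnramified (MvPolynomial (Fin g) K) (B ⧸ I) :=
    Algebra.FormallyUnramified.comp _ B _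
  have _ : Algebra.FormallyUnramified K (B ⧸ I) :=
    Algebra.FormallyUnramified.of_restrictScalars (MvPolynomial (Fin g) K) K _
  have _ : Algebra.FiniteType K (B ⧸ I) := by
    have _ : Algebra.IsStandardSmooth K B :=
      Algebra.IsStandardSmoothOfRelativeDimension.isStandardSmooth g
    exact Algebra.FiniteType.of_surjective mk Ideal.Quotient.mk_surjective
  have _ : Module.Finite K (B ⧸ I) := Algebra.FormallyUnramified.finite_of_free K _
  have _ : IsReduced (B ⧸ I) := Algebra.FormallyUnramified.isReduced_of_field K _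
  have _ : IsArtinianRing (B ⧸ I) := IsArtinianRing.of_finite K _
  have _ : IsSemisimpleRing (B ⧸ I) := IsArtinianRing.isSemisimpleRing_of_isReduced _
  intro x hx
  obtain ⟨J', hJ'⟩ := exists_isCompl (m.map (Ideal.Quotient.mk I))
  obtain ⟨a, ha, c, hc, hac⟩ := Submodule.mem_sup.mp
    (show (1 : B ⧸ I) ∈ m.map (Ideal.Quotient.mk I) ⊔ J' by
      rw [hJ'.sup_eq_top]; exact Submodule.mem_top)
  have hxm : Ideal.Quotient.mk I x ∈ m.map (Ideal.Quotient.mk I) := Ideal.mem_map_of_mem _ hx
  have hxc : Ideal.Quotient.mk I x * c = 0 := by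
    have h0 : Ideal.Quotient.mk I x * c ∈ m.map (Ideal.Quotient.mk I) ⊓ J' :=
      ⟨Ideal.mul_mem_right _ _ hxm, Ideal.mul_mem_left _ _ hc⟩
    rwa [hJ'.inf_eq_bot, Submodule.mem_bot] at h0
  have hx2 : Ideal.Quotient.mk I x ∈ (m ^ 2).map (Ideal.Quotient.mk I) := by
    rw [pow_two, Ideal.map_mul]
    have : Ideal.Quotient.mk I x = Ideal.Quotient.mk I x * a := by
      conv_lhs => rw [← mul_one (Ideal.Quotient.mk I x), ← hac, mul_add, hxc, add_zero]
    rw [this]
    exact Ideal.mul_mem_mul hxm ha
  obtain ⟨y, hy, hyx⟩ := (Ideal.mem_map_iff_of_surjective _ Ideal.Quotient.mk_surjective).mp hx2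
  rw [show x = (x - y) + y by ring]
  exact Submodule.add_mem_sup (Ideal.Quotient.eq.mp hyx.symm) hy

variable [IsAlgClosed K]

/-- The local ring at a closed point of a smooth affine variety is factorial. -/
theorem uniqueFactorizationMonoid_of_isStandardSmooth (g : ℕ)
    [Algebra.IsStandardSmoothOfRelativeDimension g K B] (m : Ideal B) [m.IsMaximal] :
    UniqueFactorizationMonoid (Localization.AtPrime m) := by
  have _ : Algebra.IsStandardSmooth K B :=
    Algebra.IsStandardSmoothOfRelativeDimension.isStandardSmooth g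
  have hres := exists_sub_algebraMap_mem (K := K) m
  obtain ⟨e, he, hspan⟩ := exists_span_cotangent_of_isStandardSmooth g m hres
  exact uniqueFactorizationMonoid_localization_atPrime (K := K) (trdeg_eq_of_isStandardSmooth g) m
    hres e he hspan

/-- A smooth affine variety is normal. -/
theorem isIntegrallyClosed_of_isStandardSmooth (g : ℕ)
    [Algebra.IsStandardSmoothOfRelativeDimension g K B] : IsIntegrallyClosed B := by
  rw [isIntegrallyClosed_iff (FractionRing B)]
  intro x hx
  let I : Ideal B :=
    { carrier := {a | ∃ y, algebraMap B (FractionRing B) y = a • x}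
      add_mem' := by
        rintro a b ⟨y, hy⟩ ⟨z, hz⟩
        exact ⟨y + z, by rw [map_add, hy, hz, add_smul]⟩
      zero_mem' := ⟨0, by simp⟩
      smul_mem' := by
        rintro c a ⟨y, hy⟩
        exact ⟨c * y, by rw [map_mul, hy, smul_eq_mul, mul_smul, Algebra.smul_def c]⟩ }
  suffices h : I = ⊤ by
    obtain ⟨y, hy⟩ := (Ideal.eq_top_iff_one I).mp h
    exact ⟨y, by rw [hy, one_smul]⟩
  by_contra hne
  obtain ⟨m, hm, hIm⟩ := I.exists_le_maximal hne
  have _ := uniqueFactorizationMonoid_of_isStandardSmooth (K := K) g m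
  let Bm := Localization.AtPrime m
  let ι : Bm →+* FractionRing B := IsLocalization.lift (M := m.primeCompl)
    (g := algebraMap B (FractionRing B)) fun s => isUnit_iff_ne_zero.mpr
      ((map_ne_zero_iff _ (IsFractionRing.injective B _)).mpr fun h => s.2 (h ▸ m.zero_mem))
  let _ := ι.toAlgebra
  have _ : IsScalarTower B Bm (FractionRing B) :=
    IsScalarTower.of_algebraMap_eq fun b => (IsLocalization.lift_eq _ b).symm
  have _ : IsFractionRing Bm (FractionRing B) :=
    IsFractionRing.isFractionRing_of_isDomain_of_isLocalization m.primeCompl Bm (FractionRing B)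
  obtain ⟨z, hz⟩ := IsIntegrallyClosed.isIntegral_iff.mp (hx.tower_top (A := Bm))
  obtain ⟨b, s, rfl⟩ := IsLocalization.exists_mk'_eq m.primeCompl z
  refine s.2 (hIm (?_ : (s : B) ∈ I))
  refine ⟨b, ?_⟩
  rw [← hz, Algebra.smul_def, IsScalarTower.algebraMap_apply B Bm (FractionRing B),
    IsScalarTower.algebraMap_apply B Bm (FractionRing B), ← map_mul,
    IsLocalization.mk'_spec'_mk]

end FLTA.AbelianVar
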