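import Fermat.Agent.AbelianVar.Basic
import Fermat.Agent.AbelianVar.SmoothAffine
import Fermat.Agent.AbelianVar.KernelIntegral

/-! Basic geometry of an abelian variety over an algebraically closed field. -/

set_option autoImplicit false

open CategoryTheory CategoryTheory.Limits AlgebraicGeometry NeronModelInfra GoodReductionJacobian

noncomputable section

universe u

namespace FLTA.AbelianVar

variable {K : Type u} [Field K] {A : Scheme.{u}} {f : A ⟶ Spec (CommRingCat.of K)}

/-- The `K`-algebra structure on functions on an open of a scheme over `K`. -/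
@[reducible] def sectionsAlgebra (f : A ⟶ Spec (CommRingCat.of K)) (W : A.Opens) :
    Algebra K Γ(A, W) :=
  ((Scheme.ΓSpecIso (CommRingCat.of K)).inv ≫ f.appLE ⊤ W le_top).hom.toAlgebra

lemma isProper_of_bundle (hA : AbelianSchemePropertyBundle K f) : IsProper f := hA.proper

lemma connectedSpace_of_bundle (hA : AbelianSchemePropertyBundle K f) : ConnectedSpace A := by
  have h := hA.connectedFibres (IsLocalRing.closedPoint K)
  refine connectedSpace_iff_univ.mpr ?_
  convert h using 1
  ext x
  simp only [Set.mem_univ, true_iff]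
  exact Subsingleton.elim (α := PrimeSpectrum K) _ _

/-- Every point has an affine neighbourhood that is standard smooth of relative dimension `g`. -/
lemma exists_smooth_chart (g : ℕ) [SmoothOfRelativeDimension g f] (x : A) :
    ∃ W : A.Opens, IsAffineOpen W ∧ x ∈ W ∧
      (letI := sectionsAlgebra f W
       Algebra.IsStandardSmoothOfRelativeDimension g K Γ(A, W)) := by
  obtain ⟨U, hU, V, hV, hxV, e, he⟩ :=
    SmoothOfRelativeDimension.exists_isStandardSmoothOfRelativeDimension (n := g) (f := f) x
  obtain rfl : U = ⊤ := by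
    ext p
    simp only [TopologicalSpace.Opens.coe_top, Set.mem_univ, iff_true]
    exact (Subsingleton.elim (α := PrimeSpectrum K) (f.base x) p) ▸ e hxV
  refine ⟨V, hV, hxV, ?_⟩
  have h2 := RingHom.isStandardSmoothOfRelativeDimension_respectsIso.2 _
    (Scheme.ΓSpecIso (CommRingCat.of K)).symm.commRingCatIsoToRingEquiv he
  exact h2

variable (G : CommLaw K f)

/-- A constant point. -/
def CommLaw.const (a : G.Pt (𝟙 (Spec (CommRingCat.of K)))) {T : Scheme.{u}}
    (t : T ⟶ Spec (CommRingCat.of K)) : G.Pt t :=
  G.comp t (Category.comp_id t) a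

/-- Translation by a rational point. -/
def CommLaw.transl (a : G.Pt (𝟙 (Spec (CommRingCat.of K)))) : A ⟶ A :=
  (G.idPt + G.const a f).hom

namespace CommLaw

variable {G}

@[simp, reassoc] lemma transl_comp (a : G.Pt (𝟙 (Spec (CommRingCat.of K)))) :
    G.transl a ≫ f = f :=
  Pt.hom_comp (G.idPt + G.const a f)

lemma hom_comp_transl {T : Scheme.{u}} {t : T ⟶ Spec (CommRingCat.of K)} (x : G.Pt t)
    (a : G.Pt (𝟙 (Spec (CommRingCat.of K)))) : x.hom ≫ G.transl a = (x + G.const a t).hom := by
  have hc : G.comp x.hom x.hom_comp (G.const a f) = G.const a t := by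
    apply Pt.ext
    simp only [const, comp_hom]
    rw [← Category.assoc, x.hom_comp]
  calc x.hom ≫ G.transl a = (G.comp x.hom x.hom_comp (G.idPt + G.const a f)).hom := rfl
    _ = _ := by rw [map_add, comp_idPt, hc]

lemma transl_transl (a b : G.Pt (𝟙 (Spec (CommRingCat.of K)))) :
    G.transl a ≫ G.transl b = G.transl (a + b) := by
  rw [transl, hom_comp_transl, transl, add_assoc]
  congr 2
  exact (map_add (G.comp f (Category.comp_id f)) a b).symm

lemma transl_zero : G.transl 0 = 𝟙 A := by
  rw [transl]
  have : G.const 0 f = 0 := map_zero (G.comp f (Category.comp_id f))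
  rw [this, add_zero]
  rfl

instance isIso_transl (a : G.Pt (𝟙 (Spec (CommRingCat.of K)))) : IsIso (G.transl a) :=
  ⟨G.transl (-a), by rw [transl_transl, add_neg_cancel, transl_zero],
    by rw [transl_transl, neg_add_cancel, transl_zero]⟩

/-- The closed point of `A` under a rational point. -/
def pt (x : G.Pt (𝟙 (Spec (CommRingCat.of K)))) : A := x.hom.base (IsLocalRing.closedPoint K)

lemma transl_pt (x a : G.Pt (𝟙 (Spec (CommRingCat.of K)))) :
    (G.transl a).base (pt x) = pt (x + a) := by
  have h : G.const a (𝟙 (Spec (CommRingCat.of K))) = a := by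
    ext; simp [const]
  show (G.transl a).base (x.hom.base (IsLocalRing.closedPoint K)) = _
  erw [← Scheme.Hom.comp_apply, hom_comp_transl, h]
  rfl

section Closed

variable [IsAlgClosed K] [LocallyOfFiniteType f]

lemma exists_pt_eq {y : A} (hy : IsClosed {y}) :
    ∃ x : G.Pt (𝟙 (Spec (CommRingCat.of K))), pt x = y :=
  ⟨Pt.mk G (pointOfClosedPoint f y hy) (pointOfClosedPoint_comp f y hy),
    pointOfClosedPoint_apply f y hy _⟩

lemma isClosed_pt (x : G.Pt (𝟙 (Spec (CommRingCat.of K)))) : IsClosed {pt x} :=
  (pointEquivClosedPoint f ⟨x.hom, x.hom_comp⟩).2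

lemma pt_injective : Function.Injective (pt (G := G)) := by
  intro x y h
  have := (pointEquivClosedPoint f).injective (a₁ := ⟨x.hom, x.hom_comp⟩)
    (a₂ := ⟨y.hom, y.hom_comp⟩) (Subtype.ext h)
  exact Pt.ext (congrArg Subtype.val this)

end Closed

end CommLaw

theorem isIntegral_abelian [IsAlgClosed K] (hA : AbelianSchemePropertyBundle K f) (g : ℕ)
    [SmoothOfRelativeDimension g f] (G : CommLaw K f) : IsIntegral A :=
  isIntegral_of_bundle hA G.law g

end FLTA.AbelianVar
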