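import Fermat.Agent.AbelianVar.DivisorAffine
import Fermat.Agent.AbelianVar.Geometry

/-!
# A symmetric divisor with affine complement on an abelian variety
-/

set_option autoImplicit false

open CategoryTheory CategoryTheory.Limits AlgebraicGeometry TopologicalSpace NeronModelInfra
  GoodReductionJacobian

noncomputable section

universe u

namespace FLTA.AbelianVar

section Generic

open RF

variable {X Y : Scheme.{u}} [AlgebraicGeometry.IsIntegral X] [AlgebraicGeometry.IsIntegral Y]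

lemma genericPoint_map_of_isIso (φ : X ⟶ Y) [IsIso φ] :
    φ.base (genericPoint X) = genericPoint Y :=
  genericPoint_eq_of_isOpenImmersion φ

/-- Every rational function is a fraction of two sections of an affine open. -/
lemma exists_ff_eq (a : X.functionField) :
    ∃ (W : X.Opens) (hW : genericPoint X ∈ W) (s : Γ(X, W)), ff hW s = a := by
  obtain ⟨W, hW, s, hs⟩ := X.presheaf.exists_germ_eq a
  exact ⟨W, hW, s, hs⟩

lemma ffMap_ff' (φ : X ⟶ Y) (hφ : φ.base (genericPoint X) = genericPoint Y) {W : Y.Opens}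
    {V : X.Opens} (e : V ≤ φ ⁻¹ᵁ W) {x : X} (hx : x ∈ V) {y : Y} (hy : y ∈ W) (s : Γ(Y, W)) :
    ffMap φ hφ (ff hy s) = ff hx (pb φ e s) :=
  ffMap_ff (hφ := hφ) e hx s

/-- The pullback along an involution is an involution. -/
lemma ffMap_ffMap_of_involutive {σ : X ⟶ X} (hσ : σ ≫ σ = 𝟙 X)
    (hη : σ.base (genericPoint X) = genericPoint X) (a : X.functionField) :
    ffMap σ hη (ffMap σ hη a) = a := by
  obtain ⟨W, hW, s, rfl⟩ := exists_ff_eq a
  have hηW : genericPoint X ∈ σ ⁻¹ᵁ W := by show σ.base _ ∈ W; rw [hη]; exact hW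
  rw [ffMap_ff' σ hη (V := σ ⁻¹ᵁ W) le_rfl hηW hW]
  have hle : W ≤ σ ⁻¹ᵁ (σ ⁻¹ᵁ W) := by
    rw [← Scheme.Hom.comp_preimage, hσ]
    exact le_rfl
  rw [ffMap_ff' σ hη hle hW hηW]
  congr 1
  simp only [pb, ← CommRingCat.comp_apply, Scheme.Hom.appLE_comp_appLE]
  have : ∀ (ψ : X ⟶ X) (hψ : W ≤ ψ ⁻¹ᵁ W), ψ = 𝟙 X → (ψ.appLE W W hψ).hom s = s := by
    rintro ψ hψ rfl
    simp only [Scheme.Hom.appLE, Scheme.Hom.id_app]
    erw [Category.id_comp]
    exact rs_self _ _
  exact this _ _ hσ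

end Generic

variable {K : Type u} [Field K] {A : Scheme.{u}} {f : A ⟶ Spec (CommRingCat.of K)}

namespace CommLaw

variable (G : CommLaw K f)

/-- The inversion. -/
def negN : A ⟶ A := (-G.idPt).hom

@[simp, reassoc] lemma negN_comp : G.negN ≫ f = f := Pt.hom_comp (-G.idPt)

lemma hom_comp_negN {T : Scheme.{u}} {t : T ⟶ Spec (CommRingCat.of K)} (x : G.Pt t) :
    x.hom ≫ G.negN = (-x).hom := by
  rw [negN, ← G.comp_hom x.hom x.hom_comp, map_neg, comp_idPt]

lemma negN_negN : G.negN ≫ G.negN = 𝟙 A := by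
  have h := hom_comp_negN G (-G.idPt)
  rw [neg_neg] at h
  exact h

instance isIso_negN : IsIso G.negN := ⟨G.negN, G.negN_negN, G.negN_negN⟩

lemma negN_base_negN (x : A) : G.negN.base (G.negN.base x) = x := by
  rw [← Scheme.Hom.comp_apply, G.negN_negN]
  rfl

end CommLaw

/-- Symmetric local equations of a divisor with affine complement `U`. -/
structure SymDivisor (G : CommLaw K f) [AlgebraicGeometry.IsIntegral A] extends AffineDivisor f where
  symm : Pic.pull G.negN toAffineDivisor.D.cls = toAffineDivisor.D.cls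

open RF in
/-- Two systems of local equations for the same set give isomorphic bundles. -/
lemma cls_eq_of_isEqn {X : Scheme.{u}} [AlgebraicGeometry.IsIntegral X] (D D' : RF.Data X)
    (T : Finset X.functionField) (h : ∀ x, ∀ y ∈ D.U x, IsEqn y T (D.t x))
    (h' : ∀ x, ∀ y ∈ D'.U x, IsEqn y T (D'.t x)) : D.cls = D'.cls := by
  have hr : ∀ x, D.t x * (D'.t x)⁻¹ ∈ Reg (D.U x ⊓ D'.U x) := fun x =>
    mem_Reg.2 fun y hy => (h x y hy.1).mul_inv_mem (h' x y hy.2)
  have hr' : ∀ x, D'.t x * (D.t x)⁻¹ ∈ Reg (D.U x ⊓ D'.U x) := fun x =>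
    mem_Reg.2 fun y hy => (h' x y hy.2).mul_inv_mem (h x y hy.1)
  refine Quotient.sound ⟨{
    V := fun x => D.U x ⊓ D'.U x
    mem := fun x => ⟨D.mem x, D'.mem x⟩
    leL := fun x => inf_le_left
    leM := fun x => inf_le_right
    u := fun x => sec _ _ (hr x)
    isUnit := fun x => IsUnit.of_mul_eq_one (sec _ _ (hr' x)) (sec_ext fun z hz => by
      rw [map_mul, ff_sec, ff_sec, map_one, mul_assoc, inv_mul_cancel_left₀ (D'.t_ne x),
        mul_inv_cancel₀ (D.t_ne x)])
    comm := fun x y W hx hy => sec_ext fun z hz => by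
      have hxD : W ≤ D.U x := hx.trans inf_le_left
      have hyD : W ≤ D.U y := hy.trans inf_le_left
      have hxD' : W ≤ D'.U x := hx.trans inf_le_right
      have hyD' : W ≤ D'.U y := hy.trans inf_le_right
      have h1 := Data.ff_g D hxD hyD hz
      have h2 := Data.ff_g D' hxD' hyD' hz
      have h3 : ff hz (rs hx (sec _ _ (hr x))) = D.t x * (D'.t x)⁻¹ :=
        (ff_rs hx hz _).trans (ff_sec _ _)
      have h4 : ff hz (rs hy (sec _ _ (hr y))) = D.t y * (D'.t y)⁻¹ :=
        (ff_rs hy hz _).trans (ff_sec _ _)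
      show ff hz (D.toLB.g x y W hxD hyD * rs hy (sec _ _ (hr y))) =
        ff hz (rs hx (sec _ _ (hr x)) * D'.toLB.g x y W hxD' hyD')
      rw [map_mul, map_mul, h1, h2, h3, h4, mul_assoc, inv_mul_cancel_left₀ (D.t_ne y),
        mul_assoc, inv_mul_cancel_left₀ (D'.t_ne x)] }⟩

open RF in
/-- A symmetric divisor with affine complement exists. -/
theorem nonempty_symDivisor [IsAlgClosed K] (G : CommLaw K f) [AlgebraicGeometry.IsIntegral A]
    [IsProper f] (g : ℕ) [SmoothOfRelativeDimension g f] : Nonempty (SymDivisor G) := by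
  classical
  let σ := G.negN
  have hσ : σ.base (genericPoint A) = genericPoint A := genericPoint_map_of_isIso G.negN
  have : A.IsSeparated := ⟨by
    rw [Subsingleton.elim (terminal.from A) (f ≫ terminal.from _)]
    infer_instance⟩
  obtain ⟨_, ⟨U₀, hU₀, rfl⟩, hηU₀, -⟩ :=
    A.isBasis_affineOpens.exists_subset_of_mem_open (Set.mem_univ (genericPoint A)) isOpen_univ
  let U := U₀ ⊓ σ ⁻¹ᵁ U₀
  have hU : IsAffineOpen U := hU₀.inf (hU₀.preimage_of_isIso σ)
  have hη : genericPoint A ∈ U := ⟨hηU₀, by show σ.base _ ∈ U₀; rw [hσ]; exact hηU₀⟩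
  have hUσ : σ ⁻¹ᵁ U = U := by
    rw [Scheme.Hom.preimage_inf, ← Scheme.Hom.comp_preimage, G.negN_negN]
    exact inf_comm _ _
  obtain ⟨S, hS⟩ := exists_generators f hU hη
  let φσ := ffMap σ hσ
  let T : Finset A.functionField := S.image (ff hη) ∪ S.image (fun s => φσ (ff hη s))
  have hTσ : ∀ t ∈ T, φσ t ∈ T := by
    intro t ht
    rcases Finset.mem_union.1 ht with ht | ht <;> obtain ⟨s, hs, rfl⟩ := Finset.mem_image.1 ht
    · exact Finset.mem_union_right _ (Finset.mem_image_of_mem _ hs)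
    · rw [ffMap_ffMap_of_involutive G.negN_negN hσ]
      exact Finset.mem_union_left _ (Finset.mem_image_of_mem _ hs)
  have hTU : ∀ y ∈ U, ∀ t ∈ T, t ∈ stalkRange y := by
    intro y hy t ht
    rcases Finset.mem_union.1 ht with ht | ht <;> obtain ⟨s, hs, rfl⟩ := Finset.mem_image.1 ht
    · exact mem_Reg.1 (ff_mem_Reg hη s) y hy
    · refine mem_Reg.1 (ffMap_mem_Reg (hφ := hσ) (ff_mem_Reg hη s)) y ?_
      rw [hUσ]; exact hy
  obtain ⟨E, hEU, hET⟩ := exists_affineDivisor f g hU hη T hTU fun a ha => by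
    letI := ffAlgebra f
    refine Algebra.adjoin_mono ?_ (hS a ha)
    rintro _ ⟨z, hz, rfl⟩
    exact Finset.mem_union_left _ (Finset.mem_image_of_mem _ hz)
  have hb := E.isEqn
  have hsymm : Pic.pull G.negN E.D.cls = E.D.cls := by
    rw [← Data.cls_pull G.negN hσ]
    rw [hET] at hb
    refine cls_eq_of_isEqn _ _ T (fun x y hy => ?_) hb
    obtain ⟨h0, ⟨h1, h2⟩, h3⟩ := hb (σ.base x) (σ.base y) hy
    refine ⟨(Data.pull G.negN hσ E.D).t_ne x, ⟨ffMap_mem_O h1, fun t ht => ?_⟩, fun a ha => ?_⟩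
    · have h := ffMap_mem_O (hφ := hσ) (x := y) (h2 _ (hTσ t ht))
      rw [map_mul, ffMap_ffMap_of_involutive G.negN_negN hσ] at h
      exact h
    · have hy' : σ.base (σ.base y) = y := G.negN_base_negN y
      have hto : ∀ z ∈ stalkRange y, φσ z ∈ stalkRange (σ.base y) := fun z hz =>
        ffMap_mem_O (hφ := hσ) (x := σ.base y) (by rw [hy']; exact hz)
      have h := h3 (φσ a) ⟨hto _ ha.1, fun t ht => by
        have h := hto _ (ha.2 _ (hTσ t ht))
        rw [map_mul, ffMap_ffMap_of_involutive G.negN_negN hσ] at h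
        exact h⟩
      have h' := ffMap_mem_O (hφ := hσ) (x := y) h
      rw [map_mul, map_inv₀, ffMap_ffMap_of_involutive G.negN_negN hσ] at h'
      exact h'
  exact ⟨{ toAffineDivisor := E, symm := hsymm }⟩

end FLTA.AbelianVar
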