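import Fermat.Agent.AbelianVar.TrdegBasics
import Mathlib.RingTheory.Valuation.LocalSubring
import Mathlib.RingTheory.Ideal.UFD
import Mathlib.RingTheory.Ideal.GoingDown
import Mathlib.RingTheory.IntegralClosure.GoingDown
import Mathlib.RingTheory.Artinian.Module
import Mathlib.RingTheory.Nakayama
import Mathlib.RingTheory.FiniteType
import Mathlib.RingTheory.Localization.AtPrime.Basic
import Mathlib.RingTheory.Polynomial.UniqueFactorization
import Mathlib.RingTheory.Polynomial.RationalRoot

/-!
# Local factoriality at smooth rational points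

If `B` is an affine domain of transcendence degree `g` over a field `K` and `m` is a rational
maximal ideal whose cotangent space is spanned by `g` elements, then `B_m` is factorial.

The proof: a height one prime `P` through `m` maps, near `m`, isomorphically to a hypersurface
`h = 0` in affine `g`-space under a suitable projection `t_i = u_i ^ N + e_i`, and then `P = (h)`.
-/

set_option autoImplicit false

universe u

namespace FLTA.AbelianVar

section Modification

variable {R : Type*} [CommRing R] {L : Type*} [Field L]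

/-- An element integral over a ring mapping into a valuation subring lies in it. -/
theorem mem_valuationSubring_of_isIntegralElem (ψ : R →+* L) (V : ValuationSubring L)
    (hV : ∀ r, ψ r ∈ V) {x : L} (hx : ψ.IsIntegralElem x) : x ∈ V := by
  obtain ⟨p, hp, hpx⟩ := hx
  let ψV : R →+* V := ψ.codRestrict V.toSubring hV
  have h : IsIntegral V x :=
    ⟨p.map ψV, hp.map ψV, by rw [Polynomial.eval₂_map]; exact hpx⟩
  obtain ⟨y, hy⟩ := IsIntegrallyClosed.isIntegral_iff.mp h
  exact hy ▸ y.2

/-- An element in all valuation subrings containing the image of a ring is integral over it. -/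
theorem isIntegralElem_of_forall_valuationSubring (ψ : R →+* L) {x : L}
    (h : ∀ V : ValuationSubring L, (∀ r, ψ r ∈ V) → x ∈ V) : ψ.IsIntegralElem x := by
  have hmem : x ∈ (⨅ V : {V : ValuationSubring L // (ψ.range : Set L) ⊆ V.toSubring},
      V.1.toSubring) :=
    Subring.mem_iInf.mpr fun V => h V.1 fun r => V.2 ⟨r, rfl⟩
  rw [iInf_valuationSubring_superset, Subring.closure_eq] at hmem
  obtain ⟨p, hp, hpx⟩ := hmem
  have hlift : p ∈ Polynomial.lifts ψ.rangeRestrict :=
    (Polynomial.lifts_iff_coeff_lifts p).mpr fun k => ψ.rangeRestrict_surjective _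
  obtain ⟨q, hqp, -, hq⟩ := Polynomial.lifts_and_degree_eq_and_monic hlift hp
  refine ⟨q, hq, ?_⟩
  rw [← hqp, Polynomial.eval₂_map] at hpx
  exact hpx

end Modification

section Valuation

variable {K : Type*} [Field K] {ι : Type*} {L : Type*} [Field L]
  {Γ : Type*} [LinearOrderedCommGroupWithZero Γ]

/-- A polynomial of total degree `d` takes values bounded by `M ^ d`. -/
theorem valuation_eval₂_le (v : Valuation L Γ) (c : K →+* L) (hc : ∀ r, v (c r) ≤ 1)
    (u : ι → L) {M : Γ} (hM : 1 ≤ M) (hu : ∀ i, v (u i) ≤ M) (F : MvPolynomial ι K) :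
    v (MvPolynomial.eval₂ c u F) ≤ M ^ F.totalDegree := by
  rw [MvPolynomial.eval₂_eq]
  refine v.map_sum_le fun d hd => ?_
  rw [map_mul, map_prod]
  calc v (c (F.coeff d)) * ∏ i ∈ d.support, v (u i ^ d i)
      ≤ 1 * ∏ i ∈ d.support, M ^ d i := by
        refine mul_le_mul' (hc _) (Finset.prod_le_prod' fun i _ => ?_)
        rw [map_pow]
        exact pow_le_pow_left' (hu i) _
    _ = M ^ (d.sum fun _ k => k) := by
        rw [one_mul, Finset.prod_pow_eq_pow_sum, Finsupp.sum]
    _ ≤ M ^ F.totalDegree := pow_le_pow_right' hM (MvPolynomial.le_totalDegree hd)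

/-- A root of a monic polynomial is bounded by any bound `≥ 1` of the coefficients. -/
theorem valuation_le_of_monic_root {R : Type*} [CommRing R] (v : Valuation L Γ) (ψ : R →+* L)
    {p : Polynomial R} (hp : p.Monic) {x : L} (hx : p.eval₂ ψ x = 0) {M : Γ} (hM : 1 ≤ M)
    (hcoeff : ∀ k, v (ψ (p.coeff k)) ≤ M) : v x ≤ M := by
  by_contra hlt
  rw [not_le] at hlt
  have h1 : 1 ≤ v x := hM.trans hlt.le
  have hx0 : 0 < v x := lt_of_lt_of_le zero_lt_one h1
  rw [Polynomial.eval₂_eq_sum_range, Finset.sum_range_succ, hp.coeff_natDegree, map_one,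
    one_mul, add_eq_zero_iff_eq_neg] at hx
  have hsum : v (∑ i ∈ Finset.range p.natDegree, ψ (p.coeff i) * x ^ i) <
      v x ^ p.natDegree := by
    refine v.map_sum_lt (pow_ne_zero _ hx0.ne') fun i hi => ?_
    rw [map_mul, map_pow]
    calc v (ψ (p.coeff i)) * v x ^ i ≤ M * v x ^ i := mul_le_mul' (hcoeff i) le_rfl
      _ < v x * v x ^ i := mul_lt_mul_of_pos_right hlt (pow_pos hx0 _)
      _ = v x ^ (i + 1) := (pow_succ' _ _).symm
      _ ≤ v x ^ p.natDegree := pow_le_pow_right' h1 (Finset.mem_range.mp hi)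
  rw [hx, v.map_neg, map_pow] at hsum
  exact lt_irrefl _ hsum

end Valuation

variable {K : Type u} [Field K]

/-- Changing the parameters `u` of an integral extension to `u ^ N + e` keeps it integral,
for `N` large. -/
theorem exists_isIntegral_pow_add {D : Type u} [CommRing D] [IsDomain D] [Algebra K D] {n : ℕ}
    (u e : Fin n → D) (hu : (MvPolynomial.aeval (R := K) u).toRingHom.IsIntegral) :
    ∃ N₀, ∀ N, N₀ ≤ N →
      (MvPolynomial.aeval (R := K) fun i => u i ^ N + e i).toRingHom.IsIntegral := by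
  choose p hp hpe using fun i => hu (e i)
  let c : ℕ := Finset.univ.sup fun i =>
    (p i).support.sup fun k => ((p i).coeff k).totalDegree
  refine ⟨c + 1, fun N hN x => ?_⟩
  let L := FractionRing D
  let ι' : D →+* L := algebraMap D L
  let ψu := ι'.comp (MvPolynomial.aeval (R := K) u).toRingHom
  let ψt := ι'.comp (MvPolynomial.aeval (R := K) fun i => u i ^ N + e i).toRingHom
  suffices h : ψt.IsIntegralElem (ι' x) by
    obtain ⟨q, hq, hqx⟩ := h
    refine ⟨q, hq, IsFractionRing.injective D L ?_⟩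
    rw [Polynomial.hom_eval₂, map_zero]
    exact hqx
  refine isIntegralElem_of_forall_valuationSubring ψt fun V hV => ?_
  suffices hV' : ∀ r, ψu r ∈ V by
    refine mem_valuationSubring_of_isIntegralElem ψu V hV' ?_
    obtain ⟨q, hq, hqx⟩ := hu x
    refine ⟨q, hq, ?_⟩
    rw [show ψu = ι'.comp _ from rfl, ← Polynomial.hom_eval₂, hqx, map_zero]
  have hK : ∀ r : K, V.valuation (ι' (algebraMap K D r)) ≤ 1 := by
    intro r
    rw [V.valuation_le_one_iff]
    simpa [ψt] using hV (MvPolynomial.C r)
  have heval : ∀ F, ψu F =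
      MvPolynomial.eval₂ (ι'.comp (algebraMap K D)) (fun i => ι' (u i)) F := by
    intro F
    show ι' (MvPolynomial.aeval u F) = _
    rw [MvPolynomial.aeval_def]
    exact MvPolynomial.eval₂_comp_left ι' _ u F
  classical
  let S : Finset V.ValueGroup :=
    insert 1 (Finset.univ.image fun i => V.valuation (ι' (u i)))
  let M := S.max' ⟨1, Finset.mem_insert_self _ _⟩
  have hM1 : 1 ≤ M := S.le_max' _ (Finset.mem_insert_self _ _)
  have huM : ∀ i, V.valuation (ι' (u i)) ≤ M := fun i =>
    S.le_max' _ (Finset.mem_insert_of_mem (Finset.mem_image_of_mem _ (Finset.mem_univ i)))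
  have hbound : ∀ F, V.valuation (ψu F) ≤ M ^ F.totalDegree := fun F => by
    rw [heval]; exact valuation_eval₂_le _ _ hK _ hM1 huM F
  intro r
  rw [← V.valuation_le_one_iff]
  suffices hM : M = 1 by simpa [hM] using hbound r
  rcases Finset.mem_insert.mp (S.max'_mem ⟨1, Finset.mem_insert_self _ _⟩) with h | h
  · exact h
  obtain ⟨i, -, hi⟩ := Finset.mem_image.mp h
  change V.valuation (ι' (u i)) = M at hi
  by_contra hne
  have hlt : 1 < M := lt_of_le_of_ne hM1 (Ne.symm hne)
  have hei : V.valuation (ι' (e i)) ≤ M ^ c := by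
    refine valuation_le_of_monic_root _ ψu (hp i) ?_ (one_le_pow_of_one_le' hM1 c) fun k => ?_
    · rw [show ψu = ι'.comp _ from rfl, ← Polynomial.hom_eval₂, hpe i, map_zero]
    by_cases hk : k ∈ (p i).support
    · exact (hbound _).trans (pow_le_pow_right' hM1
        ((Finset.le_sup (f := fun k => ((p i).coeff k).totalDegree) hk).trans
          (Finset.le_sup (f := fun i =>
            (p i).support.sup fun k => ((p i).coeff k).totalDegree) (Finset.mem_univ i))))
    · rw [Polynomial.notMem_support_iff.mp hk, map_zero, map_zero]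
      exact zero_le
  have htV : V.valuation (ι' (u i ^ N + e i)) ≤ 1 := by
    rw [V.valuation_le_one_iff]
    simpa [ψt] using hV (MvPolynomial.X i)
  have hlt' : V.valuation (ι' (e i)) < V.valuation (ι' (u i ^ N)) := by
    rw [map_pow, map_pow, hi]
    exact hei.trans_lt (pow_lt_pow_right₀ hlt (by lia))
  rw [map_add, Valuation.map_add_eq_of_lt_left _ hlt', map_pow, map_pow, hi] at htV
  exact absurd htV (not_le.mpr (one_lt_pow₀ hlt (by lia)))

variable {B : Type u} [CommRing B] [IsDomain B] [Algebra K B] [Algebra.FiniteType K B]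

/-- A height one prime of an affine domain cuts down the transcendence degree by exactly one. -/
theorem le_trdeg_quotient_of_height_eq_one {n : ℕ} (hg : Algebra.trdeg K B = (n + 1 : ℕ))
    (P : Ideal B) [P.IsPrime] (hP : P.height = 1) :
    (n : Cardinal) ≤ Algebra.trdeg K (B ⧸ P) := by
  obtain ⟨s, φ, hinj, hfin⟩ := exists_finite_inj_algHom_of_fg K B
  have hs : s = n + 1 := by
    have := trdeg_eq_of_injective_integral φ hinj hfin.to_isIntegral
    rw [hg, MvPolynomial.trdeg_of_isDomain, Cardinal.mk_fin, Cardinal.lift_natCast] at this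
    exact_mod_cast this
  subst hs
  let _ := φ.toRingHom.toAlgebra
  have _ : FaithfulSMul (MvPolynomial (Fin (n + 1)) K) B :=
    (faithfulSMul_iff_algebraMap_injective _ B).mpr hinj
  have _ : Algebra.IsIntegral (MvPolynomial (Fin (n + 1)) K) B := ⟨hfin.to_isIntegral⟩
  set p := P.under (MvPolynomial (Fin (n + 1)) K) with hp
  have _ : p.IsPrime := by rw [hp]; infer_instance
  have hp0 : p ≠ ⊥ := fun h0 => by
    have := Ideal.eq_bot_of_comap_eq_bot (R := MvPolynomial (Fin (n + 1)) K) h0
    rw [this, Ideal.height_bot] at hP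
    exact zero_ne_one hP
  obtain ⟨h, hmem, hpr⟩ := ‹p.IsPrime›.exists_mem_prime_of_ne_bot hp0
  have _ : (Ideal.span {h}).IsPrime := (Ideal.span_singleton_prime hpr.ne_zero).mpr hpr
  have heq : Ideal.span {h} = p := by
    by_contra hne
    have hlt : Ideal.span {h} < p :=
      lt_of_le_of_ne ((Ideal.span_singleton_le_iff_mem p).mpr hmem) hne
    have _ : P.LiesOver p := ⟨rfl⟩
    obtain ⟨P', hlt', hP', hlo⟩ :=
      Ideal.exists_ideal_lt_liesOver_of_lt (p := Ideal.span {h}) (q := p) P hlt
    have h1 := Ideal.height_add_one_le_of_lt_of_isPrime hlt'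
    rw [hP] at h1
    have h0 : P'.height = 0 := by
      by_contra hne0
      have : (1 : ℕ∞) + 1 ≤ 1 := le_trans (add_le_add (Order.one_le_iff_ne_zero.mpr hne0) le_rfl) h1
      norm_num at this
    rw [Ideal.height_eq_zero_iff, IsDomain.minimalPrimes_eq_singleton_bot,
      Set.mem_singleton_iff] at h0
    subst h0
    have hb := hlo.over
    rw [Ideal.under_bot, Ideal.span_singleton_eq_bot] at hb
    exact hpr.ne_zero hb
  have hh : ∀ r : K, h ≠ MvPolynomial.C r := by
    rintro r rfl
    by_cases hr : r = 0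
    · exact hpr.ne_zero (by rw [hr, map_zero])
    · exact hpr.not_isUnit ((isUnit_iff_ne_zero.mpr hr).map _)
  refine (le_trdeg_quotient_span_singleton h hh).trans ?_
  have hle : Ideal.span {h} ≤ P.comap φ := heq.le
  exact trdeg_le_of_injective (Ideal.quotientMapₐ P φ hle)
    (Ideal.quotientMap_injective' (H := hle) heq.ge)

omit [IsDomain B] in
/-- Parameters `t` exhibiting `B ⧸ P` as finite over affine space, totally "ramified at infinity",
with `m` the scheme theoretic fibre over the origin. -/
theorem exists_projection {n : ℕ} (m : Ideal B) [m.IsMaximal]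
    (hres : ∀ b, ∃ r : K, b - algebraMap K B r ∈ m)
    (e : Fin (n + 1) → B) (he : ∀ i, e i ∈ m) (hspan : m ≤ Ideal.span (Set.range e) ⊔ m ^ 2)
    (P : Ideal B) [P.IsPrime] (hPm : P ≤ m)
    (hD1 : Algebra.trdeg K (B ⧸ P) + 1 ≤ ((n + 1 : ℕ) : Cardinal)) :
    ∃ t : Fin (n + 1) → B, (∀ i, t i ∈ m) ∧ m ≤ Ideal.span (Set.range t) ⊔ m ^ 2 ∧
      P ⊔ Ideal.span (Set.range t) = m ∧
      ((Ideal.Quotient.mkₐ K P).comp (MvPolynomial.aeval t)).toRingHom.IsIntegral := by
  have _ : IsNoetherianRing B := Algebra.FiniteType.isNoetherianRing K B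
  let D := B ⧸ P
  let π : B →ₐ[K] D := Ideal.Quotient.mkₐ K P
  -- parameters for `D` inside `m`
  obtain ⟨u, hum, hu⟩ : ∃ u : Fin n → B, (∀ i, u i ∈ m) ∧
      (MvPolynomial.aeval (R := K) fun i => π (u i)).toRingHom.IsIntegral := by
    obtain ⟨s, φ, hinj, hint⟩ := exists_integral_inj_algHom_of_fg K D
    have hs : s ≤ n := by
      have := trdeg_eq_of_injective_integral φ hinj hint
      rw [MvPolynomial.trdeg_of_isDomain, Cardinal.mk_fin, Cardinal.lift_natCast] at this
      rw [← this] at hD1
      have h' : ((s + 1 : ℕ) : Cardinal.{u}) ≤ ((n + 1 : ℕ) : Cardinal) := by exact_mod_cast hD1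
      exact Nat.succ_le_succ_iff.mp (by exact_mod_cast h')
    choose b hb using fun i : Fin n => Ideal.Quotient.mk_surjective
      (if hi : (i : ℕ) < s then φ (MvPolynomial.X ⟨i, hi⟩) else 0)
    choose r hr using fun i : Fin n => hres (b i)
    refine ⟨fun i => b i - algebraMap K B (r i), hr, fun x => ?_⟩
    obtain ⟨p, hp, hpx⟩ := hint x
    let sub : MvPolynomial (Fin s) K →ₐ[K] MvPolynomial (Fin n) K :=
      MvPolynomial.aeval fun j => MvPolynomial.X (j.castLE hs) + MvPolynomial.C (r (j.castLE hs))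
    have hcomp : (MvPolynomial.aeval (R := K) fun i => π (b i - algebraMap K B (r i))).comp sub
        = φ := by
      refine MvPolynomial.algHom_ext fun j => ?_
      simp only [sub, AlgHom.comp_apply, MvPolynomial.aeval_X, map_add, MvPolynomial.aeval_C,
        map_sub, AlgHom.commutes, sub_add_cancel]
      rw [show π (b (j.castLE hs)) = _ from hb _, dif_pos (by simp)]
      rfl
    refine ⟨p.map sub.toRingHom, hp.map _, ?_⟩
    rw [Polynomial.eval₂_map]
    have : ((MvPolynomial.aeval (R := K) fun i => π (b i - algebraMap K B (r i))).toRingHom).comp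
        sub.toRingHom = φ.toRingHom := congrArg AlgHom.toRingHom hcomp
    rw [this]
    exact hpx
  obtain ⟨N₀, hN⟩ := exists_isIntegral_pow_add (fun i => π (u i))
    (fun i => π (e i.castSucc)) hu
  let t' : Fin n → B := fun i => u i ^ (N₀ + 2) + e i.castSucc
  have ht' : (MvPolynomial.aeval (R := K) fun i => π (t' i)).toRingHom.IsIntegral := by
    simpa [t'] using hN (N₀ + 2) (by lia)
  have ht'e : ∀ i, t' i - e i.castSucc ∈ m ^ 2 := fun i => by
    simp only [t', add_sub_cancel_right]
    exact Ideal.pow_le_pow_right (by lia) (Ideal.pow_mem_pow (hum i) _)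
  have ht'm : ∀ i, t' i ∈ m := fun i =>
    (Submodule.sub_mem_iff_left m (he _)).mp (Ideal.pow_le_self two_ne_zero (ht'e i))
  -- the fibre of `t'` on `D` is finite
  let J : Ideal B := P ⊔ Ideal.span (Set.range t')
  have hJint : Algebra.IsIntegral K (B ⧸ J) := ⟨fun y => by
    obtain ⟨b, rfl⟩ := Ideal.Quotient.mk_surjective y
    obtain ⟨p, hp, hpx⟩ := ht' (π b)
    refine ⟨p.map MvPolynomial.constantCoeff, hp.map _, ?_⟩
    let σ : D →+* B ⧸ J := Ideal.Quotient.factor le_sup_left
    have hσ := congrArg σ hpx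
    rw [Polynomial.hom_eval₂, map_zero] at hσ
    rw [Polynomial.eval₂_map]
    have hc : σ.comp (MvPolynomial.aeval (R := K) fun i => π (t' i)).toRingHom
        = (algebraMap K (B ⧸ J)).comp MvPolynomial.constantCoeff := by
      refine MvPolynomial.ringHom_ext (fun a => ?_) (fun i => ?_)
      · simp only [RingHom.comp_apply, AlgHom.toRingHom_eq_coe, AlgHom.coe_toRingHom,
          MvPolynomial.aeval_C, MvPolynomial.constantCoeff_C]
        rfl
      · simp only [RingHom.comp_apply, AlgHom.toRingHom_eq_coe, AlgHom.coe_toRingHom,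
          MvPolynomial.aeval_X, MvPolynomial.constantCoeff_X, map_zero]
        exact Ideal.Quotient.eq_zero_iff_mem.mpr
          (le_sup_right (a := P) (Ideal.subset_span ⟨i, rfl⟩))
    rwa [hc] at hσ⟩
  have _ : Module.Finite K (B ⧸ J) := Algebra.IsIntegral.finite
  have _ : IsArtinianRing (B ⧸ J) := IsArtinianRing.of_finite K (B ⧸ J)
  let others : Set (Ideal B) := {M | M.IsMaximal ∧ J ≤ M ∧ M ≠ m}
  have hothers : others.Finite := by
    refine Set.Finite.subset ((IsArtinianRing.setOfPred_isMaximal_finite (B ⧸ J)).image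
      (Ideal.comap (Ideal.Quotient.mk J))) ?_
    rintro M ⟨hM, hJM, -⟩
    exact ⟨M.map (Ideal.Quotient.mk J),
      (Ideal.map_eq_top_or_isMaximal_of_surjective (Ideal.Quotient.mk J) Ideal.Quotient.mk_surjective hM).resolve_left
        (fun htop => hM.ne_top (by
          have h1 := congrArg (Ideal.comap (Ideal.Quotient.mk J)) htop
          rwa [Ideal.comap_map_quotientMk, Ideal.comap_top, sup_eq_right.mpr hJM] at h1)),
      by rw [Ideal.comap_map_quotientMk]; exact sup_eq_right.mpr hJM⟩
  obtain ⟨z, hze, hz⟩ : ∃ z, z - e (Fin.last n) ∈ m ^ 2 ∧ ∀ M ∈ others, z ∉ M := by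
    have hcop : IsCoprime (m ^ 2) (hothers.toFinset.inf id) := by
      rw [Ideal.isCoprime_iff_sup_eq, Finset.inf_eq_iInf]
      refine Ideal.sup_iInf_eq_top fun M hM => ?_
      rw [Set.Finite.mem_toFinset] at hM
      exact (Ideal.isCoprime_iff_sup_eq.mp
        (have := hM.1; (Ideal.isCoprime_of_isMaximal (Ne.symm hM.2.2)).pow_left))
    obtain ⟨b, hb, a, ha, hab⟩ := Ideal.isCoprime_iff_exists.mp hcop
    refine ⟨e (Fin.last n) * a + b, ?_, fun M hM hmem => ?_⟩
    · have : e (Fin.last n) * a + b - e (Fin.last n) = b * (1 - e (Fin.last n)) := by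
        linear_combination e (Fin.last n) * hab
      rw [this]
      exact Ideal.mul_mem_right _ _ hb
    · have haM : a ∈ M := by
        have := Finset.inf_le (f := id) (hothers.mem_toFinset.mpr hM) ha
        exact this
      have hbM : b ∈ M := by
        simpa using M.sub_mem hmem (M.mul_mem_left (e (Fin.last n)) haM)
      exact hM.1.ne_top ((Ideal.eq_top_iff_one M).mpr (hab ▸ M.add_mem hbM haM))
  let t : Fin (n + 1) → B := Fin.snoc t' z
  have hte : ∀ i, t i - e i ∈ m ^ 2 := Fin.lastCases (by simpa [t] using hze)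
    (fun i => by simpa [t] using ht'e i)
  have htm : ∀ i, t i ∈ m := fun i =>
    (Submodule.sub_mem_iff_left m (he _)).mp (Ideal.pow_le_self two_ne_zero (hte i))
  have hspan_t : m ≤ Ideal.span (Set.range t) ⊔ m ^ 2 := by
    refine hspan.trans (sup_le (Ideal.span_le.mpr ?_) le_sup_right)
    rintro _ ⟨i, rfl⟩
    rw [show e i = t i - (t i - e i) by ring]
    exact Submodule.sub_mem _ (le_sup_left (b := m ^ 2) (Ideal.subset_span ⟨i, rfl⟩))
      (le_sup_right (a := Ideal.span (Set.range t)) (hte i))
  -- the point is cut out scheme theoretically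
  let I : Ideal B := P ⊔ Ideal.span (Set.range t)
  have hJI : J ≤ I := sup_le_sup_left (Ideal.span_mono (by
    rintro _ ⟨i, rfl⟩; exact ⟨i.castSucc, by simp [t]⟩)) P
  have hIm : I = m := by
    refine le_antisymm (sup_le hPm (Ideal.span_le.mpr (by rintro _ ⟨i, rfl⟩; exact htm i))) ?_
    have hrad : m ≤ I.radical := by
      rw [Ideal.radical_eq_sInf]
      refine le_sInf fun q hq => ?_
      obtain ⟨hIq, hqp⟩ := hq
      have hmax : q.IsMaximal := by
        let qJ := q.map (Ideal.Quotient.mk J)
        have _ : qJ.IsPrime := Ideal.map_isPrime_of_surjective Ideal.Quotient.mk_surjective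
          (by rw [Ideal.mk_ker]; exact hJI.trans hIq)
        have hc : qJ.comap (Ideal.Quotient.mk J) = q := by
          rw [Ideal.comap_map_quotientMk]; exact sup_eq_right.mpr (hJI.trans hIq)
        rw [← hc]
        have := IsArtinianRing.isMaximal_of_isPrime qJ
        exact Ideal.comap_isMaximal_of_surjective _ Ideal.Quotient.mk_surjective
      by_contra hne
      refine hz q ⟨hmax, hJI.trans hIq, fun h => hne h.ge⟩ ?_
      exact hIq (le_sup_right (a := P) (Ideal.subset_span ⟨Fin.last n, by simp [t]⟩))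
    obtain ⟨k, hk⟩ := Ideal.exists_pow_le_of_le_radical_of_fg hrad (IsNoetherian.noetherian m)
    have hstep : ∀ j, m ≤ I ⊔ m ^ (j + 1) := by
      intro j
      induction j with
      | zero => simp
      | succ j ih =>
        refine ih.trans (sup_le le_sup_left ?_)
        calc m ^ (j + 1) = m * m ^ j := by rw [pow_succ']
          _ ≤ (I ⊔ m ^ 2) * m ^ j := Ideal.mul_mono_left
              (hspan_t.trans (sup_le_sup_right le_sup_right _))
          _ ≤ I ⊔ m ^ (j + 1 + 1) := by
              rw [Ideal.sup_mul]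
              exact sup_le_sup Ideal.mul_le_left (by rw [← pow_add]; exact le_of_eq (by ring_nf))
    exact (hstep k).trans (sup_le le_rfl ((Ideal.pow_le_pow_right (by lia)).trans hk))
  let φ : MvPolynomial (Fin (n + 1)) K →ₐ[K] B := MvPolynomial.aeval t
  let ψ : MvPolynomial (Fin (n + 1)) K →ₐ[K] D := π.comp φ
  have hψint : ψ.toRingHom.IsIntegral := by
    intro x
    obtain ⟨p, hp, hpx⟩ := ht' x
    refine ⟨p.map (MvPolynomial.rename Fin.castSucc).toRingHom, hp.map _, ?_⟩
    rw [Polynomial.eval₂_map]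
    have hc : ψ.comp (MvPolynomial.rename Fin.castSucc)
        = MvPolynomial.aeval (R := K) fun i => π (t' i) := by
      refine MvPolynomial.algHom_ext fun i => ?_
      simp [ψ, φ, t]
    have : ψ.toRingHom.comp (MvPolynomial.rename Fin.castSucc).toRingHom
        = (MvPolynomial.aeval (R := K) fun i => π (t' i)).toRingHom :=
      congrArg AlgHom.toRingHom hc
    rw [this]
    exact hpx
  exact ⟨t, htm, hspan_t, hIm, hψint⟩

omit [IsDomain B] in
/-- Near the origin, the projection of `B ⧸ P` is surjective on functions. -/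
theorem exists_denominator {n : ℕ} (m : Ideal B) [m.IsMaximal]
    (hres : ∀ b, ∃ r : K, b - algebraMap K B r ∈ m)
    (P : Ideal B) [P.IsPrime] (t : Fin (n + 1) → B) (htm : ∀ i, t i ∈ m)
    (hIm : P ⊔ Ideal.span (Set.range t) = m)
    (hψint : ((Ideal.Quotient.mkₐ K P).comp (MvPolynomial.aeval t)).toRingHom.IsIntegral) :
    ∃ s : MvPolynomial (Fin (n + 1)) K, MvPolynomial.aeval t s ∉ m ∧
      ∀ b : B, ∃ p : MvPolynomial (Fin (n + 1)) K,
        MvPolynomial.aeval t s * b - MvPolynomial.aeval t p ∈ P := by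
  let D := B ⧸ P
  let π : B →ₐ[K] D := Ideal.Quotient.mkₐ K P
  let φ : MvPolynomial (Fin (n + 1)) K →ₐ[K] B := MvPolynomial.aeval t
  let ψ : MvPolynomial (Fin (n + 1)) K →ₐ[K] D := π.comp φ
  let _ := ψ.toRingHom.toAlgebra
  have _ : Algebra.IsIntegral (MvPolynomial (Fin (n + 1)) K) D := ⟨hψint⟩
  have _ : IsScalarTower K (MvPolynomial (Fin (n + 1)) K) D :=
    IsScalarTower.of_algebraMap_eq fun x => (ψ.commutes x).symm
  have _ : Algebra.FiniteType (MvPolynomial (Fin (n + 1)) K) D :=
    Algebra.FiniteType.of_restrictScalars_finiteType K _ _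
  have _ : Module.Finite (MvPolynomial (Fin (n + 1)) K) D := Algebra.IsIntegral.finite
  let W := LinearMap.range (Algebra.linearMap (MvPolynomial (Fin (n + 1)) K) D)
  let n₀ : Ideal (MvPolynomial (Fin (n + 1)) K) := RingHom.ker MvPolynomial.constantCoeff
  have hle : (⊤ : Submodule (MvPolynomial (Fin (n + 1)) K) (D ⧸ W)) ≤ n₀ • ⊤ := by
    intro y _
    obtain ⟨d, rfl⟩ := W.mkQ_surjective y
    obtain ⟨b, rfl⟩ := Ideal.Quotient.mk_surjective d
    obtain ⟨r, hr⟩ := hres b
    rw [← hIm, Submodule.mem_sup] at hr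
    obtain ⟨w, hw, y', hy', hwy⟩ := hr
    obtain ⟨c, rfl⟩ := (Ideal.mem_span_range_iff_exists_fun).mp hy'
    have hd : (Ideal.Quotient.mk P b : D)
        = ψ (MvPolynomial.C r) + ∑ i, ψ (MvPolynomial.X i) * π (c i) := by
      rw [show b = algebraMap K B r + (w + ∑ i, c i * t i) by rw [hwy]; ring]
      simp [ψ, φ, π, Ideal.Quotient.eq_zero_iff_mem.mpr hw, mul_comm]
      rfl
    rw [hd, map_add, map_sum]
    refine Submodule.add_mem _ ?_ (Submodule.sum_mem _ fun i _ => ?_)
    · rw [Submodule.mkQ_apply, (Submodule.Quotient.mk_eq_zero W).mpr (⟨MvPolynomial.C r, rfl⟩ : ψ (MvPolynomial.C r) ∈ W)]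
      exact Submodule.zero_mem _
    · rw [show ψ (MvPolynomial.X i) * π (c i) = (MvPolynomial.X i :
        MvPolynomial (Fin (n + 1)) K) • π (c i) from rfl, map_smul]
      exact Submodule.smul_mem_smul (by simp [n₀]) Submodule.mem_top
  obtain ⟨s, hs1, hs⟩ := Submodule.exists_sub_one_mem_and_smul_eq_zero_of_fg_of_le_smul n₀ _
    Module.Finite.fg_top hle
  refine ⟨s, fun hmem => ?_, fun b => ?_⟩
  · have h1 : MvPolynomial.constantCoeff s = 1 := by
      simpa [n₀, sub_eq_zero] using hs1
    have hdiff : ∀ F : MvPolynomial (Fin (n + 1)) K,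
        φ F - algebraMap K B (MvPolynomial.constantCoeff F) ∈ m := by
      intro F
      induction F using MvPolynomial.induction_on with
      | C a => simp [φ]
      | add p q hp hq =>
        simp only [map_add]
        rw [show φ p + φ q - (algebraMap K B (MvPolynomial.constantCoeff p)
          + algebraMap K B (MvPolynomial.constantCoeff q))
          = (φ p - algebraMap K B (MvPolynomial.constantCoeff p))
            + (φ q - algebraMap K B (MvPolynomial.constantCoeff q)) by ring]
        exact m.add_mem hp hq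
      | mul_X p i _ =>
        simpa [φ] using m.mul_mem_left _ (htm i)
    have := m.sub_mem hmem (hdiff s)
    rw [h1, map_one, sub_sub_cancel] at this
    exact ‹m.IsMaximal›.ne_top ((Ideal.eq_top_iff_one m).mpr this)
  · have := hs (W.mkQ (π b)) Submodule.mem_top
    rw [← map_smul, Submodule.mkQ_apply, Submodule.Quotient.mk_eq_zero] at this
    obtain ⟨p, hp⟩ := this
    exact ⟨p, Ideal.Quotient.eq.mp hp.symm⟩

/-- The main step: a height one prime through a smooth rational point is locally principal. -/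
theorem map_isPrincipal_of_height_eq_one {n : ℕ} (hg : Algebra.trdeg K B = (n + 1 : ℕ))
    (m : Ideal B) [m.IsMaximal] (hres : ∀ b, ∃ r : K, b - algebraMap K B r ∈ m)
    (e : Fin (n + 1) → B) (he : ∀ i, e i ∈ m) (hspan : m ≤ Ideal.span (Set.range e) ⊔ m ^ 2)
    (P : Ideal B) [P.IsPrime] (hPm : P ≤ m) (hP : P.height = 1) :
    (P.map (algebraMap B (Localization.AtPrime m))).IsPrincipal := by
  let D := B ⧸ P
  let π : B →ₐ[K] D := Ideal.Quotient.mkₐ K P
  have _ : IsNoetherianRing B := Algebra.FiniteType.isNoetherianRing K B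
  have hP0 : P ≠ ⊥ := fun h => by rw [h, Ideal.height_bot] at hP; exact zero_ne_one hP
  have hD1 : Algebra.trdeg K D + 1 ≤ ((n + 1 : ℕ) : Cardinal) :=
    (trdeg_quotient_add_one_le P hP0).trans_eq hg
  have hD0 : (n : Cardinal) ≤ Algebra.trdeg K D := le_trdeg_quotient_of_height_eq_one hg P hP
  obtain ⟨t, htm, hspan_t, hIm, hψint'⟩ := exists_projection m hres e he hspan P hPm hD1
  obtain ⟨s, hs, hsB⟩ := exists_denominator m hres P t htm hIm hψint'
  let φ : MvPolynomial (Fin (n + 1)) K →ₐ[K] B := MvPolynomial.aeval t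
  let ψ : MvPolynomial (Fin (n + 1)) K →ₐ[K] D := π.comp φ
  have hψint : ψ.toRingHom.IsIntegral := hψint'
  let q : Ideal (MvPolynomial (Fin (n + 1)) K) := P.comap φ
  let ψq := Ideal.quotientMapₐ P φ (le_refl q)
  have hψq : Function.Injective ψq := Ideal.quotientMap_injective' (H := le_refl q) le_rfl
  have hψqint : ψq.toRingHom.IsIntegral := by
    intro x
    obtain ⟨p, hp, hpx⟩ := hψint x
    refine ⟨p.map (Ideal.Quotient.mk q), hp.map _, ?_⟩
    rw [Polynomial.eval₂_map]
    exact hpx
  have htr := trdeg_eq_of_injective_integral ψq hψq hψqint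
  have hq0 : q ≠ ⊥ := by
    intro h0
    have e1 : Algebra.trdeg K (MvPolynomial (Fin (n + 1)) K ⧸ q) = ((n + 1 : ℕ) : Cardinal) := by
      rw [← ((Ideal.quotientEquivAlgOfEq K h0).trans (AlgEquiv.quotientBot K _)).symm.trdeg_eq,
        MvPolynomial.trdeg_of_isDomain, Cardinal.mk_fin, Cardinal.lift_natCast]
    rw [← htr, e1] at hD1
    have h' : ((n + 1 + 1 : ℕ) : Cardinal.{u}) ≤ ((n + 1 : ℕ) : Cardinal) := by exact_mod_cast hD1
    exact absurd (Nat.cast_le.mp h') (by lia)
  obtain ⟨h, hhp, hqh⟩ := isPrincipal_of_le_trdeg_quotient q hq0 (htr ▸ hD0)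
  -- conclusion
  let R := Localization.AtPrime m
  let hR : R := algebraMap B R (φ h)
  have hhP : φ h ∈ P := by
    show h ∈ q
    rw [hqh]; exact Ideal.mem_span_singleton_self h
  refine ⟨hR, le_antisymm ?_ ?_⟩
  swap
  · exact (Ideal.span_singleton_le_iff_mem _).mpr (Ideal.mem_map_of_mem _ hhP)
  refine Submodule.le_of_le_smul_of_le_jacobson_bot (I := IsLocalRing.maximalIdeal R)
    (IsNoetherian.noetherian _) (IsLocalRing.maximalIdeal_le_jacobson _) ?_
  rw [Ideal.map_le_iff_le_comap]
  intro y hy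
  obtain ⟨σ, hσ1, hσ⟩ := Submodule.exists_sub_one_mem_and_smul_le_of_fg_of_le_sup
    (IsNoetherian.noetherian m) le_rfl
    (show m ≤ Ideal.span (Set.range t) ⊔ m • m by rwa [smul_eq_mul, ← pow_two])
  have hσy : σ * y ∈ Ideal.span (Set.range t) :=
    hσ (Submodule.smul_mem_pointwise_smul _ _ _ (hPm hy))
  obtain ⟨c, hc⟩ := Ideal.mem_span_range_iff_exists_fun.mp hσy
  choose p hp using fun i => hsB (c i)
  have hkey : φ s * σ * y
      = φ (∑ i, p i * MvPolynomial.X i) + ∑ i, (φ s * c i - φ (p i)) * t i := by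
    rw [mul_assoc, ← hc, Finset.mul_sum, map_sum, ← Finset.sum_add_distrib]
    exact Finset.sum_congr rfl fun i _ => by simp [φ]; ring
  have hrest : ∑ i, (φ s * c i - φ (p i)) * t i ∈ P * m :=
    Submodule.sum_mem _ fun i _ => Ideal.mul_mem_mul (hp i) (htm i)
  have hqmem : ∑ i, p i * MvPolynomial.X i ∈ q := by
    show φ _ ∈ P
    rw [eq_sub_of_add_eq hkey.symm]
    exact P.sub_mem (P.mul_mem_left _ hy) (Ideal.mul_le_left hrest)
  rw [hqh] at hqmem
  obtain ⟨d, hd⟩ := Ideal.mem_span_singleton'.mp hqmem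
  have hunit : IsUnit (algebraMap B R (φ s * σ)) := by
    refine IsLocalization.map_units R (⟨φ s * σ, ?_⟩ : m.primeCompl)
    refine fun hmem => ((‹m.IsMaximal›.isPrime.mem_or_mem hmem).resolve_left hs |> fun h => ?_)
    have := m.sub_mem h hσ1
    rw [sub_sub_cancel] at this
    exact ‹m.IsMaximal›.ne_top ((Ideal.eq_top_iff_one m).mpr this)
  have hgoal : algebraMap B R (φ s * σ * y) ∈
      Ideal.span {hR} ⊔ IsLocalRing.maximalIdeal R • P.map (algebraMap B R) := by
    rw [hkey, map_add]
    refine Submodule.add_mem_sup ?_ ?_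
    · rw [← hd, map_mul, map_mul]
      exact Ideal.mul_mem_left _ _ (Ideal.mem_span_singleton_self _)
    · rw [smul_eq_mul, ← IsLocalization.AtPrime.map_eq_maximalIdeal m R, ← Ideal.map_mul, mul_comm]
      exact Ideal.mem_map_of_mem _ hrest
  rw [map_mul, ← smul_eq_mul] at hgoal
  exact (Submodule.smul_mem_iff_of_isUnit _ hunit).mp hgoal

/-- The local ring at a rational smooth point of an affine variety is factorial. -/
theorem uniqueFactorizationMonoid_localization_atPrime {g : ℕ}
    (hg : Algebra.trdeg K B = (g : ℕ)) (m : Ideal B) [m.IsMaximal]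
    (hres : ∀ b, ∃ r : K, b - algebraMap K B r ∈ m)
    (e : Fin g → B) (he : ∀ i, e i ∈ m) (hspan : m ≤ Ideal.span (Set.range e) ⊔ m ^ 2) :
    UniqueFactorizationMonoid (Localization.AtPrime m) := by
  have _ : IsNoetherianRing B := Algebra.FiniteType.isNoetherianRing K B
  refine UniqueFactorizationMonoid.of_forall_isPrincipal_of_height_eq_one fun 𝔭 _ h𝔭 => ?_
  let P : Ideal B := 𝔭.under B
  have hP : P.height = 1 := by
    rw [IsLocalization.height_under m.primeCompl]; exact h𝔭
  have hPm : P ≤ m := (Ideal.comap_mono (IsLocalRing.le_maximalIdeal_of_isPrime 𝔭)).trans_eq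
    Localization.AtPrime.under_maximalIdeal
  obtain _ | n := g
  · exfalso
    have _ : Algebra.IsAlgebraic K B := trdeg_eq_zero_iff.mp (by simpa using hg)
    have _ : Algebra.IsIntegral K B := Algebra.isAlgebraic_iff_isIntegral.mp inferInstance
    have hF : IsField B := isField_of_isIntegral_of_isField' (Field.toIsField K)
    have hP0 : P = ⊥ := by
      let _ := hF.toField
      exact (Ideal.eq_bot_or_top P).resolve_right Ideal.IsPrime.ne_top'
    rw [hP0, Ideal.height_bot] at hP
    exact zero_ne_one hP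
  · have := map_isPrincipal_of_height_eq_one hg m hres e he hspan P hPm hP
    rwa [IsLocalization.map_under m.primeCompl] at this

end FLTA.AbelianVar
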