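import Fermat.Prelude.Def_GoodReductionJacobian_RelativeGroupLawKernel

/-!
# Translations and multiplication maps of a relative group law
-/

set_option autoImplicit false

universe u

open CategoryTheory CategoryTheory.Limits AlgebraicGeometry NeronModelInfra GoodReductionJacobian

noncomputable section

namespace FLTA.AbelianVar

variable {R : Type u} [CommRing R] {A : Scheme.{u}} {f : A ⟶ Spec (CommRingCat.of R)}
  (L : RelativeGroupLaw R f)

/-- The sections of `f`. -/
abbrev RatPt (f : A ⟶ Spec (CommRingCat.of R)) : Type u :=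
  SchemeHomOver (𝟙 (Spec (CommRingCat.of R))) f

/-- A section as a constant point on a test scheme. -/
def constPt {T : Scheme.{u}} (t : T ⟶ Spec (CommRingCat.of R)) (a : RatPt f) :
    SchemeHomOver t f :=
  schemeHomOverComp t (Category.comp_id t) a

@[simp]
lemma constPt_coe {T : Scheme.{u}} (t : T ⟶ Spec (CommRingCat.of R)) (a : RatPt f) :
    (constPt t a).1 = t ≫ a.1 := rfl

lemma constPt_one {T : Scheme.{u}} (t : T ⟶ Spec (CommRingCat.of R)) :
    constPt t (L.one (𝟙 _)) = L.one t :=
  L.one_natural _ _ _ _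

lemma constPt_mul {T : Scheme.{u}} (t : T ⟶ Spec (CommRingCat.of R)) (a b : RatPt f) :
    constPt t (L.mul (𝟙 _) a b) = L.mul t (constPt t a) (constPt t b) :=
  L.mul_natural _ _ _ _ _ _

lemma comp_idPoint {T : Scheme.{u}} {t : T ⟶ Spec (CommRingCat.of R)} (x : SchemeHomOver t f) :
    schemeHomOverComp x.1 x.2 (RelativeGroupLaw.idPoint (f := f)) = x :=
  Subtype.ext (Category.comp_id x.1)

/-- Translation by a rational point. -/
def translate (a : RatPt f) : A ⟶ A :=
  (L.mul f RelativeGroupLaw.idPoint (constPt f a)).1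

lemma translate_over (a : RatPt f) : translate L a ≫ f = f :=
  (L.mul f RelativeGroupLaw.idPoint (constPt f a)).2

lemma comp_translate {T : Scheme.{u}} {t : T ⟶ Spec (CommRingCat.of R)} (x : SchemeHomOver t f)
    (a : RatPt f) : x.1 ≫ translate L a = (L.mul t x (constPt t a)).1 := by
  have h := congrArg Subtype.val
    (L.mul_natural f t x.1 x.2 RelativeGroupLaw.idPoint (constPt f a))
  rw [comp_idPoint x, schemeHomOverComp_coe] at h
  rw [translate, h]
  congr 2
  exact Subtype.ext (by rw [schemeHomOverComp_coe, constPt_coe, constPt_coe, ← Category.assoc, x.2])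

lemma translate_one : translate L (L.one (𝟙 _)) = 𝟙 A := by
  rw [translate, constPt_one, L.mul_one]

lemma translate_comp (a b : RatPt f) :
    translate L a ≫ translate L b = translate L (L.mul (𝟙 _) a b) := by
  have h := comp_translate L (L.mul f RelativeGroupLaw.idPoint (constPt f a)) b
  rw [L.mul_assoc, ← constPt_mul] at h
  exact h

/-- Translation as an automorphism. -/
@[simps]
def translateIso (a : RatPt f) : A ≅ A where
  hom := translate L a
  inv := translate L (L.inv (𝟙 _) a)
  hom_inv_id := by rw [translate_comp, L.mul_inv_cancel, translate_one]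
  inv_hom_id := by rw [translate_comp, L.inv_mul_cancel, translate_one]

instance (a : RatPt f) : IsIso (translate L a) :=
  inferInstanceAs (IsIso (translateIso L a).hom)

lemma comp_schemeNsmul {T : Scheme.{u}} {t : T ⟶ Spec (CommRingCat.of R)}
    (x : SchemeHomOver t f) (n : ℕ) : x.1 ≫ L.schemeNsmul n = (L.nsmul t n x).1 := by
  have h := L.nsmul_natural f t x.1 x.2 n RelativeGroupLaw.idPoint
  rw [comp_idPoint x] at h
  exact congrArg Subtype.val h

lemma nsmul_mul {T : Scheme.{u}} (t : T ⟶ Spec (CommRingCat.of R)) (hc : L.IsCommutative) (n : ℕ)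
    (x y : SchemeHomOver t f) :
    L.nsmul t n (L.mul t x y) = L.mul t (L.nsmul t n x) (L.nsmul t n y) := by
  induction n with
  | zero => exact (L.one_mul t _).symm
  | succ n ih =>
    rw [RelativeGroupLaw.nsmul_succ, RelativeGroupLaw.nsmul_succ, RelativeGroupLaw.nsmul_succ, ih,
      L.mul_assoc, L.mul_assoc, ← L.mul_assoc t (L.nsmul t n y) x y,
      hc t (L.nsmul t n y) x, L.mul_assoc]

lemma nsmul_add {T : Scheme.{u}} (t : T ⟶ Spec (CommRingCat.of R)) (m n : ℕ)
    (x : SchemeHomOver t f) :
    L.nsmul t (m + n) x = L.mul t (L.nsmul t m x) (L.nsmul t n x) := by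
  induction n with
  | zero => exact (L.mul_one t _).symm
  | succ n ih => rw [← Nat.add_assoc, RelativeGroupLaw.nsmul_succ, ih, L.mul_assoc]; rfl

lemma nsmul_nsmul {T : Scheme.{u}} (t : T ⟶ Spec (CommRingCat.of R)) (m n : ℕ)
    (x : SchemeHomOver t f) : L.nsmul t m (L.nsmul t n x) = L.nsmul t (m * n) x := by
  induction m with
  | zero => simp
  | succ m ih => rw [RelativeGroupLaw.nsmul_succ, ih, Nat.succ_mul, nsmul_add]

lemma schemeNsmul_comp (m n : ℕ) :
    L.schemeNsmul m ≫ L.schemeNsmul n = L.schemeNsmul (n * m) := by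
  have h := comp_schemeNsmul L (L.nsmul f m RelativeGroupLaw.idPoint) n
  rw [nsmul_nsmul] at h
  exact h

lemma schemeNsmul_one : L.schemeNsmul 1 = 𝟙 A :=
  congrArg Subtype.val (L.nsmul_one_apply f RelativeGroupLaw.idPoint)

lemma translate_schemeNsmul (hc : L.IsCommutative) (a : RatPt f) (n : ℕ) :
    translate L a ≫ L.schemeNsmul n =
      L.schemeNsmul n ≫ translate L (L.nsmul (𝟙 _) n a) := by
  have h := comp_schemeNsmul L (L.mul f RelativeGroupLaw.idPoint (constPt f a)) n
  have h' := comp_translate L (L.nsmul f n RelativeGroupLaw.idPoint) (L.nsmul (𝟙 _) n a)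
  rw [nsmul_mul L f hc] at h
  exact h.trans (h'.trans (congrArg (fun z => (L.mul f (L.nsmul f n RelativeGroupLaw.idPoint) z).1)
    (L.nsmul_natural _ _ f (Category.comp_id f) n a))).symm

end FLTA.AbelianVar
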