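import Fermat.Agent.AbelianVar.Count
import Fermat.Agent.AbelianVar.DivisorTrdeg
import Fermat.Agent.AbelianVar.Growth.Main

/-!
# From the theorem of the cube to the number of torsion points
-/

set_option autoImplicit false

open CategoryTheory CategoryTheory.Limits AlgebraicGeometry NeronModelInfra GoodReductionJacobian

noncomputable section

universe u

namespace FLTA.AbelianVar

/-- The Picard group of a one point scheme vanishes. -/
lemma pic_eq_zero_of_subsingleton {X : Scheme.{u}} [Subsingleton X] (p : Pic X) : p = 0 := by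
  obtain ⟨L, rfl⟩ := Pic.mk_surjective p
  exact Pic.mk_eq_mk.mpr (LB.Rel.of_eq _ _ L.U L.mem (fun _ => le_rfl) (fun _ => le_top)
    fun x y W hx hy => by obtain rfl := Subsingleton.elim x y; exact L.g_self x W hx)

namespace CommLaw

variable {K : Type u} [Field K] {A : Scheme.{u}} {f : A ⟶ Spec (CommRingCat.of K)}
  (G : CommLaw K f)

lemma Q_zero (D : Pic A) {T : Scheme.{u}} (t : T ⟶ Spec (CommRingCat.of K)) :
    G.Q D (0 : G.Pt t) = 0 := by
  have h : (0 : G.Pt t) = G.comp t (Category.comp_id t) 0 := (map_zero _).symm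
  have : Subsingleton (Spec (CommRingCat.of K)) := inferInstanceAs (Subsingleton (PrimeSpectrum K))
  rw [h, Q_comp, pic_eq_zero_of_subsingleton (G.Q D 0), map_zero]

lemma mulN_zero_Q (D : Pic A) : Pic.pull (G.mulN 0) D = 0 := G.Q_zero D f

/-- The quadraticity of pullback along multiplication. -/
theorem pull_mulN (D : Pic A) (hsym : Pic.pull G.negN D = D)
    (hcube : ∀ (a b c : G.Pt f), G.cube D a b c = 0) (n : ℕ) :
    Pic.pull (G.mulN n) D = (n ^ 2) • D := by
  have hid : G.Q D G.idPt = D := Pic.pull_id D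
  have hneg : G.Q D (-G.idPt) = D := hsym
  suffices h : ∀ n : ℕ, G.Q D (n • G.idPt) = (n ^ 2) • D ∧
      G.Q D ((n + 1) • G.idPt) = ((n + 1) ^ 2) • D from (h n).1
  intro n
  induction n with
  | zero => exact ⟨by rw [zero_smul, Q_zero]; simp, by rw [zero_add, one_smul, hid]; simp⟩
  | succ n ih =>
    refine ⟨ih.2, ?_⟩
    have h := hcube ((n + 1) • G.idPt) G.idPt (-G.idPt)
    have e1 : (n + 1) • G.idPt + G.idPt + -G.idPt = (n + 1) • G.idPt := by abel
    have e2 : (n + 1) • G.idPt + G.idPt = (n + 1 + 1) • G.idPt := (succ_nsmul _ _).symm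
    have e3 : (n + 1) • G.idPt + -G.idPt = n • G.idPt := by rw [succ_nsmul]; abel
    rw [cube, e1, e2, e3, add_neg_cancel, Q_zero, hid, hneg, ih.1, ih.2] at h
    generalize G.Q D ((n + 1 + 1) • G.idPt) = Z at h ⊢
    rw [← sub_eq_zero]
    linear_combination (norm := module) -h

theorem mulN_pow_succ (n j : ℕ) : G.mulN (n ^ (j + 1)) = G.mulN (n ^ j) ≫ G.mulN n := by
  rw [pow_succ, G.mulN_mul]

variable [IsAlgClosed K] [AlgebraicGeometry.IsIntegral A] [IsProper f] (g : ℕ)
  [SmoothOfRelativeDimension g f]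

include g in
/-- Multiplication by `n` is surjective on rational points. -/
theorem exists_nsmul_eq (n : ℕ) (hn : (n : K) ≠ 0)
    (y : G.Pt (𝟙 (Spec (CommRingCat.of K)))) : ∃ x, n • x = y := by
  have := G.isFinite_mulN n hn
  have hgen := G.mulN_genericPoint g n hn
  have hsurj : Surjective (G.mulN n) := by
    refine ⟨fun p => ?_⟩
    have hc : IsClosed (Set.range (G.mulN n).base) := (G.mulN n).isClosedMap.isClosed_range
    exact hc.stableUnderSpecialization ((genericPoint_spec A).specializes trivial) ⟨_, hgen⟩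
  obtain ⟨z, hz⟩ := (G.mulN n).surjective (pt y)
  have hJ : JacobsonSpace A := LocallyOfFiniteType.jacobsonSpace f
  obtain ⟨c, hc, hcc⟩ := nonempty_inter_closedPoints (Z := (G.mulN n).base ⁻¹' {pt y})
    ⟨z, hz⟩ ((isClosed_pt y).preimage (G.mulN n).continuous).isLocallyClosed
  obtain ⟨x, hx⟩ := G.exists_pt_eq hcc
  refine ⟨x, pt_injective ?_⟩
  rw [← hx] at hc
  show (n • x).hom.base _ = _
  rw [← G.hom_comp_mulN]
  exact hc

include g in
theorem natCard_ker_pow (n : ℕ) (hn : (n : K) ≠ 0) (j : ℕ) :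
    Nat.card {x : G.Pt (𝟙 (Spec (CommRingCat.of K))) // n ^ j • x = 0} =
      Nat.card {x : G.Pt (𝟙 (Spec (CommRingCat.of K))) // n • x = 0} ^ j := by
  induction j with
  | zero =>
    simp only [pow_zero, one_smul]
    exact Nat.card_eq_one_iff_unique.mpr
      ⟨⟨fun a b => Subtype.ext (a.2.trans b.2.symm)⟩, ⟨⟨0, rfl⟩⟩⟩
  | succ j ih =>
    choose sec hsec using G.exists_nsmul_eq g n hn
    let e : {x : G.Pt (𝟙 (Spec (CommRingCat.of K))) // n ^ (j + 1) • x = 0} ≃
        {x : G.Pt (𝟙 (Spec (CommRingCat.of K))) // n ^ j • x = 0} ×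
          {x : G.Pt (𝟙 (Spec (CommRingCat.of K))) // n • x = 0} :=
      { toFun := fun x => (⟨n • x.1, by rw [smul_smul, ← pow_succ]; exact x.2⟩,
          ⟨x.1 - sec (n • x.1), by rw [smul_sub, hsec, sub_self]⟩)
        invFun := fun p => ⟨sec p.1.1 + p.2.1, by
          rw [pow_succ, mul_smul, smul_add, hsec, p.2.2, add_zero]; exact p.1.2⟩
        left_inv := fun x => Subtype.ext (add_sub_cancel _ _)
        right_inv := fun p => by
          have h : n • (sec p.1.1 + p.2.1) = p.1.1 := by rw [smul_add, hsec, p.2.2, add_zero]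
          refine Prod.ext (Subtype.ext h) (Subtype.ext ?_)
          show sec p.1.1 + p.2.1 - sec (n • (sec p.1.1 + p.2.1)) = p.2.1
          rw [h, add_sub_cancel_left] }
    rw [Nat.card_congr e, Nat.card_prod, ih, pow_succ]

include g in
/-- The number of `n`-torsion points, given the theorem of the cube. -/
theorem natCard_ker_eq_pow
    (hcube : ∀ (D : Pic A) (a b c : G.Pt f), G.cube D a b c = 0) (n : ℕ) (hn : (n : K) ≠ 0) :
    Nat.card {x : G.Pt (𝟙 (Spec (CommRingCat.of K))) // n • x = 0} = n ^ (2 * g) := by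
  obtain ⟨S⟩ := nonempty_symDivisor G g
  have hnj : ∀ j, ((n ^ j : ℕ) : K) ≠ 0 := fun j => by simpa using pow_ne_zero j hn
  have hη := fun j => G.mulN_genericPoint g (n ^ j) (hnj j)
  let _ := ffAlgebra f
  have := essFiniteType_functionField f g
  let φ : ℕ → (A.functionField →ₐ[K] A.functionField) := fun j =>
    SymDivisor.ffAlgHom (G.mulN (n ^ j)) (hη j) (G.mulN_comp _)
  have hcount := fun j => G.natCard_ker_mulN g (n ^ j) (hnj j) (hη j)
  have hn0 : 0 < n := Nat.pos_of_ne_zero fun h => hn (by simp [h])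
  have key := Growth.DivisorModel.homDegree_eq_pow (S.model g) φ (fun j => (hcount j).1)
    (q := n ^ 2) (d := Nat.card {x : G.Pt (𝟙 (Spec (CommRingCat.of K))) // n • x = 0})
    (pow_pos hn0 2) (fun j => by
      rw [← G.natCard_ker_pow g n hn j]
      exact (hcount j).2.symm)
    (fun j m => by
      have h := S.finrank_pullSpace_eq g (G.mulN (n ^ j)) (hη j) (G.mulN_comp _) ((n ^ j) ^ 2)
        (G.pull_mulN S.D.cls S.symm (hcube _) _) m
      rwa [← pow_mul, mul_comm j 2, pow_mul] at h)
  rw [key, trdeg_functionField_toNat f g, ← pow_mul]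

end CommLaw

end FLTA.AbelianVar
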