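import Fermat.Agent.AbelianVar.Geometry

/-! Multiplication by `n` is formally unramified when `n` is invertible in the field. -/

set_option autoImplicit false

open CategoryTheory CategoryTheory.Limits AlgebraicGeometry NeronModelInfra GoodReductionJacobian

noncomputable section

universe u

namespace FLTA.AbelianVar.Tangent

variable {K : Type u} [Field K] {A : Scheme.{u}} {f : A ⟶ Spec (CommRingCat.of K)}
  (G : CommLaw K f)

/-- The structure map of the spectrum of a `K`-algebra. -/
abbrev strMap (K C : Type u) [Field K] [CommRing C] [Algebra K C] :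
    Spec (CommRingCat.of C) ⟶ Spec (CommRingCat.of K) :=
  Spec.map (CommRingCat.ofHom (algebraMap K C))

lemma comp_algHom {C C' : Type u} [CommRing C] [Algebra K C] [CommRing C'] [Algebra K C']
    (ψ : C →ₐ[K] C') : Spec.map (CommRingCat.ofHom ψ.toRingHom) ≫ strMap K C = strMap K C' := by
  rw [← Spec.map_comp, ← CommRingCat.ofHom_comp]
  exact congrArg (fun r => Spec.map (CommRingCat.ofHom r)) ψ.comp_algebraMap

/-- The change of test algebra. -/
def push {C C' : Type u} [CommRing C] [Algebra K C] [CommRing C'] [Algebra K C']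
    (ψ : C →ₐ[K] C') : G.Pt (strMap K C) →+ G.Pt (strMap K C') :=
  G.comp (Spec.map (CommRingCat.ofHom ψ.toRingHom)) (comp_algHom ψ)

section Chart

variable {B : Type u} [CommRing B] [Algebra K B] (ι : Spec (CommRingCat.of B) ⟶ A)
  [IsOpenImmersion ι] (hι : ι ≫ f = strMap K B)

/-- The point given by an algebra map out of the chart. -/
def pointOf {C : Type u} [CommRing C] [Algebra K C]
    (β : B →ₐ[K] C) : G.Pt (strMap K C) :=
  CommLaw.Pt.mk G (Spec.map (CommRingCat.ofHom β.toRingHom) ≫ ι) (by
    rw [Category.assoc, hι, comp_algHom])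

lemma pointOf_injective {C : Type u} [CommRing C] [Algebra K C] :
    Function.Injective (pointOf G ι hι (C := C)) := by
  intro β β' h
  have h1 : Spec.map (CommRingCat.ofHom β.toRingHom) ≫ ι =
      Spec.map (CommRingCat.ofHom β'.toRingHom) ≫ ι := congrArg CommLaw.Pt.hom h
  rw [cancel_mono, Spec.map_inj] at h1
  exact AlgHom.ext fun x => congr($h1 x)

lemma push_pointOf {C C' : Type u} [CommRing C] [Algebra K C] [CommRing C'] [Algebra K C']
    (ψ : C →ₐ[K] C') (β : B →ₐ[K] C) :
    push G ψ (pointOf G ι hι β) = pointOf G ι hι (ψ.comp β) := by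
  apply CommLaw.Pt.ext
  simp only [push, pointOf, CommLaw.comp_hom, CommLaw.Pt.mk_hom]
  rw [← Category.assoc, ← Spec.map_comp, ← CommRingCat.ofHom_comp]
  rfl

lemma exists_pointOf {C : Type u} [CommRing C] [Algebra K C] (x : G.Pt (strMap K C))
    (hx : ∀ p, x.hom.base p ∈ Set.range ι.base) : ∃ β, pointOf G ι hι β = x := by
  have hrange : Set.range x.hom.base ⊆ Set.range ι.base := by
    rintro _ ⟨p, rfl⟩; exact hx p
  let l := IsOpenImmersion.lift ι x.hom hrange
  have hl : l ≫ ι = x.hom := IsOpenImmersion.lift_fac _ _ _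
  obtain ⟨ψ, hψ⟩ := Spec.map_surjective l
  have hcomm : CommRingCat.ofHom (algebraMap K B) ≫ ψ =
      CommRingCat.ofHom (algebraMap K C) := by
    apply Spec.map_injective
    rw [Spec.map_comp, hψ]
    have h := x.hom_comp
    rw [← hl, Category.assoc, hι] at h
    exact h
  refine ⟨⟨ψ.hom, fun r => congr($hcomm r)⟩, CommLaw.Pt.ext ?_⟩
  show Spec.map (CommRingCat.ofHom ψ.hom) ≫ ι = x.hom
  rw [CommRingCat.ofHom_hom, hψ, hl]

lemma exists_pointOf_of_push {C C' : Type u} [CommRing C] [Algebra K C] [CommRing C']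
    [Algebra K C'] (ψ : C →ₐ[K] C') (hψ : Function.Surjective ψ)
    (hker : RingHom.ker ψ.toRingHom ≤ nilradical C)
    (h0 : (0 : G.Pt (𝟙 (Spec (CommRingCat.of K)))).hom.base (IsLocalRing.closedPoint K) ∈ Set.range ι.base)
    (x : G.Pt (strMap K C)) (hx : push G ψ x = 0) : ∃ β, pointOf G ι hι β = x := by
  refine exists_pointOf G ι hι x fun p => ?_
  obtain ⟨q, rfl⟩ : ∃ q, (Spec.map (CommRingCat.ofHom ψ.toRingHom)).base q = p := by
    have : p ∈ Set.range (PrimeSpectrum.comap ψ.toRingHom) := by
      rw [range_comap_of_surjective _ _ hψ]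
      exact hker.trans (@nilradical_le_prime C _ (show PrimeSpectrum C from p).asIdeal (show PrimeSpectrum C from p).isPrime)
    exact this
  have hz : (0 : G.Pt (strMap K C')) = G.comp (strMap K C') (Category.comp_id _) 0 :=
    (map_zero _).symm
  have h : Spec.map (CommRingCat.ofHom ψ.toRingHom) ≫ x.hom =
      strMap K C' ≫ (0 : G.Pt (𝟙 (Spec (CommRingCat.of K)))).hom :=
    congrArg CommLaw.Pt.hom (hx.trans hz)
  have h2 := congrArg (fun φ => φ.base q) h
  simp only at h2
  erw [Scheme.Hom.comp_apply, Scheme.Hom.comp_apply] at h2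
  erw [h2]
  erw [Scheme.Hom.comp_apply]
  rwa [show (strMap K C').base q = IsLocalRing.closedPoint K from
    Subsingleton.elim (α := PrimeSpectrum K) _ _]

section Der

variable (e : B →ₐ[K] K)

/-- Derivations at the origin. -/
def Der (M : Type u) [AddCommGroup M] [Module K M] : Type u :=
  {D : B →ₗ[K] M // ∀ a b, D (a * b) = e a • D b + e b • D a}

variable {M M' : Type u} [AddCommGroup M] [Module K M] [Module Kᵐᵒᵖ M] [IsCentralScalar K M]
  [AddCommGroup M'] [Module K M'] [Module Kᵐᵒᵖ M'] [IsCentralScalar K M']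

/-- The algebra map `b ↦ (e b, D b)`. -/
def derHom (D : Der e M) :
    B →ₐ[K] TrivSqZeroExt K M :=
  AlgHom.ofLinearMap
    ((TrivSqZeroExt.inlAlgHom K K M).toLinearMap.comp e.toLinearMap +
      (TrivSqZeroExt.inrHom K M).comp D.1)
    (by
      have h1 : D.1 1 = 0 := by
        have h := D.2 1 1
        simp only [mul_one, map_one, one_smul] at h
        exact left_eq_add.mp h
      simp [h1])
    (fun a b => by
      refine TrivSqZeroExt.ext ?_ ?_
      · simp
      · simp [D.2 a b, op_smul_eq_smul])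

lemma derHom_fst (D : Der e M) (b : B) : (derHom e D b).fst = e b := by
  simp [derHom]

lemma derHom_snd (D : Der e M) (b : B) :
    (derHom e D b).snd = D.1 b := by
  simp [derHom]

/-- Postcomposition of a derivation. -/
def Der.post (l : M →ₗ[K] M') (D : Der e M) : Der e M' :=
  ⟨l.comp D.1, fun a b => by simp [D.2 a b]⟩

/-- The point near the origin given by a derivation. -/
def pointD (D : Der e M) : G.Pt (strMap K (TrivSqZeroExt K M)) := pointOf G ι hι (derHom e D)

lemma pointD_injective : Function.Injective (pointD G ι hι e (M := M)) := by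
  intro D D' h
  refine Subtype.ext (LinearMap.ext fun b => ?_)
  have := congrArg (fun β => (β b).snd) (pointOf_injective G ι hι h)
  simpa [derHom_snd] using this

lemma push_pointD (l : M →ₗ[K] M') (D : Der e M) :
    push G (TrivSqZeroExt.map l) (pointD G ι hι e D) = pointD G ι hι e (D.post e l) := by
  rw [pointD, push_pointOf]
  refine congrArg (pointOf G ι hι) (AlgHom.ext fun b => TrivSqZeroExt.ext ?_ ?_)
  · simp [derHom_fst]
  · rw [AlgHom.comp_apply, TrivSqZeroExt.snd_map, derHom_snd]
    exact (derHom_snd e (D.post e l) b).symm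

variable (he : pointOf G ι hι e = (0 : G.Pt (strMap K K)))

include he in
lemma pointOf_ofId (C : Type u) [CommRing C] [Algebra K C] :
    pointOf G ι hι ((Algebra.ofId K C).comp e) = 0 := by
  rw [← push_pointOf, he, map_zero]

include he in
lemma pointD_zero (D : Der e M) (hD : D.1 = 0) :
    pointD G ι hι e D = 0 := by
  rw [← pointOf_ofId G ι hι e he (TrivSqZeroExt K M), pointD]
  refine congrArg (pointOf G ι hι) (AlgHom.ext fun b => TrivSqZeroExt.ext ?_ ?_)
  · simp [derHom_fst, Algebra.ofId_apply, TrivSqZeroExt.algebraMap_eq_inl]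
  · simp [derHom_snd, Algebra.ofId_apply, TrivSqZeroExt.algebraMap_eq_inl, hD]

include he in
lemma push_fst_pointD (D : Der e M) :
    push G (TrivSqZeroExt.fstHom K K M) (pointD G ι hι e D) = 0 := by
  rw [pointD, push_pointOf, ← he]
  exact congrArg (pointOf G ι hι) (AlgHom.ext fun b => derHom_fst e D b)

include he in
lemma exists_pointD
    (h0 : (0 : G.Pt (𝟙 (Spec (CommRingCat.of K)))).hom.base (IsLocalRing.closedPoint K) ∈ Set.range ι.base)
    (x : G.Pt (strMap K (TrivSqZeroExt K M)))
    (hx : push G (TrivSqZeroExt.fstHom K K M) x = 0) : ∃ D, pointD G ι hι e D = x := by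
  obtain ⟨β, rfl⟩ := exists_pointOf_of_push G ι hι (TrivSqZeroExt.fstHom K K M)
    (fun r => ⟨TrivSqZeroExt.inl r, by simp⟩)
    (fun a ha => mem_nilradical.mpr ⟨2, by
      have ha' : a.fst = 0 := ha
      have : a = TrivSqZeroExt.inr a.snd := TrivSqZeroExt.ext (by simp [ha']) (by simp)
      rw [this, pow_two, TrivSqZeroExt.inr_mul_inr]⟩) h0 x hx
  have hβ : (TrivSqZeroExt.fstHom K K M).comp β = e :=
    pointOf_injective G ι hι (by rw [← push_pointOf, hx, he])
  have hfst : ∀ b, (β b).fst = e b := fun b => AlgHom.congr_fun hβ b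
  let D : B →ₗ[K] M := (TrivSqZeroExt.sndHom K M).comp β.toLinearMap
  refine ⟨⟨D, fun a b => ?_⟩, congrArg (pointOf G ι hι) (AlgHom.ext fun b =>
    TrivSqZeroExt.ext ?_ ?_)⟩
  · simp [D, hfst, op_smul_eq_smul]
  · exact (derHom_fst e _ b).trans (hfst b).symm
  · exact derHom_snd e _ b

include he in
lemma pointD_add
    (h0 : (0 : G.Pt (𝟙 (Spec (CommRingCat.of K)))).hom.base (IsLocalRing.closedPoint K) ∈ Set.range ι.base)
    (D₁ D₂ D : Der e M) (hD : D.1 = D₁.1 + D₂.1) :
    pointD G ι hι e D = pointD G ι hι e D₁ + pointD G ι hι e D₂ := by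
  let X₁ := pointD G ι hι e (D₁.post e (LinearMap.inl K M M))
  let X₂ := pointD G ι hι e (D₂.post e (LinearMap.inr K M M))
  obtain ⟨E, hE⟩ := exists_pointD G ι hι e he h0 (X₁ + X₂) (by
    rw [map_add, push_fst_pointD G ι hι e he, push_fst_pointD G ι hι e he, add_zero])
  have h1 : E.post e (LinearMap.fst K M M) = D₁ := by
    apply pointD_injective G ι hι e
    rw [← push_pointD, hE, map_add, push_pointD, push_pointD,
      pointD_zero G ι hι e he ((D₂.post e (LinearMap.inr K M M)).post e (LinearMap.fst K M M))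
        (LinearMap.ext fun b => by simp [Der.post]), add_zero]
    congr 1
  have h2 : E.post e (LinearMap.snd K M M) = D₂ := by
    apply pointD_injective G ι hι e
    rw [← push_pointD, hE, map_add, push_pointD, push_pointD,
      pointD_zero G ι hι e he ((D₁.post e (LinearMap.inl K M M)).post e (LinearMap.snd K M M))
        (LinearMap.ext fun b => by simp [Der.post]), zero_add]
    congr 1
  have h := congrArg (push G (TrivSqZeroExt.map (LinearMap.fst K M M + LinearMap.snd K M M))) hE
  rw [map_add, push_pointD, push_pointD, push_pointD] at h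
  calc pointD G ι hι e D = pointD G ι hι e (E.post e (LinearMap.fst K M M + LinearMap.snd K M M)) := by
        congr 1
        refine Subtype.ext ?_
        rw [hD, ← h1, ← h2]
        exact (LinearMap.add_comp _ _ _).symm
    _ = _ := h
    _ = _ := by congr 2 <;> exact Subtype.ext (LinearMap.ext fun b => by simp [Der.post])

include he in
lemma nsmul_pointD
    (h0 : (0 : G.Pt (𝟙 (Spec (CommRingCat.of K)))).hom.base (IsLocalRing.closedPoint K) ∈ Set.range ι.base)
    (D : Der e M) (n : ℕ) :
    n • pointD G ι hι e D = pointD G ι hι e (D.post e ((n : K) • LinearMap.id)) := by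
  induction n with
  | zero =>
    rw [zero_smul, pointD_zero G ι hι e he]
    exact LinearMap.ext fun b => by simp [Der.post]
  | succ n ih =>
    rw [succ_nsmul, ih]
    exact (pointD_add G ι hι e he h0 _ _ _ (LinearMap.ext fun b => by
      simp [Der.post, add_smul])).symm

end Der

end Chart

include G in
/-- Multiplication by `n` is formally unramified. -/
theorem formallyUnramified_mulN (n : ℕ) (hn : (n : K) ≠ 0) :
    FormallyUnramified (G.mulN n) := by
  refine FormallyUnramified.of_hom_ext _ fun R S φ hφ hI g₁ g₂ hi hg => ?_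
  let t := g₁ ≫ f
  have ht : g₂ ≫ f = g₁ ≫ f := by
    rw [← G.mulN_comp n, ← Category.assoc, ← Category.assoc, hg]
  obtain ⟨a, ha⟩ := Spec.map_surjective t
  let _ : Algebra K R := a.hom.toAlgebra
  let _ : Algebra K S := (a ≫ φ).hom.toAlgebra
  let φ' : R →ₐ[K] S := ⟨φ.hom, fun r => rfl⟩
  have hstr : strMap K R = t := ha
  let x₁ : G.Pt (strMap K R) := CommLaw.Pt.mk G g₁ hstr.symm
  let x₂ : G.Pt (strMap K R) := CommLaw.Pt.mk G g₂ (ht.trans hstr.symm)
  suffices hd : x₁ - x₂ = 0 from congrArg CommLaw.Pt.hom (sub_eq_zero.mp hd)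
  have hpush : push G φ' (x₁ - x₂) = 0 := by
    rw [map_sub, sub_eq_zero]
    exact CommLaw.Pt.ext hi
  have hnd : n • (x₁ - x₂) = 0 := by
    rw [smul_sub, sub_eq_zero]
    apply CommLaw.Pt.ext
    rw [← G.hom_comp_mulN, ← G.hom_comp_mulN]
    exact hg
  obtain ⟨_, ⟨W, hW', rfl⟩, h0', -⟩ := A.isBasis_affineOpens.exists_subset_of_mem_open
    (Set.mem_univ ((0 : G.Pt (𝟙 (Spec (CommRingCat.of K)))).hom.base (IsLocalRing.closedPoint K)))
    isOpen_univ
  have hW : IsAffineOpen W := hW'
  let ι := hW.fromSpec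
  obtain ⟨c, hc⟩ := Spec.map_surjective (ι ≫ f)
  let _ : Algebra K Γ(A, W) := c.hom.toAlgebra
  have hι : ι ≫ f = strMap K Γ(A, W) := hc.symm
  have h0 : (0 : G.Pt (𝟙 (Spec (CommRingCat.of K)))).hom.base (IsLocalRing.closedPoint K) ∈
      Set.range ι.base := hW.range_fromSpec ▸ h0'
  obtain ⟨e, he⟩ := exists_pointOf G ι hι (0 : G.Pt (strMap K K)) (fun p => by
    have hz : (0 : G.Pt (strMap K K)) = G.comp (strMap K K) (Category.comp_id _) 0 :=
      (map_zero _).symm
    rw [hz, CommLaw.comp_hom]
    erw [Scheme.Hom.comp_apply]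
    rwa [show (strMap K K).base p = IsLocalRing.closedPoint K from
      Subsingleton.elim (α := PrimeSpectrum K) _ _])
  obtain ⟨β, hβ⟩ := exists_pointOf_of_push G ι hι φ' hφ
    (fun r hr => mem_nilradical.mpr ⟨2, by
      have : r ^ 2 ∈ RingHom.ker φ.hom ^ 2 := Ideal.pow_mem_pow hr 2
      rwa [hI, Ideal.mem_bot] at this⟩) h0 _ hpush
  have hmod : ∀ b, φ' (β b) = algebraMap K S (e b) := fun b => by
    have h : φ'.comp β = (Algebra.ofId K S).comp e :=
      pointOf_injective G ι hι (by rw [← push_pointOf, hβ, hpush, pointOf_ofId G ι hι e he])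
    exact AlgHom.congr_fun h b
  let M : Submodule K R := LinearMap.ker φ'.toLinearMap
  have hMM : ∀ x y : M, (x : R) * y = 0 := fun x y => by
    have : (x : R) * y ∈ RingHom.ker φ.hom ^ 2 := by
      rw [pow_two]; exact Ideal.mul_mem_mul x.2 y.2
    rwa [hI, Ideal.mem_bot] at this
  letI : Module Kᵐᵒᵖ M :=
    Module.compHom M ((RingHom.id K).fromOpposite fun x y => mul_comm _ _)
  haveI : IsCentralScalar K M := ⟨fun _ _ => rfl⟩
  let D₀ : Γ(A, W) →ₗ[K] M :=
    (β.toLinearMap - (Algebra.linearMap K R).comp e.toLinearMap).codRestrict M fun b => by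
      simp only [M, LinearMap.mem_ker, LinearMap.sub_apply, AlgHom.toLinearMap_apply,
        LinearMap.comp_apply, Algebra.linearMap_apply, map_sub, hmod, AlgHom.commutes, sub_self]
  have hDv : ∀ b, (D₀ b : R) = β b - algebraMap K R (e b) := fun b => rfl
  let D : Der e M := ⟨D₀, fun b c => by
    apply Subtype.ext
    have h := hMM (D₀ b) (D₀ c)
    simp only [Submodule.coe_add, Submodule.coe_smul, Algebra.smul_def, hDv, map_mul] at h ⊢
    linear_combination h⟩
  let ψ : TrivSqZeroExt K M →ₐ[K] R := TrivSqZeroExt.liftEquivOfComm ⟨M.subtype, hMM⟩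
  have hψ : ∀ (E : Der e M) (b : Γ(A, W)),
      ψ (derHom e E b) = algebraMap K R (e b) + (E.1 b : R) := fun E b => by
    simp [ψ, TrivSqZeroExt.lift_def, derHom_fst, derHom_snd, Algebra.ofId_apply]
  have hd : push G ψ (pointD G ι hι e D) = x₁ - x₂ := by
    rw [pointD, push_pointOf, ← hβ]
    refine congrArg (pointOf G ι hι) (AlgHom.ext fun b => ?_)
    rw [AlgHom.comp_apply, hψ]
    show algebraMap K R (e b) + (D₀ b : R) = β b
    rw [hDv, add_sub_cancel]
  have h1 : push G ψ (n • pointD G ι hι e D) = 0 := by rw [map_nsmul, hd, hnd]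
  rw [nsmul_pointD G ι hι e he h0 D n, pointD, push_pointOf,
    ← pointOf_ofId G ι hι e he R] at h1
  have h2 := pointOf_injective G ι hι h1
  have hD0 : D.1 = 0 := LinearMap.ext fun b => by
    have h3 := AlgHom.congr_fun h2 b
    rw [AlgHom.comp_apply, hψ] at h3
    have h4 : (n : K) • (D.1 b : R) = 0 := by
      simpa [Der.post, Algebra.ofId_apply] using h3
    exact Subtype.ext ((smul_eq_zero.mp h4).resolve_left hn)
  rw [← hd, pointD_zero G ι hι e he D hD0, map_zero]

end FLTA.AbelianVar.Tangent
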