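import Mathlib.RingTheory.AlgebraicIndependent.TranscendenceBasis
import Mathlib.RingTheory.AlgebraicIndependent.Transcendental
import Mathlib.RingTheory.Algebraic.Integral
import Mathlib.RingTheory.NoetherNormalization
import Mathlib.RingTheory.Polynomial.UniqueFactorization
import Mathlib.Algebra.MvPolynomial.NoZeroDivisors
import Mathlib.RingTheory.UniqueFactorizationDomain.Basic
import Mathlib.RingTheory.Ideal.Quotient.Operations

/-!
# Transcendence degree of quotients of affine domains
-/

set_option autoImplicit false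

universe u v

namespace FLTA.AbelianVar

variable {K : Type u} [Field K] {A : Type v} [CommRing A] [IsDomain A] [Algebra K A]

/-- Passing to the quotient by a nonzero prime lowers the transcendence degree. -/
theorem trdeg_quotient_add_one_le (P : Ideal A) [P.IsPrime] (hP : P ≠ ⊥) :
    Algebra.trdeg K (A ⧸ P) + 1 ≤ Algebra.trdeg K A := by
  obtain ⟨s, hs⟩ := exists_isTranscendenceBasis K (A ⧸ P)
  choose y hy using fun i : s => Ideal.Quotient.mk_surjective (i : A ⧸ P)
  obtain ⟨a, haP, ha0⟩ := Submodule.exists_mem_ne_zero_of_ne_bot hP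
  have hcomp : (Ideal.Quotient.mkₐ K P) ∘ y = fun i : s => (i : A ⧸ P) := funext hy
  have hyi : AlgebraicIndependent K y :=
    AlgebraicIndependent.of_comp (Ideal.Quotient.mkₐ K P) (hcomp ▸ hs.1)
  have htr : Transcendental (Algebra.adjoin K (Set.range y)) a := by
    intro halg
    obtain ⟨p, hp0, hp⟩ := halg.exists_nonzero_coeff_and_aeval_eq_zero
      (mem_nonZeroDivisors_of_ne_zero ha0)
    refine hp0 ?_
    have h0 : ((p.coeff 0 : Algebra.adjoin K (Set.range y)) : A) ∈ P := by
      have h1 := congrArg (Ideal.Quotient.mk P) hp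
      rw [Polynomial.aeval_def, Polynomial.hom_eval₂, map_zero,
        Ideal.Quotient.eq_zero_iff_mem.mpr haP, Polynomial.eval₂_at_zero] at h1
      exact Ideal.Quotient.eq_zero_iff_mem.mp h1
    obtain ⟨F, hF⟩ : ∃ F, MvPolynomial.aeval y F = ((p.coeff 0 : _) : A) := by
      exact (SetLike.ext_iff.mp (Algebra.adjoin_range_eq_range_aeval K y) _).mp (p.coeff 0).2
    have hz : MvPolynomial.aeval (fun i : s => (i : A ⧸ P)) F = 0 := by
      have hc : MvPolynomial.aeval (fun i : s => (i : A ⧸ P))
          = (Ideal.Quotient.mkₐ K P).comp (MvPolynomial.aeval y) := by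
        refine MvPolynomial.algHom_ext fun i => ?_
        simp [hy]
      rw [hc, AlgHom.comp_apply, hF]
      exact Ideal.Quotient.eq_zero_iff_mem.mpr h0
    have hF0 : F = 0 := hs.1.eq_zero_of_aeval_eq_zero _ hz
    apply Subtype.ext
    rw [← hF, hF0, map_zero]
    rfl
  have hext := (hyi.option_iff_transcendental a).mpr htr
  refine le_trans ?_ hext.cardinalMk_le_trdeg
  rw [Cardinal.mk_option, hs.cardinalMk_eq_trdeg]

/-- An injective integral extension does not change the transcendence degree. -/
theorem trdeg_eq_of_injective_integral {S B : Type v} [CommRing S] [IsDomain S] [Algebra K S]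
    [CommRing B] [IsDomain B] [Algebra K B] (φ : S →ₐ[K] B) (hinj : Function.Injective φ)
    (hint : φ.toRingHom.IsIntegral) : Algebra.trdeg K S = Algebra.trdeg K B := by
  let _ := φ.toRingHom.toAlgebra
  have _ : IsScalarTower K S B := IsScalarTower.of_algebraMap_eq fun x => (φ.commutes x).symm
  have _ : FaithfulSMul S B := (faithfulSMul_iff_algebraMap_injective S B).mpr hinj
  have _ : Algebra.IsIntegral S B := ⟨hint⟩
  have _ : Algebra.IsAlgebraic S B := Algebra.IsIntegral.isAlgebraic
  rw [← trdeg_add_eq K S (A := B), trdeg_eq_zero_iff.mpr ‹Algebra.IsAlgebraic S B›, add_zero]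

/-- A hypersurface in affine space has transcendence degree at least one less. -/
theorem le_trdeg_quotient_span_singleton {K : Type u} [Field K] {n : ℕ}
    (f : MvPolynomial (Fin (n + 1)) K) (hf : ∀ r : K, f ≠ MvPolynomial.C r)
    [(Ideal.span {f}).IsPrime] :
    (n : Cardinal) ≤ Algebra.trdeg K (MvPolynomial (Fin (n + 1)) K ⧸ Ideal.span {f}) := by
  obtain ⟨i, hi⟩ : ∃ i, f.degreeOf i ≠ 0 := by
    by_contra! h
    refine hf (MvPolynomial.coeff 0 f) ?_
    ext m
    rw [MvPolynomial.coeff_C]
    split_ifs with hm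
    · rw [hm]
    · obtain ⟨j, hj⟩ := Finsupp.ne_iff.mp hm
      by_contra hcf
      have hm' : m ∈ f.support := MvPolynomial.mem_support_iff.mpr hcf
      have := h j ▸ MvPolynomial.monomial_le_degreeOf j hm'
      exact hj (Nat.le_zero.mp this).symm
  have hind : AlgebraicIndependent K (fun j : Fin n =>
      Ideal.Quotient.mk (Ideal.span {f}) (MvPolynomial.X (i.succAbove j))) := by
    rw [algebraicIndependent_iff]
    intro G hG
    have hcomp : MvPolynomial.aeval (fun j : Fin n =>
        Ideal.Quotient.mk (Ideal.span {f}) (MvPolynomial.X (i.succAbove j)))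
        = (Ideal.Quotient.mkₐ K _).comp (MvPolynomial.rename i.succAbove) := by
      refine MvPolynomial.algHom_ext fun j => ?_
      simp
    rw [hcomp] at hG
    obtain ⟨c, hc⟩ := Ideal.mem_span_singleton.mp (Ideal.Quotient.eq_zero_iff_mem.mp hG)
    change MvPolynomial.rename i.succAbove G = f * c at hc
    by_contra hG0
    have hr0 : MvPolynomial.rename i.succAbove G ≠ 0 :=
      (map_ne_zero_iff _ (MvPolynomial.rename_injective _ i.succAbove_right_injective)).mpr hG0
    have hf0 : f ≠ 0 := fun h => hr0 (by rw [hc, h, zero_mul])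
    have hc0 : c ≠ 0 := fun h => hr0 (by rw [hc, h, mul_zero])
    have hd : (MvPolynomial.rename i.succAbove G).degreeOf i = 0 := by
      rw [MvPolynomial.degreeOf_eq_sup]
      refine Nat.le_zero.mp (Finset.sup_le fun m hm => ?_)
      classical
      rw [MvPolynomial.support_rename_of_injective i.succAbove_right_injective,
        Finset.mem_image] at hm
      obtain ⟨m', -, rfl⟩ := hm
      rw [Finsupp.mapDomain_of_notMem_range]
      rintro ⟨j, hj⟩
      exact i.succAbove_ne j hj
    rw [hc, MvPolynomial.degreeOf_mul_eq hf0 hc0] at hd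
    lia
  simpa using hind.lift_cardinalMk_le_trdeg

/-- A nonzero prime of affine space whose quotient has the transcendence degree of a hypersurface
is principal. -/
theorem isPrincipal_of_le_trdeg_quotient {K : Type u} [Field K] {n : ℕ}
    (q : Ideal (MvPolynomial (Fin (n + 1)) K)) [hq : q.IsPrime] (hq0 : q ≠ ⊥)
    (htr : (n : Cardinal) ≤ Algebra.trdeg K (MvPolynomial (Fin (n + 1)) K ⧸ q)) :
    ∃ h, Prime h ∧ q = Ideal.span {h} := by
  obtain ⟨h, hmem, hpr⟩ := hq.exists_mem_prime_of_ne_bot hq0
  refine ⟨h, hpr, ?_⟩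
  by_contra hne
  have _ : (Ideal.span {h}).IsPrime := (Ideal.span_singleton_prime hpr.ne_zero).mpr hpr
  have hle : Ideal.span {h} ≤ q := (Ideal.span_singleton_le_iff_mem q).mpr hmem
  let P := q.map (Ideal.Quotient.mk (Ideal.span {h}))
  have hker : RingHom.ker (Ideal.Quotient.mk (Ideal.span {h})) ≤ q := by
    rwa [Ideal.mk_ker]
  have _ : P.IsPrime := Ideal.map_isPrime_of_surjective Ideal.Quotient.mk_surjective hker
  have hP0 : P ≠ ⊥ := fun hbot => hne (le_antisymm (by
    intro x hx
    have hx' : Ideal.Quotient.mk (Ideal.span {h}) x ∈ P := Ideal.mem_map_of_mem _ hx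
    rw [hbot, Ideal.mem_bot] at hx'
    exact Ideal.Quotient.eq_zero_iff_mem.mp hx') hle)
  have h1 := trdeg_quotient_add_one_le (K := K) P hP0
  have h2 := trdeg_quotient_add_one_le (K := K) (Ideal.span {h})
    (by rw [Ne, Ideal.span_singleton_eq_bot]; exact hpr.ne_zero)
  rw [MvPolynomial.trdeg_of_isDomain, Cardinal.mk_fin, Cardinal.lift_natCast] at h2
  have e : Algebra.trdeg K ((MvPolynomial (Fin (n + 1)) K ⧸ Ideal.span {h}) ⧸ P)
      = Algebra.trdeg K (MvPolynomial (Fin (n + 1)) K ⧸ q) := by
    exact (DoubleQuot.quotQuotEquivQuotOfLEₐ K hle).trdeg_eq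
  rw [e] at h1
  have h3 : ((n + 1 + 1 : ℕ) : Cardinal) ≤ ((n + 1 : ℕ) : Cardinal) := by
    push_cast
    calc (n : Cardinal) + 1 + 1
        ≤ Algebra.trdeg K (MvPolynomial (Fin (n + 1)) K ⧸ q) + 1 + 1 :=
          add_le_add (add_le_add htr le_rfl) le_rfl
      _ ≤ Algebra.trdeg K (MvPolynomial (Fin (n + 1)) K ⧸ Ideal.span {h}) + 1 :=
          add_le_add h1 le_rfl
      _ ≤ _ := h2
      _ = _ := by push_cast; rfl
  norm_cast at h3
  lia

end FLTA.AbelianVar
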